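import Fermat.Agent.PPart.BlockMain

/-!
# The block at `p`: existence
-/

set_option autoImplicit false
set_option linter.unusedSectionVars false
set_option linter.style.haveILetI false

open IsLocalRing GaloisRep Fermat.Agent.CFT.Loc Fermat.Agent.CFT Fermat.Agent.Flat
  Fermat.Agent.DefRing Fermat.Agent.TW Fermat.Agent.LL

namespace Fermat.Agent.PPart

local notation "Γℚ" => (AlgebraicClosure ℚ ≃ₐ[ℚ] AlgebraicClosure ℚ)
local notation "M₂" => Matrix (Fin 2) (Fin 2)

variable {p : ℕ} [hp : Fact p.Prime]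

theorem mem_of_forall_sup {A : Type*} [CommRing A] [IsLocalRing A] [IsNoetherianRing A]
    (J : Ideal A) {x : A} (h : ∀ n, x ∈ J ⊔ maximalIdeal A ^ n) : x ∈ J := by
  have hH : IsHausdorff (maximalIdeal A) (A ⧸ J) := by infer_instance
  have h1 : (Submodule.Quotient.mk x : A ⧸ J) = 0 := by
    refine hH.haus _ fun n => ?_
    rw [SModEq.zero]
    obtain ⟨a, ha, b, hb, rfl⟩ := Submodule.mem_sup.1 (h n)
    have h2 : (Submodule.Quotient.mk (a + b) : A ⧸ J) = b • (Submodule.Quotient.mk 1 : A ⧸ J) := by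
      rw [Submodule.Quotient.mk_add, (Submodule.Quotient.mk_eq_zero J).2 ha, zero_add,
        ← Submodule.Quotient.mk_smul, smul_eq_mul, mul_one]
    rw [h2]
    exact Submodule.smul_mem_smul hb trivial
  exact (Submodule.Quotient.mk_eq_zero J).1 h1

theorem theta_sq_mem {T k : Type*} [CommRing T] [IsLocalRing T] [Field k] (θ : T →+* DualNumber k)
    (hθ : IsLocalHom θ) {z : T} (hz : z ∈ maximalIdeal T ^ 2) : θ z = 0 := by
  have h1 : ∀ a ∈ maximalIdeal T, (θ a).fst = 0 := by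
    intro a ha
    by_contra h
    have h2 : IsUnit (θ a) := by
      rw [TrivSqZeroExt.isUnit_iff_isUnit_fst]
      exact isUnit_iff_ne_zero.2 h
    exact ((mem_maximalIdeal _).1 ha) (hθ.map_nonunit a h2)
  have h2 : maximalIdeal T * maximalIdeal T ≤ RingHom.ker θ := by
    rw [Ideal.mul_le]
    intro a ha b hb
    rw [RingHom.mem_ker, map_mul]
    ext
    · rw [TrivSqZeroExt.fst_mul, h1 a ha, zero_mul]; rfl
    · rw [TrivSqZeroExt.snd_mul, h1 a ha, h1 b hb]
      simp
  rw [sq] at hz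
  exact h2 hz

section Main

variable {T : Type} [CommRing T] [IsLocalRing T] [IsNoetherianRing T]
  [IsAdicComplete (maximalIdeal T) T] (hfin : ∀ n, Finite (T ⧸ maximalIdeal T ^ n))
  {I : Type} [Finite I] {O : I → Type} [∀ i, CommRing (O i)] [∀ i, IsLocalRing (O i)]
  [∀ i, IsHausdorff (maximalIdeal (O i)) (O i)]
  (hfinO : ∀ i n, Finite (O i ⧸ maximalIdeal (O i) ^ n)) (φ : ∀ i, T →+* O i)
  (hφ : ∀ i, IsLocalHom (φ i)) (hinj : ∀ x : T, (∀ i, φ i x = 0) → x = 0)
  {ρT : GaloisRepAdic T} {R : Γℚ → M₂ T} (hR : Realizes ρT R) (hdet : ρT.DetIsCyclotomic p)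
  {ρ : ∀ i, GaloisRepAdic (O i)} (hRi : ∀ i, Realizes (ρ i) (fun σ => (R σ).map (φ i)))

include hfin hfinO hφ hR hdet hRi in
/-- the value at `σ_p` on the flat quotient -/
theorem exists_flat_corr (hord : OrdLoc p R) {π : PadicAlgCl p} (hπ : IsPi π) {s₁ : GalLoc p}
    (hs₁ : IsSigma π s₁) :
    ∃ c : T, ∀ i, (ρ i).IsFlatAt p → φ i (R (localGaloisToGlobal p s₁) 0 1 - p * c) = 0 := by
  classical
  by_cases hne : ∃ i, (ρ i).IsFlatAt p
  swap
  · exact ⟨0, fun i hi => absurd ⟨i, hi⟩ hne⟩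
  obtain ⟨i₁, hi₁⟩ := hne
  let I' : Type := {i // (ρ i).IsFlatAt p}
  let K : Ideal T := ⨅ i : I', RingHom.ker (φ i)
  have hK : ∀ x, x ∈ K ↔ ∀ i : I', φ i x = 0 := fun x => by
    rw [Ideal.mem_iInf]; rfl
  have hKne : K ≠ ⊤ := by
    intro h
    have h1 : (1 : T) ∈ K := by rw [h]; trivial
    have h2 := (hK 1).1 h1 ⟨i₁, hi₁⟩
    rw [map_one] at h2
    exact one_ne_zero h2
  haveI : Nontrivial (T ⧸ K) := Ideal.Quotient.nontrivial_iff.2 hKne
  haveI : IsLocalRing (T ⧸ K) := IsLocalRing.of_surjective' (Ideal.Quotient.mk K)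
    Ideal.Quotient.mk_surjective
  haveI hc : IsAdicComplete (maximalIdeal (T ⧸ K)) (T ⧸ K) := isAdicComplete_quot hfin K
  have hmk : IsLocalHom (Ideal.Quotient.mk K) :=
    IsLocalHom.of_surjective _ Ideal.Quotient.mk_surjective
  let φ' : ∀ i : I', T ⧸ K →+* O i := fun i => Ideal.Quotient.lift K (φ i)
    fun x hx => (hK x).1 hx i
  have hφ'mk : ∀ i x, φ' i (Ideal.Quotient.mk K x) = φ i x := fun i x => rfl
  have hφ' : ∀ i, IsLocalHom (φ' i) := fun i => by
    constructor
    intro x hx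
    obtain ⟨y, rfl⟩ := Ideal.Quotient.mk_surjective x
    exact ((hφ i).map_nonunit y hx).map _
  have hinj' : ∀ x : T ⧸ K, (∀ i, φ' i x = 0) → x = 0 := by
    intro x hx
    obtain ⟨y, rfl⟩ := Ideal.Quotient.mk_surjective x
    rw [Ideal.Quotient.eq_zero_iff_mem, hK]
    exact hx
  have hfin' : ∀ n, Finite ((T ⧸ K) ⧸ maximalIdeal (T ⧸ K) ^ n) := by
    intro n
    haveI := hfin n
    have h1 : maximalIdeal T ^ n ≤ (maximalIdeal (T ⧸ K) ^ n).comap (Ideal.Quotient.mk K) :=
      fun x hx => map_mem_maximalIdeal_pow (Ideal.Quotient.mk K) hmk hx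
    refine Finite.of_surjective (Ideal.quotientMap (maximalIdeal (T ⧸ K) ^ n)
      (Ideal.Quotient.mk K) h1) ?_
    exact Ideal.quotientMap_surjective Ideal.Quotient.mk_surjective
  have hR' : Realizes (ρT.baseChangeAlong (Ideal.Quotient.mk K) hmk)
      (fun σ => (R σ).map (Ideal.Quotient.mk K)) := hR.baseChange _ hmk
  have hflat : (ρT.baseChangeAlong (Ideal.Quotient.mk K) hmk).IsFlatAt p :=
    isFlatAt_glue (I := I') (O := fun i => O i) hfin' (fun i n => hfinO i n) φ' hφ' hinj' hR'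
      (ρ := fun i : I' => ρ i) (fun i => hRi i) (fun i => i.2)
  have hdet' := detIsCyclotomic_baseChange (Ideal.Quotient.mk K) hmk hdet
  have hord' := hord.map (Ideal.Quotient.mk K)
  have key : Ideal.Quotient.mk K (R (localGaloisToGlobal p s₁) 0 1) ∈
      Ideal.span {(p : T ⧸ K)} := by
    apply mem_of_forall_sup
    intro n
    haveI := hfin' n
    haveI : Finite ((T ⧸ K) ⧸ (Ideal.span {(p : T ⧸ K)} ⊔ maximalIdeal (T ⧸ K) ^ n)) :=
      Finite.of_surjective _ (Ideal.Quotient.factor_surjective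
        (le_sup_right : maximalIdeal (T ⧸ K) ^ n ≤ _))
    have h1 := sub_one_mem_of_flat hR' hflat hdet' (fun σ _ => hord'.dec σ) hord'.ine hπ hs₁
      (Ideal.span {(p : T ⧸ K)} ⊔ maximalIdeal (T ⧸ K) ^ n)
      (Ideal.mem_sup_left (Ideal.mem_span_singleton_self _)) 0 1
    rw [Matrix.sub_apply, Matrix.one_apply_ne (by decide), sub_zero] at h1
    exact h1
  obtain ⟨c', hc'⟩ := Ideal.mem_span_singleton.1 key
  obtain ⟨c, rfl⟩ := Ideal.Quotient.mk_surjective c'
  refine ⟨c, fun i hi => ?_⟩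
  have h1 : Ideal.Quotient.mk K (R (localGaloisToGlobal p s₁) 0 1 - p * c) = 0 := by
    rw [map_sub, map_mul, map_natCast, hc', sub_self]
  exact (hK _).1 (Ideal.Quotient.eq_zero_iff_mem.1 h1) ⟨i, hi⟩

end Main

theorem map_conj_eq {A B : Type*} [CommRing A] [CommRing B] (f : A →+* B) (P M : M₂ A) :
    P⁻¹.map f * M.map f * P.map f = (P⁻¹ * M * P).map f := by
  rw [Matrix.map_mul, Matrix.map_mul]

theorem mem_conj_sub {A : Type*} [CommRing A] [IsLocalRing A] {P M : M₂ A} (hP : IsUnit P.det)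
    (hM : ∀ i j, (M - 1) i j ∈ maximalIdeal A) (i j : Fin 2) :
    (P⁻¹ * M * P - 1) i j ∈ maximalIdeal A := by
  have h1 : P⁻¹ * M * P - 1 = P⁻¹ * (M - 1) * P := by
    rw [mul_sub, mul_one, sub_mul, Matrix.nonsing_inv_mul _ hP]
  rw [h1, Matrix.mul_apply]
  refine Ideal.sum_mem _ fun k _ => Ideal.mul_mem_right _ _ ?_
  rw [Matrix.mul_apply]
  exact Ideal.sum_mem _ fun l _ => Ideal.mul_mem_left _ _ (hM l k)

section Final

variable {T : Type} [CommRing T] [IsLocalRing T] [IsNoetherianRing T]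
  [IsAdicComplete (maximalIdeal T) T] (hfin : ∀ n, Finite (T ⧸ maximalIdeal T ^ n))
  {I : Type} [Finite I] {O : I → Type} [∀ i, CommRing (O i)] [∀ i, IsLocalRing (O i)]
  [∀ i, IsHausdorff (maximalIdeal (O i)) (O i)]
  (hfinO : ∀ i n, Finite (O i ⧸ maximalIdeal (O i) ^ n)) (φ : ∀ i, T →+* O i)
  (hφ : ∀ i, IsLocalHom (φ i)) (hinj : ∀ x : T, (∀ i, φ i x = 0) → x = 0)
  {ρT : GaloisRepAdic T} {R : Γℚ → M₂ T} (hR : Realizes ρT R) (hdet : ρT.DetIsCyclotomic p)
  {ρ : ∀ i, GaloisRepAdic (O i)} (hRi : ∀ i, Realizes (ρ i) (fun σ => (R σ).map (φ i)))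

include hfin hfinO hφ hinj hR hdet hRi in
/-- **Existence of the block at `p`.** -/
theorem exists_pBlock (hp2 : p ≠ 2)
    (hloc : ∀ i, (ρ i).IsFlatAt p ∨ (ρ i).IsStrictOrdinaryAt p) (i₀ : I)
    (h₀ : (ρ i₀).IsStrictOrdinaryAt p) {π : PadicAlgCl p} (hπ : IsPi π) {s₁ : GalLoc p}
    (hs₁ : IsSigma π s₁)
    (hs₁' : ∀ i j, (R (localGaloisToGlobal p s₁) - 1) i j ∈ maximalIdeal T) :
    Nonempty (PBlock p s₁ T R O φ ρ) := by
  obtain ⟨P, hP, hord, hstrict⟩ := exists_ordBasis hfinO φ hφ hinj hR hdet hRi hp2 hloc i₀ h₀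
  have hR' : Realizes ρT (fun σ => P⁻¹ * R σ * P) := hR.conj P hP
  have hRi' := fun i => realizes_conj_point φ hRi hP i
  obtain ⟨F, hF⟩ := exists_frobenius_loc' (l := p)
  set β : T := (P⁻¹ * R (localGaloisToGlobal p F) * P) 1 1 with hβ
  have hβu : IsUnit β := hord.isUnit hR' F
  have h2T := isUnit_two_of_mem hp2 hdet.1
  have hsq : ∀ i, (ρ i).IsStrictOrdinaryAt p → φ i β ^ 2 = 1 := fun i hi =>
    sq_eq_one_of_ordMat (hRi' i) (hstrict i hi) (detIsCyclotomic_point (hφ i) hR (hRi i) hdet) F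
  obtain ⟨u, hu, hu₀⟩ : ∃ u : T, (u = 1 ∨ u = -1) ∧ φ i₀ β = φ i₀ u := by
    rcases sign_of_sq (isUnit_two_of_mem hp2 (natCast_mem_of_local (φ i₀) (hφ i₀) hdet.1))
      (hsq i₀ h₀) with h | h
    · exact ⟨1, Or.inl rfl, by rw [h, map_one]⟩
    · exact ⟨-1, Or.inr rfl, by rw [h, map_neg, map_one]⟩
  have hu2 : u ^ 2 = 1 := by rcases hu with rfl | rfl <;> ring
  have hβm : β - u ∈ maximalIdeal T := by
    apply mem_of_point (φ i₀)
    rw [map_sub, hu₀, sub_self]
    exact Ideal.zero_mem _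
  obtain ⟨β', hββ'⟩ := hβu.exists_right_inv
  -- the value at `σ_p`
  have hy0 : (P⁻¹ * R (localGaloisToGlobal p s₁) * P) 0 1 ∈ maximalIdeal T := by
    have h1 := mem_conj_sub hP hs₁' 0 1
    rwa [Matrix.sub_apply, Matrix.one_apply_ne (by decide), sub_zero] at h1
  obtain ⟨c, hc⟩ := exists_flat_corr hfin hfinO φ hφ hR' hdet hRi' hord hπ hs₁
  refine ⟨{
    x := u * β - 1
    y := (P⁻¹ * R (localGaloisToGlobal p s₁) * P) 0 1 - p * c
    Tp := β + p * β'
    x_mem := ?_
    y_mem := Ideal.sub_mem _ hy0 (Ideal.mul_mem_right _ _ hdet.1)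
    det := ⟨-(2 + (u * β - 1)) * (1 - p ^ 2 * β' ^ 2), ?_⟩
    y_flat := hc
    x_strict := ?_
    crys := ?_
    gen := ?_ }⟩
  · have : u * β - 1 = u * (β - u) := by linear_combination hu2
    rw [this]
    exact Ideal.mul_mem_left _ _ hβm
  · linear_combination (β ^ 2 - p ^ 2 * β ^ 2 * β' ^ 2) * hu2 +
      (-2 * p - p ^ 2 * (β * β' + 1)) * hββ'
  · intro i hi
    have h1 := hsq i hi
    have h3 : IsUnit (β + u) := by
      refine isUnit_of_sub_mem (h2T.mul (IsUnit.of_mul_eq_one u (by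
        rw [← sq]; exact hu2))) ?_
      have : β + u - 2 * u = β - u := by ring
      rw [this]
      exact hβm
    have h4 : φ i (β - u) * φ i (β + u) = 0 := by
      rw [← map_mul, show (β - u) * (β + u) = β ^ 2 - u ^ 2 by ring, hu2, map_sub, map_pow, h1,
        map_one, sub_self]
    have h5 : φ i (β - u) = 0 := ((h3.map (φ i)).mul_left_eq_zero).1 h4
    have : u * β - 1 = u * (β - u) := by linear_combination hu2
    rw [this, map_mul, h5, mul_zero]
  · intro i hi ι a ha
    have h1 := ha _ (hRi' i) (hord.map (φ i)) F hF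
    have h2 : ι (φ i β) * ι (φ i β') = 1 := by
      rw [← map_mul, ← map_mul, hββ', map_one, map_one]
    change ι (φ i β) ^ 2 - a * ι (φ i β) + p = 0 at h1
    rw [map_add, map_mul, map_natCast, map_add, map_mul, map_natCast]
    linear_combination (ι (φ i β')) * h1 - (ι (φ i β) - a) * h2
  · intro k _ hpk θ hθ hx hy
    have hp0 : θ (p : T) = 0 := by
      rw [map_natCast]
      ext
      · rw [TrivSqZeroExt.fst_natCast, hpk]; rfl
      · rw [TrivSqZeroExt.snd_natCast]; rfl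
    have hθu : θ u = 1 ∨ θ u = -1 := by
      rcases hu with rfl | rfl
      · left; rw [map_one]
      · right; rw [map_neg, map_one]
    have hθβ : θ β = θ u := by
      rw [map_sub, map_one, map_mul, sub_eq_zero] at hx
      have h1 : θ u ^ 2 = 1 := by rw [← map_pow, hu2, map_one]
      linear_combination θ u * hx - θ β * h1
    have hθy : θ ((P⁻¹ * R (localGaloisToGlobal p s₁) * P) 0 1) = 0 := by
      rw [map_sub, map_mul, hp0, zero_mul, sub_zero] at hy
      exact hy
    have hPP : P⁻¹.map θ * P.map θ = 1 := by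
      rw [← Matrix.map_mul, Matrix.nonsing_inv_mul _ hP,
        Matrix.map_one _ (map_zero θ) (map_one θ)]
    have hPP' : P.map θ * P⁻¹.map θ = 1 := by
      rw [← Matrix.map_mul, Matrix.mul_nonsing_inv _ hP,
        Matrix.map_one _ (map_zero θ) (map_one θ)]
    constructor
    · refine ⟨P⁻¹.map θ, P.map θ, hPP, hPP', ?_, ?_⟩
      · intro σ hσ
        rw [← range_localGaloisToGlobal] at hσ
        obtain ⟨τ, rfl⟩ := hσ
        simp only [map_conj_eq θ P]
        refine ⟨?_, ?_⟩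
        · rw [Matrix.map_apply, hord.dec τ, map_zero]
        · obtain ⟨j, hj⟩ := hord.approx hR' hF τ 2
          have h1 := theta_sq_mem θ hθ hj
          rw [map_sub, map_pow, sub_eq_zero] at h1
          rw [Matrix.map_apply, h1]
          change (θ β ^ j).snd = 0
          rw [hθβ]
          rcases hθu with h | h
          · rw [h, one_pow]; rfl
          · rw [h]
            rcases neg_one_pow_eq_or (DualNumber k) j with h' | h'
            · rw [h']; rfl
            · rw [h', TrivSqZeroExt.snd_neg, TrivSqZeroExt.snd_one, neg_zero]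
      · intro σ hσ
        have hσD : σ ∈ (padicPlace p).decompositionSubgroup ℚ :=
          ((Fermat.Agent.Frob.mem_inertiaSubgroupIn_iff _ _).1 hσ).1
        rw [← range_localGaloisToGlobal] at hσD
        obtain ⟨τ, rfl⟩ := hσD
        simp only [map_conj_eq θ P]
        rw [Matrix.map_apply, hord.ine τ ((localGaloisToGlobal_mem_inertia_iff p τ).1 hσ), map_one]
        rfl
    · set N := P⁻¹ * R (localGaloisToGlobal p s₁) * P with hN
      have h10 : N 1 0 = 0 := hord.dec s₁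
      have h11 : N 1 1 = 1 := hord.ine s₁ hs₁.mem.1
      have hdetN := hs₁.det_sub_one hR' hdet
      change N.det - 1 ∈ _ at hdetN
      rw [Matrix.det_fin_two, h10, h11, mul_one, mul_zero, sub_zero,
        Ideal.mem_span_singleton] at hdetN
      obtain ⟨e, he⟩ := hdetN
      have h00 : θ (N 0 0) = 1 := by
        have : N 0 0 = 1 + p * e := by rw [← he]; ring
        rw [this, map_add, map_one, map_mul, hp0, zero_mul, add_zero]
      have hNθ : N.map θ = 1 := by
        ext a b : 1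
        rw [Matrix.map_apply]
        fin_cases a <;> fin_cases b
        · exact h00
        · exact hθy
        · change θ (N 1 0) = 0
          rw [h10, map_zero]
        · change θ (N 1 1) = 1
          rw [h11, map_one]
      have h3 : R (localGaloisToGlobal p s₁) = P * N * P⁻¹ := by
        rw [hN, ← Matrix.mul_assoc, ← Matrix.mul_assoc, Matrix.mul_nonsing_inv _ hP,
          Matrix.one_mul, Matrix.mul_assoc, Matrix.mul_nonsing_inv _ hP, Matrix.mul_one]
      rw [h3, Matrix.map_mul, Matrix.map_mul, hNθ, Matrix.mul_one, hPP']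

end Final

end Fermat.Agent.PPart
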