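import Fermat.Agent.PPart.BlockExists

/-!
# `σ_p` acts trivially on the residual representation
-/

set_option autoImplicit false
set_option linter.unusedSectionVars false
set_option linter.style.haveILetI false

open IsLocalRing GaloisRep Fermat.Agent.CFT.Loc Fermat.Agent.CFT Fermat.Agent.Flat
  Fermat.Agent.DefRing Fermat.Agent.TW Fermat.Agent.LL

namespace Fermat.Agent.PPart

local notation "Γℚ" => (AlgebraicClosure ℚ ≃ₐ[ℚ] AlgebraicClosure ℚ)
local notation "M₂" => Matrix (Fin 2) (Fin 2)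

variable {p : ℕ} [hp : Fact p.Prime]

/-- if `ρbar` is ordinary (matrix form `rb`) and has a flat lift over some `O'` (after extension of
the coefficients), then `σ_p` acts trivially. -/
theorem rho_sigma_eq_one {k : Type} [Field k] {ρbar : ResidualGaloisRep k}
    (hord : ∃ rb, RealizesRes ρbar rb ∧ OrdMat p (padicPlace p) rb) {O' : Type} [CommRing O']
    [IsLocalRing O'] (φ : k →+* ResidueField O') {ρ' : GaloisRepAdic O'}
    (hflat : ρ'.IsFlatAt p) (hdet : ρ'.DetIsCyclotomic p)
    (hres : ρ'.residual.IsEquiv (ρbar.baseChangeAlong φ)) {π : PadicAlgCl p} (hπ : IsPi π)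
    {s₁ : GalLoc p} (hs₁ : IsSigma π s₁) : ρbar.ρ (localGaloisToGlobal p s₁) = 1 := by
  obtain ⟨rb, hrb, hrbo⟩ := hord
  have hrbo' := OrdLoc.of_ordMat hrbo
  obtain ⟨r, hr, hrr⟩ := exists_realizes_of_residual_isEquiv ρ' (hrb.baseChangeAlong φ) hres
  haveI : Finite (ResidueField O') := ((isFlatAt_iff_mv hr p).mp hflat).1
  haveI : Finite (O' ⧸ maximalIdeal O') := ‹Finite (ResidueField O')›
  have hent : ∀ σ i j, residue O' (r σ i j) = φ (rb σ i j) := fun σ i j =>
    congrFun (congrFun (hrr σ) i) j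
  have key := fun i j => sub_one_mem_of_flat' hr hflat hdet hπ hs₁ (maximalIdeal O') hdet.1
    (fun σ _ => by
      rw [← residue_eq_zero_iff, hent, hrbo'.dec σ, map_zero])
    (fun σ hσ => by
      rw [← residue_eq_zero_iff, map_sub, hent, hrbo'.ine σ hσ, map_one, map_one, sub_self]) i j
  rw [rho_eq_one_iff hrb, rHom_apply]
  ext i j
  have h1 := key i j
  rw [← residue_eq_zero_iff, Matrix.sub_apply, map_sub, hent, sub_eq_zero] at h1
  apply φ.injective
  rw [h1, Matrix.one_apply, Matrix.one_apply]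
  split_ifs <;> simp

/-- the same over the Hecke ring -/
theorem sub_one_mem_of_rho {k : Type} [Field k] {ρbar : ResidualGaloisRep k} {T : Type}
    [CommRing T] [IsLocalRing T] {ρT : GaloisRepAdic T} {R : Γℚ → M₂ T} (hR : Realizes ρT R)
    (φ : k →+* ResidueField T) (hres : ρT.residual.IsEquiv (ρbar.baseChangeAlong φ)) {σ : Γℚ}
    (hσ : ρbar.ρ σ = 1) (i j : Fin 2) : (R σ - 1) i j ∈ maximalIdeal T := by
  obtain ⟨rb, hrb⟩ := exists_realizesRes ρbar
  have h1 : rb σ = 1 := by
    have := (rho_eq_one_iff hrb σ).1 hσ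
    rwa [rHom_apply] at this
  have h2 := hR.residual.of_isEquiv hres
  obtain ⟨Pb, hPb, hP⟩ := h2.exists_conj (hrb.baseChangeAlong φ)
  have h3 : (R σ).map (residue T) = 1 := by
    have h4 := hP σ
    have h5 : (rb σ).map φ = 1 := by
      rw [h1, Matrix.map_one _ (map_zero φ) (map_one φ)]
    rw [h5, Matrix.mul_one] at h4
    have h6 : (R σ).map (residue T) * Pb * Pb⁻¹ = Pb * Pb⁻¹ := by rw [← h4]
    rwa [Matrix.mul_assoc, Matrix.mul_nonsing_inv _ hPb, Matrix.mul_one] at h6
  rw [← residue_eq_zero_iff, Matrix.sub_apply, map_sub]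
  have h4 : residue T (R σ i j) = (1 : M₂ (ResidueField T)) i j := congrFun (congrFun h3 i) j
  rw [h4, Matrix.one_apply, Matrix.one_apply]
  split_ifs <;> simp

end Fermat.Agent.PPart
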