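import Fermat.Agent.PPart.CrysCore
import Fermat.Agent.LL.NF
import Fermat.Agent.LL.DVRExt
import Fermat.Agent.LL.AutOut
import Fermat.Agent.LL.BN

/-!
# The Frobenius eigenvalue at `p` of the representation attached to a newform

The polynomial `X² - a_p X + p` annihilates the eigenvalue of Frobenius on the unramified quotient
of the (ordinary) representation attached to an eigenform of level prime to `p`.
-/

set_option autoImplicit false
set_option linter.unusedSectionVars false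
set_option linter.style.haveILetI false

open Polynomial IsLocalRing GaloisRep Fermat.Agent.CFT.Loc Fermat.Agent.CFT Fermat.Agent.Flat
  Fermat.Agent.DefRing Fermat.Agent.TW Fermat.Agent.LL ModularFormClass

namespace Fermat.Agent.PPart

local notation "Γℚ" => (AlgebraicClosure ℚ ≃ₐ[ℚ] AlgebraicClosure ℚ)
local notation "M₂" => Matrix (Fin 2) (Fin 2)

/-- residual absolute irreducibility is stable under local base change -/
theorem absIrr_residual_baseChange {A B : Type} [CommRing A] [IsLocalRing A] [CommRing B]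
    [IsLocalRing B] (φ : A →+* B) (hφ : IsLocalHom φ) {ρ : GaloisRepAdic A}
    (h : ρ.residual.IsAbsolutelyIrreducible) :
    (ρ.baseChangeAlong φ hφ).residual.IsAbsolutelyIrreducible := by
  obtain ⟨r, hr⟩ := exists_realizes ρ
  refine absIrr_of_isEquiv (ResidueField.map φ) h ?_
  have R1 := (hr.baseChange φ hφ).residual
  have R2 := hr.residual.baseChangeAlong (ResidueField.map φ)
  have h3 : (fun σ => ((r σ).map (residue A)).map (ResidueField.map φ)) =
      (fun σ => ((r σ).map φ).map (residue B)) := by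
    funext σ
    rw [Matrix.map_map, Matrix.map_map]
    rfl
  rw [h3] at R2
  exact R1.isEquiv R2

theorem charpoly_baseChangeAlong' {A B : Type} [CommRing A] [IsLocalRing A] [CommRing B]
    [IsLocalRing B] (φ : A →+* B) (hφ : IsLocalHom φ) (ρ : GaloisRepAdic A) (σ : Γℚ) :
    LinearMap.charpoly ((ρ.baseChangeAlong φ hφ).ρ σ) = (LinearMap.charpoly (ρ.ρ σ)).map φ := by
  let _ : Algebra A B := φ.toAlgebra
  exact LinearMap.charpoly_baseChange (ρ.ρ σ) B

/-- **the Frobenius eigenvalue at `p`**, for normalised eigenforms of level prime to `p` -/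
theorem crysAt_eigenform {p : ℕ} [hp : Fact p.Prime] (hp2 : p ≠ 2) {M : ℕ} [NeZero M]
    {g : CuspForm (CongruenceSubgroup.Gamma0 M) 2} (hg : g.IsNormalizedEigenform)
    (hpM : ¬ p ∣ M) {S : Finset ℕ} (hMS : ∀ q : ℕ, q.Prime → q ∣ M → q ∈ S)
    {R : Type} [CommRing R] [IsDomain R] [IsDiscreteValuationRing R]
    [IsAdicComplete (maximalIdeal R) R] [Finite (ResidueField R)] [CharZero R]
    (hpR : (p : R) ∈ maximalIdeal R) {ι : R →+* ℂ} (hι : Function.Injective ι)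
    {ρ : GaloisRepAdic R} {tr : ℕ → R} (hρ : FrobChar ρ S tr)
    (htr : ∀ ℓ : ℕ, ℓ.Prime → ℓ ∉ S → ι (tr ℓ) = qCoeff g ℓ)
    (habs : ρ.residual.IsAbsolutelyIrreducible) : CrysAt p ι ρ (qCoeff g p) := by
  classical
  intro r hr hord F hF
  letI : Algebra R ℂ := ι.toAlgebra
  have hint : IsIntegral R (qCoeff g p) := by
    have h1 : IsIntegral ℤ (qCoeff g p) := Eigenform.isIntegral_qCoeff_prime hg hp.out
    exact h1.tower_top
  let D := Algebra.adjoin R {qCoeff g p}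
  haveI : Module.Finite R D := Algebra.finite_adjoin_simple_of_isIntegral hint
  have hDinj : Function.Injective (algebraMap R D) := by
    intro x y hxy
    apply hι
    have := congrArg (Subtype.val : D → ℂ) hxy
    exact this
  obtain ⟨R₁, _, _, _, _, _, _, f, hf, -, hloc⟩ := dvrExt D hDinj
  set φ : R →+* R₁ := f.comp (algebraMap R D) with hφ
  have hpR₁ : (p : R₁) ∈ maximalIdeal R₁ := by
    have h1 : φ (p : R) ∈ maximalIdeal R₁ := map_nonunit φ _ hpR
    rwa [map_natCast] at h1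
  -- the eigencharacter
  set S' : Finset ℕ := S.erase p with hS'
  have hMS' : ∀ q : ℕ, q.Prime → q ∣ M → q ∈ S' := fun q hq hqM =>
    Finset.mem_erase.2 ⟨fun h => hpM (h ▸ hqM), hMS q hq hqM⟩
  have hpS' : p ∉ (↑S' : Set ℕ) := fun h => (Finset.mem_erase.1 (Finset.mem_coe.1 h)).1 rfl
  have hmemp : qCoeff g p ∈ D := Algebra.self_mem_adjoin_singleton R _
  have hne : ∀ {ℓ : ℕ}, ℓ ≠ p → ℓ ∉ S' → ℓ ∉ S := fun h1 h2 h3 =>
    h2 (Finset.mem_erase.2 ⟨h1, h3⟩)
  have hD : ∀ ℓ : ℕ, ℓ.Prime → ℓ ∉ S' → qCoeff g ℓ ∈ D.toSubring := by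
    intro ℓ hℓ hℓS
    rcases eq_or_ne ℓ p with rfl | h
    · exact hmemp
    · rw [← htr ℓ hℓ (hne h hℓS)]
      exact D.algebraMap_mem (tr ℓ)
  obtain ⟨chig, hchig, hrange⟩ := exists_chig hg S' hMS' D.toSubring hD
  let χD : CuspForm.heckeAlgebra M 2 (↑S' : Set ℕ) →+* D :=
    (Subring.inclusion hrange).comp chig.rangeRestrict
  have hχD : ∀ t, ((χD t : D) : ℂ) = chig t := fun t => rfl
  let χ : CuspForm.heckeAlgebra M 2 (↑S' : Set ℕ) →+* R₁ := f.comp χD
  have hχp : χ (CuspForm.heckeAlgebra.T hp.out hpM hpS') = f ⟨qCoeff g p, hmemp⟩ := by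
    refine congrArg f (Subtype.ext ?_)
    rw [hχD, hchig p hp.out hpM hpS']
  have hχT : ∀ (ℓ : ℕ) (hℓ : ℓ.Prime) (hℓM : ¬ ℓ ∣ M) (hℓS : ℓ ∉ (↑S' : Set ℕ)), ℓ ≠ p →
      χ (CuspForm.heckeAlgebra.T hℓ hℓM hℓS) = φ (tr ℓ) := by
    intro ℓ hℓ hℓM hℓS h
    refine congrArg f (Subtype.ext ?_)
    rw [hχD, hchig ℓ hℓ hℓM hℓS, ← htr ℓ hℓ (hne h fun h' => hℓS (Finset.mem_coe.2 h'))]
    rfl
  have hfin : ∀ n, Finite (R₁ ⧸ maximalIdeal R₁ ^ n) := by
    intro n
    haveI : Finite (R₁ ⧸ maximalIdeal R₁) := inferInstanceAs (Finite (ResidueField R₁))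
    exact Ideal.finite_quotient_pow (IsNoetherian.noetherian _) n
  have key := crys_core (p := p) hp2 hpM hpS' hMS' hfin hpR₁ χ (ρ.baseChangeAlong φ hloc) (by
    intro ℓ hℓ hℓM hℓS h A hA σ hσ
    rw [charpoly_baseChangeAlong', hρ ℓ hℓ (hne h fun h' => hℓS (Finset.mem_coe.2 h')) A hA σ hσ,
      hχT ℓ hℓ hℓM hℓS h]
    simp) (absIrr_residual_baseChange φ hloc habs) (hr.baseChange φ hloc) (hord.map φ) hF
  rw [hχp] at key
  set x := r (localGaloisToGlobal p F) 1 1 with hx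
  have h1 : f ((algebraMap R D x) ^ 2 - ⟨qCoeff g p, hmemp⟩ * algebraMap R D x + (p : D)) = 0 := by
    rw [map_add, map_sub, map_pow, map_mul, map_natCast]
    exact key
  have h2 := hf (h1.trans (map_zero f).symm)
  have h3 := congrArg (Subtype.val : D → ℂ) h2
  exact h3

/-- the same for the points of the Hecke algebra -/
theorem crysAt_pt {p : ℕ} [hp : Fact p.Prime] (hp2 : p ≠ 2) {M : ℕ} [NeZero M]
    {g : CuspForm (CongruenceSubgroup.Gamma0 M) 2} (hg : g.IsNormalizedEigenform)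
    (hpM : ¬ p ∣ M) {S : Finset ℕ} (hMS : ∀ q : ℕ, q.Prime → q ∣ M → q ∈ S)
    {𝒪 : Type} [CommRing 𝒪] [IsLocalRing 𝒪] (hp𝒪 : (p : 𝒪) ∈ maximalIdeal 𝒪) {j : 𝒪 →+* ℂ}
    {ρbar : ResidualGaloisRep (ResidueField 𝒪)} (habs : ρbar.IsAbsolutelyIrreducible)
    {t : ℕ → ℂ} (P : Pt j ρbar S t) (ht : ∀ ℓ : ℕ, ℓ.Prime → ℓ ∉ S → t ℓ = qCoeff g ℓ) :
    CrysAt p P.ι P.ρ (qCoeff g p) := by
  have hpR : (p : P.R) ∈ maximalIdeal P.R := by
    have h1 := map_nonunit (algebraMap 𝒪 P.R) _ hp𝒪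
    rwa [map_natCast] at h1
  exact crysAt_eigenform hp2 hg hpM hMS hpR P.ι_inj P.frob
    (fun ℓ hℓ hS => (P.ι_tr ℓ hℓ hS).trans (ht ℓ hℓ hS)) (absIrr_of_isEquiv _ habs P.residual)

end Fermat.Agent.PPart
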