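import Fermat.Agent.PPart.FlatOrd

/-!
# Ordinary representations in matrix form
-/

set_option autoImplicit false
set_option linter.unusedSectionVars false
set_option linter.style.haveILetI false

open IsLocalRing GaloisRep Fermat.Agent.CFT.Loc Fermat.Agent.CFT Fermat.Agent.Flat
  Fermat.Agent.DefRing Fermat.Agent.TW Fermat.Agent.LL

namespace Fermat.Agent.PPart

local notation "Γℚ" => (AlgebraicClosure ℚ ≃ₐ[ℚ] AlgebraicClosure ℚ)
local notation "M₂" => Matrix (Fin 2) (Fin 2)

variable {p : ℕ} [hp : Fact p.Prime]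

/-- `r` is upper triangular on the decomposition group, the quotient character being unramified -/
structure OrdLoc (p : ℕ) [Fact p.Prime] {A : Type*} [CommRing A] (r : Γℚ → M₂ A) : Prop where
  dec : ∀ σ : GalLoc p, r (localGaloisToGlobal p σ) 1 0 = 0
  ine : ∀ σ ∈ inertiaLoc p, r (localGaloisToGlobal p σ) 1 1 = 1

theorem loc_mem_dec (σ : GalLoc p) :
    localGaloisToGlobal p σ ∈ (padicPlace p).decompositionSubgroup ℚ := by
  rw [← range_localGaloisToGlobal]
  exact ⟨σ, rfl⟩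

theorem OrdLoc.of_ordMat {A : Type} [CommRing A] {r : Γℚ → M₂ A}
    (h : OrdMat p (padicPlace p) r) : OrdLoc p r :=
  ⟨fun σ => h.dec _ (loc_mem_dec σ),
    fun σ hσ => h.ine _ ((localGaloisToGlobal_mem_inertia_iff p σ).2 hσ)⟩

theorem OrdLoc.map {A B : Type*} [CommRing A] [CommRing B] {r : Γℚ → M₂ A} (h : OrdLoc p r)
    (f : A →+* B) : OrdLoc p (fun σ => (r σ).map f) :=
  ⟨fun σ => by
    show f (r _ 1 0) = 0
    rw [h.dec, map_zero],
  fun σ hσ => by
    show f (r _ 1 1) = 1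
    rw [h.ine σ hσ, map_one]⟩

section Char

variable {A : Type*} [CommRing A] {r : Γℚ → M₂ A} (h : OrdLoc p r)
  (hmul : ∀ σ τ, r (σ * τ) = r σ * r τ)

include h hmul in
theorem OrdLoc.mul (σ τ : GalLoc p) : r (localGaloisToGlobal p (σ * τ)) 1 1 =
    r (localGaloisToGlobal p σ) 1 1 * r (localGaloisToGlobal p τ) 1 1 := by
  rw [map_mul, hmul, Matrix.mul_apply, Fin.sum_univ_two, h.dec, zero_mul, zero_add]

include h hmul in
theorem OrdLoc.pow (h1 : r 1 = 1) (σ : GalLoc p) (j : ℕ) :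
    r (localGaloisToGlobal p (σ ^ j)) 1 1 = r (localGaloisToGlobal p σ) 1 1 ^ j := by
  induction j with
  | zero => rw [pow_zero, pow_zero, map_one, h1, Matrix.one_apply_eq]
  | succ j ih => rw [pow_succ, pow_succ, h.mul hmul, ih]

end Char

section Approx

variable {A : Type} [CommRing A] [IsLocalRing A] {ρ : GaloisRepAdic A} {r : Γℚ → M₂ A}

/-- the quotient character is determined by the value at Frobenius -/
theorem OrdLoc.approx (hr : Realizes ρ r) (h : OrdLoc p r) {F : GalLoc p}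
    (hF : ∀ x, resAct p F x = x ^ p) (σ : GalLoc p) (n : ℕ) :
    ∃ j : ℕ, r (localGaloisToGlobal p σ) 1 1 - r (localGaloisToGlobal p F) 1 1 ^ j ∈
      maximalIdeal A ^ n := by
  obtain ⟨L, hL, hLr⟩ := hr.matCont n
  have hH : L.fixingSubgroup.comap (localGaloisToGlobal p) ∈ locLevels p :=
    Levels.cont_comap _ _ (fixingSubgroup_mem_galLevels L)
  obtain ⟨j, t, ht, m, hm, rfl⟩ := exists_decomp hF hH σ
  refine ⟨j, ?_⟩
  have h1 : (r (localGaloisToGlobal p m) - 1) 1 1 ∈ maximalIdeal A ^ n :=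
    hLr _ (fun x hx => (IntermediateField.mem_fixingSubgroup_iff L _).1 hm x hx) 1 1
  rw [h.mul hr.map_mul, h.mul hr.map_mul, h.pow hr.map_mul hr.map_one, h.ine t ht, mul_one]
  rw [Matrix.sub_apply, Matrix.one_apply_eq] at h1
  have h2 : r (localGaloisToGlobal p F) 1 1 ^ j * r (localGaloisToGlobal p m) 1 1 -
      r (localGaloisToGlobal p F) 1 1 ^ j =
      r (localGaloisToGlobal p F) 1 1 ^ j * (r (localGaloisToGlobal p m) 1 1 - 1) := by ring
  rw [h2]
  exact Ideal.mul_mem_left _ _ h1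

theorem OrdLoc.isUnit (hr : Realizes ρ r) (h : OrdLoc p r) (σ : GalLoc p) :
    IsUnit (r (localGaloisToGlobal p σ) 1 1) := by
  refine IsUnit.of_mul_eq_one (r (localGaloisToGlobal p σ⁻¹) 1 1) ?_
  rw [← h.mul hr.map_mul, mul_inv_cancel, map_one, hr.map_one, Matrix.one_apply_eq]

/-- the square of the quotient character at strict ordinary points -/
theorem sq_eq_one_of_ordMat [IsHausdorff (maximalIdeal A) A] (hr : Realizes ρ r)
    (h : OrdMat p (padicPlace p) r) (hdet : ρ.DetIsCyclotomic p) (σ : GalLoc p) :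
    r (localGaloisToGlobal p σ) 1 1 ^ 2 = 1 := by
  have h0 := OrdLoc.of_ordMat h
  set s := localGaloisToGlobal p σ with hs
  rw [← sub_eq_zero]
  refine IsHausdorff.haus (I := maximalIdeal A) inferInstance _ fun n => ?_
  rw [SModEq.zero, smul_eq_mul, Ideal.mul_top]
  have hsub : Ideal.span {((p ^ n : ℕ) : A)} ≤ maximalIdeal A ^ n := by
    rw [Ideal.span_singleton_le_iff_mem, Nat.cast_pow]
    exact Ideal.pow_mem_pow hdet.1 n
  obtain ⟨a, ha⟩ := exists_pow_apply (pow_ne_zero n hp.out.ne_zero) s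
  have h1 := hsub (h.cyc s (loc_mem_dec σ) n a ha)
  have h2 := hsub (hdet.2 n s a ha)
  rw [realizes_det hr, Matrix.det_fin_two, h0.dec σ, mul_zero, sub_zero] at h2
  -- `a` is a unit
  rcases Nat.eq_zero_or_pos n with rfl | hn
  · rw [pow_zero, Ideal.one_eq_top]; trivial
  have hu := h0.isUnit hr σ
  have hu0 : IsUnit (r s 0 0) := by
    refine IsUnit.of_mul_eq_one (r s⁻¹ 0 0) ?_
    have h3 := congrFun (congrFun (hr.map_mul s s⁻¹) 0) 0
    have h4 : r s⁻¹ 1 0 = 0 := by
      rw [hs, ← map_inv]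
      exact h0.dec _
    rw [mul_inv_cancel, hr.map_one, Matrix.mul_apply, Fin.sum_univ_two, h4, mul_zero, add_zero,
      Matrix.one_apply_eq] at h3
    exact h3.symm
  have ha' : IsUnit (a : A) := by
    by_contra hna
    have h5 : (a : A) ∈ maximalIdeal A := hna
    have h6 := Ideal.add_mem _ (Ideal.pow_le_self hn.ne' h2) h5
    rw [sub_add_cancel] at h6
    exact ((mem_maximalIdeal _).1 h6) (hu0.mul hu)
  have h7 : (a : A) * (r s 1 1 ^ 2 - 1) ∈ maximalIdeal A ^ n := by
    have : (a : A) * (r s 1 1 ^ 2 - 1) = (r s 0 0 * r s 1 1 - a) - (r s 0 0 - a * r s 1 1) * r s 1 1 := by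
      ring
    rw [this]
    exact Ideal.sub_mem _ h2 (Ideal.mul_mem_right _ _ h1)
  obtain ⟨v, hv⟩ := ha'
  have h8 := Ideal.mul_mem_left _ ((v⁻¹ : Aˣ) : A) h7
  rwa [← mul_assoc, ← hv, Units.inv_mul, one_mul] at h8

end Approx

section Quot

/-- quotients of complete local rings with finite residue rings -/
theorem isAdicComplete_quot {T : Type*} [CommRing T] [IsLocalRing T] [IsNoetherianRing T]
    [IsAdicComplete (maximalIdeal T) T] (hfin : ∀ n, Finite (T ⧸ maximalIdeal T ^ n))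
    (K : Ideal T) [IsLocalRing (T ⧸ K)] :
    IsAdicComplete (maximalIdeal (T ⧸ K)) (T ⧸ K) := by
  have hloc : IsLocalHom (Ideal.Quotient.mk K) :=
    IsLocalHom.of_surjective _ Ideal.Quotient.mk_surjective
  have hmax : maximalIdeal (T ⧸ K) = (maximalIdeal T).map (Ideal.Quotient.mk K) := by
    apply le_antisymm
    · intro x hx
      obtain ⟨y, rfl⟩ := Ideal.Quotient.mk_surjective x
      refine Ideal.mem_map_of_mem _ ?_
      rw [mem_maximalIdeal] at hx ⊢
      exact fun hu => hx (hu.map _)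
    · rw [Ideal.map_le_iff_le_comap]
      exact fun x hx => map_nonunit (Ideal.Quotient.mk K) x hx
  have hpow : ∀ (n : ℕ) (x : T ⧸ K), x ∈ maximalIdeal (T ⧸ K) ^ n ↔
      ∃ y ∈ maximalIdeal T ^ n, Ideal.Quotient.mk K y = x := by
    intro n x
    rw [hmax, ← Ideal.map_pow, Ideal.mem_map_iff_of_surjective _ Ideal.Quotient.mk_surjective]
  have hH : IsHausdorff (maximalIdeal (T ⧸ K)) (T ⧸ K) := by
    infer_instance
  refine { toIsHausdorff := hH, prec' := fun {f} hf => ?_ }
  choose y hy using fun n => Ideal.Quotient.mk_surjective (I := K) (f n)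
  obtain ⟨x, hx⟩ := exists_clusterPt (maximalIdeal T) hfin y
  refine ⟨Ideal.Quotient.mk K x, fun n => ?_⟩
  obtain ⟨N, hN, hN'⟩ := hx n
  rw [SModEq.sub_mem, smul_eq_mul, Ideal.mul_top]
  have h1 := hf hN
  rw [SModEq.sub_mem, smul_eq_mul, Ideal.mul_top] at h1
  have h2 : Ideal.Quotient.mk K (y N - x) ∈ maximalIdeal (T ⧸ K) ^ n :=
    (hpow n _).2 ⟨_, hN', rfl⟩
  rw [map_sub, hy] at h2
  have h3 := Ideal.add_mem _ h1 h2
  rwa [sub_add_sub_cancel] at h3

end Quot

end Fermat.Agent.PPart
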