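import Fermat.Agent.PPart.OrdLoc
import Fermat.Agent.GenW.Local
import Fermat.Agent.Flat.RedClass

/-!
# The block at `p` over a complete Hecke ring (flat and strict ordinary points)
-/

set_option autoImplicit false
set_option linter.unusedSectionVars false
set_option linter.style.haveILetI false

open IsLocalRing GaloisRep Fermat.Agent.CFT.Loc Fermat.Agent.CFT Fermat.Agent.Flat
  Fermat.Agent.DefRing Fermat.Agent.TW Fermat.Agent.LL

namespace Fermat.Agent.PPart

local notation "Γℚ" => (AlgebraicClosure ℚ ≃ₐ[ℚ] AlgebraicClosure ℚ)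
local notation "M₂" => Matrix (Fin 2) (Fin 2)

variable {p : ℕ} [hp : Fact p.Prime]

/-- `a` is the eigenvalue of the Hecke operator at `p`: if the representation is ordinary at `p`,
the eigenvalue of Frobenius on the unramified quotient is a root of `X² - a X + p`. -/
def CrysAt (p : ℕ) [Fact p.Prime] {R : Type} [CommRing R] [IsLocalRing R] (ι : R →+* ℂ)
    (ρ : GaloisRepAdic R) (a : ℂ) : Prop :=
  ∀ r : Γℚ → M₂ R, Realizes ρ r → OrdLoc p r → ∀ F : GalLoc p, (∀ x, resAct p F x = x ^ p) →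
    ι (r (localGaloisToGlobal p F) 1 1) ^ 2 - a * ι (r (localGaloisToGlobal p F) 1 1) + p = 0

/-- The data of the block at `p`. -/
structure PBlock (p : ℕ) [Fact p.Prime] (s₁ : GalLoc p) (T : Type) [CommRing T] [IsLocalRing T]
    (R : Γℚ → M₂ T) {I : Type} (O : I → Type) [∀ i, CommRing (O i)] [∀ i, IsLocalRing (O i)]
    (φ : ∀ i, T →+* O i) (ρ : ∀ i, GaloisRepAdic (O i)) where
  x : T
  y : T
  /-- the Hecke operator at `p` -/
  Tp : T
  x_mem : x ∈ maximalIdeal T
  y_mem : y ∈ maximalIdeal T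
  det : ∃ c, ((p : T) + 1) ^ 2 - Tp ^ 2 = c * x
  y_flat : ∀ i, (ρ i).IsFlatAt p → φ i y = 0
  x_strict : ∀ i, (ρ i).IsStrictOrdinaryAt p → φ i x = 0
  crys : ∀ i, (ρ i).IsFlatAt p → ∀ (ι : O i →+* ℂ) (a : ℂ), CrysAt p ι (ρ i) a → ι (φ i Tp) = a
  gen : ∀ (k : Type) [Field k], (p : k) = 0 → ∀ θ : T →+* DualNumber k, IsLocalHom θ →
    θ x = 0 → θ y = 0 → OrdOn (fun σ => (R σ).map θ) (padicPlace p) ∧
      (R (localGaloisToGlobal p s₁)).map θ = 1

theorem isUnit_two_of_mem {A : Type*} [CommRing A] [IsLocalRing A] (hp2 : p ≠ 2)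
    (hpA : (p : A) ∈ maximalIdeal A) : IsUnit (2 : A) := by
  by_contra h
  have h2 : (2 : A) ∈ maximalIdeal A := h
  have h3 : IsCoprime (2 : ℤ) p := by
    rw [Int.isCoprime_iff_gcd_eq_one]
    exact_mod_cast (Nat.coprime_primes Nat.prime_two hp.out).mpr (Ne.symm hp2)
  obtain ⟨x, y, hxy⟩ := h3
  have h4 : (1 : A) ∈ maximalIdeal A := by
    have h5 := congrArg (Int.cast : ℤ → A) hxy
    push_cast at h5
    rw [← h5]
    exact Ideal.add_mem _ (Ideal.mul_mem_left _ _ h2) (Ideal.mul_mem_left _ _ hpA)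
  exact (Ideal.ne_top_iff_one _).mp (maximalIdeal.isMaximal A).ne_top h4

theorem sign_of_sq {A : Type*} [CommRing A] [IsLocalRing A] (h2 : IsUnit (2 : A)) {b : A}
    (hb : b ^ 2 = 1) : b = 1 ∨ b = -1 := by
  have h1 : (b - 1) * (b + 1) = 0 := by linear_combination hb
  have h3 : (b + 1) + -(b - 1) = 2 := by ring
  rcases isUnit_or_of_add (h3 ▸ h2) with h | h
  · left
    exact sub_eq_zero.mp ((h.mul_left_eq_zero).mp h1)
  · right
    rw [IsUnit.neg_iff] at h
    exact eq_neg_of_add_eq_zero_left ((h.mul_right_eq_zero).mp h1)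

/-- points of a representation with cyclotomic determinant -/
theorem detIsCyclotomic_point {T O : Type} [CommRing T] [IsLocalRing T] [CommRing O]
    [IsLocalRing O] {φ : T →+* O} (hφ : IsLocalHom φ) {ρT : GaloisRepAdic T} {R : Γℚ → M₂ T}
    (hR : Realizes ρT R) {ρ : GaloisRepAdic O} (hρ : Realizes ρ (fun σ => (R σ).map φ))
    (h : ρT.DetIsCyclotomic p) : ρ.DetIsCyclotomic p := by
  rw [realizes_detIsCyclotomic_iff hR] at h
  rw [realizes_detIsCyclotomic_iff hρ]
  refine ⟨natCast_mem_of_local φ hφ h.1, fun n σ a ha => ?_⟩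
  have h1 := map_mem_span_pow φ (h.2 n σ a ha)
  have h2 : ((R σ).map φ).det = φ (R σ).det := by rw [RingHom.map_det]; rfl
  rw [h2]
  rwa [map_sub, map_natCast] at h1

/-- `σ_p` fixes the `p`-th roots of unity -/
theorem IsSigma.apply_root {π : PadicAlgCl p} {σ : GalLoc p} (h : IsSigma π σ)
    {ζ : PadicAlgCl p} (hζ : ζ ^ p = 1) : σ ζ = ζ := by
  refine h.fix ζ ?_ ?_
  · have h1 : ‖ζ‖ ^ p = 1 := by rw [← norm_pow, hζ, norm_one]
    exact (pow_eq_one_iff_of_nonneg (norm_nonneg _) hp.out.ne_zero).1 h1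
  · rw [hζ]
    exact fun τ _ => map_one τ

theorem IsSigma.det_sub_one {π : PadicAlgCl p} {s₁ : GalLoc p} (h : IsSigma π s₁) {A : Type}
    [CommRing A] [IsLocalRing A] {ρ : GaloisRepAdic A} {r : Γℚ → M₂ A} (hr : Realizes ρ r)
    (hdet : ρ.DetIsCyclotomic p) :
    (r (localGaloisToGlobal p s₁)).det - 1 ∈ Ideal.span {(p : A)} := by
  have h1 := ((realizes_detIsCyclotomic_iff hr p).1 hdet).2 1 (localGaloisToGlobal p s₁) 1
    (apply_root_of_local (p := p) (n := 1) (a := 1) fun ζ hζ => by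
      rw [pow_one] at hζ ⊢
      exact h.apply_root hζ)
  rwa [pow_one, Nat.cast_one] at h1

/-- the cyclotomic character is nontrivial on inertia, modulo `p` -/
theorem exists_inertia_det (hp2 : p ≠ 2) {A : Type} [CommRing A] [IsLocalRing A]
    {ρ : GaloisRepAdic A} {r : Γℚ → M₂ A} (hr : Realizes ρ r) (hdet : ρ.DetIsCyclotomic p) :
    ∃ h ∈ inertiaLoc p, IsUnit ((r (localGaloisToGlobal p h)).det - 1) := by
  obtain ⟨π, hπ⟩ : ∃ π : PadicAlgCl p, IsPi π := exists_isPi
  obtain ⟨ζ, hζ⟩ := HasEnoughRootsOfUnity.exists_primitiveRoot (PadicAlgCl p) p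
  haveI : CharP (ResidueField A) p := by
    have h1 : ((p : ℕ) : ResidueField A) = 0 := by
      rw [← map_natCast (residue A), residue_eq_zero_iff]
      exact hdet.1
    exact (CharP.charP_iff_prime_eq_zero hp.out).2 h1
  obtain ⟨h, a, ha, ha1⟩ := exists_cyc_ne hp2 hπ hζ (ResidueField A)
  refine ⟨h, h.2, ?_⟩
  have h1 := ((realizes_detIsCyclotomic_iff hr p).1 hdet).2 1 (localGaloisToGlobal p h) a.val
    (apply_root_of_local (p := p) (n := 1) (a := a.val) fun z hz => by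
      rw [pow_one] at hz
      obtain ⟨i, -, rfl⟩ := hζ.eq_pow_of_pow_eq_one hz
      rw [map_pow, ha, ← pow_mul, ← pow_mul, mul_comm])
  rw [pow_one, Ideal.mem_span_singleton] at h1
  obtain ⟨c, hc⟩ := h1
  by_contra hu
  have hu' : (r (localGaloisToGlobal p h)).det - 1 ∈ maximalIdeal A := hu
  apply ha1
  have h2 : (a.val : A) - 1 ∈ maximalIdeal A := by
    have : (a.val : A) - 1 = ((r (localGaloisToGlobal p h)).det - 1) - p * c := by
      rw [← hc]; ring
    rw [this]
    exact Ideal.sub_mem _ hu' (Ideal.mul_mem_right _ _ hdet.1)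
  rw [← residue_eq_zero_iff, map_sub, map_natCast, map_one, sub_eq_zero] at h2
  exact h2

end Fermat.Agent.PPart
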