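import Fermat.Agent.PPart.KernelRed
import Fermat.Agent.PPart.OrdLoc
import Fermat.Agent.OrdP.CycInt
import Fermat.Agent.MazurQ.SysForm
import Fermat.Agent.S32Lib.Star
import Fermat.Agent.QComp.Geom

/-!
# The eigenvalue of `T_p` of an ordinary eigenform is a unit
-/

set_option autoImplicit false
set_option linter.unusedSectionVars false
set_option linter.style.haveILetI false

open IsLocalRing GaloisRep Fermat.Agent.CFT.Loc Fermat.Agent.CFT Fermat.Agent.Flat
  Fermat.Agent.DefRing Fermat.Agent.RepTwo ModularCurve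

noncomputable section

namespace Fermat.Agent.PPart

local notation "Γℚ" => (AlgebraicClosure ℚ ≃ₐ[ℚ] AlgebraicClosure ℚ)
local notation "Qb" => AlgebraicClosure ℚ
local notation "M₂" => Matrix (Fin 2) (Fin 2)

section Killed

variable {N p : ℕ} [NeZero N] {S : Set ℕ} {n : ℕ} (E : ESModule N p S n)
  (I : Ideal (HeckePoly N S))

/-- the part of a module killed by an ideal -/
def killedBy : Submodule (HeckePoly N S) E.V where
  carrier := {v | ∀ t ∈ I, t • v = 0}
  zero_mem' := fun t _ => smul_zero t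
  add_mem' := fun {v w} hv hw t ht => by rw [smul_add, hv t ht, hw t ht, add_zero]
  smul_mem' := fun c v hv t ht => by rw [smul_smul, mul_comm, ← smul_smul, hv t ht, smul_zero]

theorem mem_killedBy {v : E.V} : v ∈ killedBy E I ↔ ∀ t ∈ I, t • v = 0 := Iff.rfl

theorem act_mem_killedBy (σ : GQ) {v : E.V} (hv : v ∈ killedBy E I) :
    E.act σ v ∈ killedBy E I := fun t ht => by
  rw [← map_smul, hv t ht, map_zero]

/-- the restricted Galois action -/
def killedAct : GQ →* Module.End (HeckePoly N S) (killedBy E I) where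
  toFun σ := (E.act σ).restrict fun _ hv => act_mem_killedBy E I σ hv
  map_one' := by
    refine LinearMap.ext fun v => Subtype.ext ?_
    rw [LinearMap.coe_restrict_apply, map_one]
    rfl
  map_mul' σ τ := by
    refine LinearMap.ext fun v => Subtype.ext ?_
    rw [LinearMap.coe_restrict_apply, map_mul]
    rfl

theorem coe_killedAct (σ : GQ) (v : killedBy E I) :
    ((killedAct E I σ v : killedBy E I) : E.V) = E.act σ v := rfl

/-- the part killed by an ideal as an Eichler–Shimura module of precision `0` -/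
def killedMod : ESModule N p S 0 where
  V := killedBy E I
  act := killedAct E I
  torsion := by
    obtain ⟨m, hm⟩ := E.torsion
    exact ⟨m, fun x => Subtype.ext (hm x)⟩
  finiteLevel := by
    obtain ⟨L, hL, h⟩ := E.finiteLevel
    refine ⟨L, hL, fun σ hσ => LinearMap.ext fun v => Subtype.ext ?_⟩
    rw [coe_killedAct, h σ hσ]
    rfl
  unramified := by
    intro q hq hd A hA σ hσ
    refine LinearMap.ext fun v => Subtype.ext ?_
    rw [coe_killedAct, E.unramified q hq hd A hA σ hσ]
    rfl
  frobenius := by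
    intro ℓ hne A hA σ hσ
    refine LinearMap.ext fun v => Subtype.ext ?_
    exact LinearMap.congr_fun (E.frobenius ℓ hne A hA σ hσ) (v : E.V)
  faithful := fun t _ => ⟨evalHecke N S t, by rw [pow_zero, one_smul]⟩

/-- the annihilator of the part killed by the kernel of a homomorphism to a finite field -/
theorem smul_killedBy_eq_zero_iff {k : Type*} [Field k] [Finite k] (θ : HeckePoly N S →+* k)
    (hne : ∃ v : killedBy E (RingHom.ker θ), v ≠ 0) (t : HeckePoly N S) :
    (∀ v : killedBy E (RingHom.ker θ), t • v = 0) ↔ θ t = 0 := by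
  constructor
  · intro h
    by_contra hcon
    obtain ⟨v, hv⟩ := hne
    haveI := Fintype.ofFinite k
    have h1 : t ^ (Fintype.card k - 1) - 1 ∈ RingHom.ker θ := by
      rw [RingHom.mem_ker, map_sub, map_pow, map_one, FiniteField.pow_card_sub_one_eq_one _ hcon,
        sub_self]
    have h2 : (t ^ (Fintype.card k - 1) - 1) • (v : E.V) = 0 := v.2 _ h1
    have h3 : 0 < Fintype.card k - 1 := Nat.sub_pos_of_lt Fintype.one_lt_card
    have h4 : t • (v : E.V) = 0 := congrArg Subtype.val (h v)
    rw [sub_smul, one_smul, ← Nat.succ_pred_eq_of_pos h3, pow_succ, mul_smul, h4, smul_zero,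
      zero_sub, neg_eq_zero] at h2
    exact hv (Subtype.ext h2)
  · intro h v
    exact Subtype.ext (v.2 _ h)

end Killed

section Mat

theorem forall_mem_smul_top_iff {R V : Type*} [CommRing R] [AddCommGroup V] [Module R V]
    (b : Module.Basis (Fin 2) R V) (I : Ideal R) (f : Module.End R V) :
    (∀ v, f v ∈ I • (⊤ : Submodule R V)) ↔ ∀ i j, LinearMap.toMatrix b b f i j ∈ I := by
  constructor
  · intro h i j
    rw [LinearMap.toMatrix_apply]
    have h1 : ∀ w ∈ I • (⊤ : Submodule R V), b.repr w i ∈ I := by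
      intro w hw
      refine Submodule.smul_induction_on hw (fun r hr n _ => ?_) (fun x y hx hy => ?_)
      · rw [map_smul, Finsupp.smul_apply, smul_eq_mul]
        exact Ideal.mul_mem_right _ _ hr
      · rw [map_add, Finsupp.add_apply]
        exact add_mem hx hy
    exact h1 _ (h _)
  · intro h v
    have h1 : ∀ j, f (b j) ∈ I • (⊤ : Submodule R V) := by
      intro j
      rw [← b.sum_repr (f (b j))]
      refine sum_mem fun i _ => Submodule.smul_mem_smul ?_ Submodule.mem_top
      have := h i j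
      rwa [LinearMap.toMatrix_apply] at this
    rw [← b.sum_repr v, map_sum]
    refine sum_mem fun j _ => ?_
    rw [map_smul]
    exact Submodule.smul_mem _ _ (h1 j)

end Mat

section Main

variable {p N : ℕ} [hp : Fact p.Prime] [NeZero N] {S : Finset ℕ} (hp2 : p ≠ 2) (hpN : ¬ p ∣ N)
  (hpS : p ∉ (↑S : Set ℕ)) {R : Type} [CommRing R] [IsDomain R] [IsLocalRing R]
  [Finite (ResidueField R)] (hpR : (p : R) ∈ maximalIdeal R)
  (χ : CuspForm.heckeAlgebra N 2 (↑S : Set ℕ) →+* R)

/-- the residual eigensystem -/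
def thbar : HeckePoly N (↑S : Set ℕ) →+* ResidueField R :=
  (residue R).comp (χ.comp (evalHecke N (↑S : Set ℕ)).toRingHom)

theorem thbar_apply (t : HeckePoly N (↑S : Set ℕ)) :
    thbar χ t = residue R (χ (evalHecke N (↑S : Set ℕ) t)) := rfl

include hpR in
theorem thbar_p : thbar χ (p : HeckePoly N (↑S : Set ℕ)) = 0 := by
  rw [map_natCast, ← map_natCast (residue R), residue_eq_zero_iff]
  exact hpR

theorem finite_of_realized {m n : ℕ} {E : ESModule N p (↑S : Set ℕ) n}
    (Rz : Realized (jOps (QComp.jZeroGeom N p).comm (↑S : Set ℕ)) E m) : Finite E.V := by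
  haveI := (QComp.jZeroGeom N p).finite m
  refine Finite.of_injective (β := pTor (JZero N) (p ^ m)) (fun v => ⟨Rz.j v, ?_⟩) ?_
  · rw [mem_pTor]
    exact (Rz.mem_range _).mpr ⟨v, rfl⟩
  · intro v w h
    exact Rz.inj (congrArg Subtype.val h)

/-- the Hecke polynomials as endomorphisms -/
def polyEnd {n : ℕ} (E : ESModule N p (↑S : Set ℕ) n) :
    HeckePoly N (↑S : Set ℕ) →+* Module.End ℤ E.V where
  toFun t := (DistribSMul.toAddMonoidHom E.V t).toIntLinearMap
  map_one' := LinearMap.ext fun v => one_smul _ v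
  map_mul' s t := LinearMap.ext fun v => mul_smul s t v
  map_zero' := LinearMap.ext fun v => zero_smul _ v
  map_add' s t := LinearMap.ext fun v => add_smul s t v

include hpR in
theorem exists_killed_ne_zero {E : ESModule N p (↑S : Set ℕ) 1} [Finite E.V] :
    ∃ v : killedBy E (RingHom.ker (thbar χ)), v ≠ 0 := by
  haveI : (RingHom.ker (thbar χ)).IsPrime := RingHom.ker_isPrime _
  obtain ⟨v, hv, h⟩ := MazurQ.exists_ne_zero_killed (polyEnd E) (RingHom.ker (thbar χ)) (by
    intro t ht
    obtain ⟨u, hu⟩ := E.faithful t fun v => LinearMap.congr_fun (f := polyEnd E t) (g := 0) ht v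
    rw [RingHom.mem_ker, thbar_apply, hu, pow_one, map_nsmul, nsmul_eq_mul, map_mul,
      (residue_eq_zero_iff _).mpr hpR, zero_mul])
  exact ⟨⟨v, h⟩, fun h0 => hv (congrArg Subtype.val h0)⟩

/-- the Galois module structure on the killed part -/
@[reducible] def killedAction {n : ℕ} {T : Set ℕ} (E : ESModule N p T n)
    (I : Ideal (HeckePoly N T)) : DistribMulAction Γℚ (killedBy E I) where
  smul σ v := killedAct E I σ v
  one_smul v := by
    change killedAct E I 1 v = v
    rw [map_one]; rfl
  mul_smul σ τ v := by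
    change killedAct E I (σ * τ) v = killedAct E I σ (killedAct E I τ v)
    rw [map_mul]; rfl
  smul_zero σ := map_zero (killedAct E I σ)
  smul_add σ := map_add (killedAct E I σ)

include hp2 hpN hpR in
/-- the part of the torsion killed by the residual eigensystem is connected if the eigenvalue of
`T_p` is not a unit. -/
theorem killed_eq_top (hap : ¬ IsUnit (χ (CuspForm.heckeAlgebra.T hp.out hpN hpS)))
    {m n : ℕ} {E : ESModule N p (↑S : Set ℕ) n} [Finite E.V]
    (Rz : Realized (jOps (QComp.jZeroGeom N p).comm (↑S : Set ℕ)) E m) :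
    ∀ y : killedBy E (RingHom.ker (thbar χ)), y ∈ AddSubgroup.closure {z | ∃ t ∈ inertiaLoc p, ∃ w : killedBy E (RingHom.ker (thbar χ)),
      z = killedAct E (RingHom.ker (thbar χ)) (localGaloisToGlobal p t) w - w} := by
  set I := RingHom.ker (thbar χ) with hI
  set B := AddSubgroup.closure {z | ∃ t ∈ inertiaLoc p, ∃ w : killedBy E I,
      z = killedAct E I (localGaloisToGlobal p t) w - w} with hB
  intro y
  letI : DistribMulAction Γℚ (killedBy E I) := killedAction E I
  let i : killedBy E I →+ JZero N := Rz.j.comp (killedBy E I).subtype.toAddMonoidHom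
  have hi : Function.Injective i := Rz.inj.comp Subtype.val_injective
  have hsmul : ∀ (g : Γℚ) (m : killedBy E I), i (g • m) = g • i m := fun g m => Rz.act g m
  obtain ⟨s, hs⟩ := Frob.exists_isFrobeniusAt (padicPlace p) hp.out (padicPlace_liesOverPrime p)
  obtain ⟨O, hO, hconn⟩ := exists_locOrder_jZero hpN i hi hsmul hs
  have hTp : (MvPolynomial.X ⟨p, hp.out, hpN, hpS⟩ : HeckePoly N (↑S : Set ℕ)) ∈ I := by
    rw [hI, RingHom.mem_ker, thbar_apply, evalHecke_X, residue_eq_zero_iff]
    exact hap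
  have hT0 : ∀ z : killedBy E I, heckeOperatorBar N ⟨p, hp.out⟩ (i z) = 0 := by
    intro z
    have h1 := Rz.smul (MvPolynomial.X ⟨p, hp.out, hpN, hpS⟩) z
    rw [z.2 _ hTp, map_zero, HeckeOps.ev_X] at h1
    exact h1.symm
  have hp0 : ∀ z : killedBy E I, p • i z = 0 := by
    intro z
    have h1 : (p : HeckePoly N (↑S : Set ℕ)) • (z : E.V) = 0 := z.2 _ (by
      rw [hI, RingHom.mem_ker]
      exact thbar_p hpR χ)
    rw [Nat.cast_smul_eq_nsmul] at h1
    have h2 : p • i z = Rz.j (p • (z : E.V)) := (map_nsmul Rz.j p (z : E.V)).symm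
    rw [h2, h1, map_zero]
  have hall : ∀ y : killedBy E I, y ∈ connPart hO := by
    intro y
    refine hconn (s⁻¹ • s⁻¹ • y) y ?_
    rw [hp0, ← hsmul, hT0, ← hsmul, smul_inv_smul, smul_inv_smul, sub_zero, add_zero]
  have h1 : (QuotientAddGroup.mk' B) y = 0 := by
    refine conn_zero' hp2 hO (AddMonoidHom.id _) Function.injective_id
      ((DistribMulAction.toAddMonoidEnd Γℚ (killedBy E I)).comp (inertiaToGlobal (p := p)))
      (fun g m => rfl) (QuotientAddGroup.mk' B) (fun g m => ?_) (n := 1) (fun a => ?_) (m := y)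
      (hall y)
    · rw [← sub_eq_zero, ← map_sub]
      exact (QuotientAddGroup.eq_zero_iff _).mpr
        (AddSubgroup.subset_closure ⟨(g : GalLoc p), g.2, m, rfl⟩)
    · obtain ⟨z, rfl⟩ := QuotientAddGroup.mk'_surjective B a
      rw [pow_one, ← map_nsmul]
      have h2 : p • z = 0 := hi (by rw [map_nsmul, hp0, map_zero])
      rw [h2, map_zero]
  have h3 : (y : killedBy E I ⧸ B) = 0 := h1
  exact (QuotientAddGroup.eq_zero_iff y).mp h3

include hp2 hpR in
/-- **The eigenvalue of `T_p` is a unit** if the representation is ordinary. -/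
theorem isUnit_ap (ρ : GaloisRepAdic R) (hdet : ρ.DetIsCyclotomic p) {r : Γℚ → M₂ R}
    (hr : Realizes ρ r) (hord : OrdLoc p r)
    (hkill : ∀ E : ESModule N p (↑S : Set ℕ) 0, Finite E.V →
      (∀ t : HeckePoly N (↑S : Set ℕ), (∀ v : E.V, t • v = 0) ↔
        residue R (χ (evalHecke N (↑S : Set ℕ) t)) = 0) → ∀ x : S32Lib.GR,
          S32Lib.actR E.act x = 0 ↔
            ∀ v : ρ.V, S32Lib.actR ρ.ρ x v ∈ maximalIdeal R • (⊤ : Submodule R ρ.V)) :
    IsUnit (χ (CuspForm.heckeAlgebra.T hp.out hpN hpS)) := by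
  by_contra hap
  obtain ⟨c, hc⟩ := ((QComp.jZeroGeom N p).isES (↑S : Set ℕ)).exists_realized
  obtain ⟨E, ⟨Rz⟩⟩ := hc 1
  haveI : Finite E.V := finite_of_realized Rz
  have hne := exists_killed_ne_zero (E := E) hpR χ
  have htop := killed_eq_top hp2 hpN hpS hpR χ hap Rz
  set I := RingHom.ker (thbar χ) with hI
  have hkey := hkill (killedMod E I) (inferInstanceAs (Finite (killedBy E I)))
    (fun t => smul_killedBy_eq_zero_iff E (thbar χ) hne t)
  obtain ⟨b, hb⟩ := hr
  -- the matrix of an element of the group ring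
  have hmat : ∀ σ, LinearMap.toMatrix b b (S32Lib.actR ρ.ρ (FreeAbelianGroup.of σ)) = r σ := by
    intro σ
    rw [S32Lib.actR_of, hb]
  have hmatc : ∀ a : ℤ, LinearMap.toMatrix b b (S32Lib.actR ρ.ρ (a : S32Lib.GR)) =
      (a : R) • (1 : M₂ R) := by
    intro a
    rw [map_intCast]
    have h1 : ((a : ℤ) : Module.End R ρ.V) = (a : ℤ) • (1 : Module.End R ρ.V) := by
      rw [zsmul_eq_mul, mul_one]
    rw [h1, map_zsmul, LinearMap.toMatrix_one, Int.cast_smul_eq_zsmul]
  have hcrit : ∀ x : S32Lib.GR, S32Lib.actR (killedMod E I).act x = 0 ↔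
      ∀ i j, LinearMap.toMatrix b b (S32Lib.actR ρ.ρ x) i j ∈ maximalIdeal R := fun x =>
    (hkey x).trans (forall_mem_smul_top_iff b _ _)
  have hp2' : ¬ p ∣ 2 := fun h => hp2 ((Nat.prime_dvd_prime_iff_eq hp.out Nat.prime_two).mp h)
  obtain ⟨h, hhI, hh⟩ := OrdP.exists_inertia_int (padicPlace_liesOverPrime p) hp2'
  rw [← map_inertiaLoc] at hhI
  obtain ⟨h', hh'I, rfl⟩ := hhI
  set g := localGaloisToGlobal p h' with hg
  have h00 : r g 0 0 - 2 ∈ maximalIdeal R := by
    have h1 := hdet.2 1 g 2 (fun μ hμ => hh 1 μ hμ)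
    rw [← LinearMap.det_toMatrix b, hb, Matrix.det_fin_two, hord.ine h' hh'I, hord.dec h', mul_one,
      mul_zero, sub_zero] at h1
    have h2 : Ideal.span {((p ^ 1 : ℕ) : R)} ≤ maximalIdeal R := by
      rw [Ideal.span_singleton_le_iff_mem, pow_one]
      exact hpR
    have h3 := h2 h1
    push_cast at h3
    exact h3
  -- `(g - 2) (t - 1)` kills the module
  have hprod : ∀ t ∈ inertiaLoc p, S32Lib.actR (killedMod E I).act
      ((FreeAbelianGroup.of g - 2) * (FreeAbelianGroup.of (localGaloisToGlobal p t) - 1)) = 0 := by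
    intro t ht
    rw [hcrit]
    intro i j
    have h2 : (2 : S32Lib.GR) = ((2 : ℤ) : S32Lib.GR) := by norm_cast
    have h1 : (1 : S32Lib.GR) = ((1 : ℤ) : S32Lib.GR) := by norm_cast
    rw [map_mul, map_sub, map_sub, LinearMap.toMatrix_mul, map_sub, map_sub, hmat, hmat, h2, hmatc,
      h1, hmatc, Matrix.mul_apply, Fin.sum_univ_two]
    have e1 : (r (localGaloisToGlobal p t) - ((1 : ℤ) : R) • (1 : M₂ R)) 1 j = 0 := by
      fin_cases j
      · simp [hord.dec t]
      · simp [hord.ine t ht]
    rw [e1, mul_zero, add_zero]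
    refine Ideal.mul_mem_right _ _ ?_
    rw [Matrix.sub_apply, Matrix.smul_apply, Matrix.one_apply]
    fin_cases i
    · simpa using h00
    · have := hord.dec h'
      simp [this, g]
  -- hence `g - 2` kills the module
  have htop' : ∀ y : (killedMod E I).V, y ∈ AddSubgroup.closure {z | ∃ t ∈ inertiaLoc p,
      ∃ w : (killedMod E I).V, z = (killedMod E I).act (localGaloisToGlobal p t) w - w} := htop
  set f : Module.End (HeckePoly N (↑S : Set ℕ)) (killedMod E I).V :=
    S32Lib.actR (killedMod E I).act (FreeAbelianGroup.of g - 2) with hf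
  have hg2 : f = 0 := by
    refine LinearMap.ext fun y => ?_
    rw [LinearMap.zero_apply]
    refine AddSubgroup.closure_induction (p := fun (y : (killedMod E I).V) _ => f y = 0)
      ?_ ?_ ?_ ?_ (htop' y)
    · rintro _ ⟨t, ht, w, rfl⟩
      have h1 := hprod t ht
      rw [map_mul, ← hf, map_sub _ (FreeAbelianGroup.of _) (1 : S32Lib.GR),
        S32Lib.actR_of, map_one] at h1
      exact LinearMap.congr_fun h1 w
    · exact map_zero f
    · intro x z _ _ hx hz
      rw [map_add, hx, hz, add_zero]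
    · intro x _ hx
      rw [map_neg, hx, neg_zero]
  have h3 := (hcrit _).mp hg2 1 1
  have h2 : (2 : S32Lib.GR) = ((2 : ℤ) : S32Lib.GR) := by norm_cast
  rw [map_sub, map_sub, hmat, h2, hmatc, Matrix.sub_apply, Matrix.smul_apply,
    Matrix.one_apply_eq, hord.ine h' hh'I, smul_eq_mul, mul_one] at h3
  refine (Ideal.ne_top_iff_one _).mp (maximalIdeal.isMaximal R).ne_top ?_
  have h4 : (1 : R) = -(1 - ((2 : ℤ) : R)) := by push_cast; ring
  rw [h4]
  exact neg_mem h3

end Main

end Fermat.Agent.PPart
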