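import Fermat.Agent.PPart.Block

/-!
# The block at `p`: construction
-/

set_option autoImplicit false
set_option linter.unusedSectionVars false
set_option linter.style.haveILetI false

open IsLocalRing GaloisRep Fermat.Agent.CFT.Loc Fermat.Agent.CFT Fermat.Agent.Flat
  Fermat.Agent.DefRing Fermat.Agent.TW Fermat.Agent.LL

namespace Fermat.Agent.PPart

local notation "Γℚ" => (AlgebraicClosure ℚ ≃ₐ[ℚ] AlgebraicClosure ℚ)
local notation "M₂" => Matrix (Fin 2) (Fin 2)

variable {p : ℕ} [hp : Fact p.Prime]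

theorem map_inv_of_isUnit {A B : Type*} [CommRing A] [CommRing B] (f : A →+* B) {P : M₂ A}
    (hP : IsUnit P.det) : P⁻¹.map f = (P.map f)⁻¹ := by
  symm
  apply Matrix.inv_eq_left_inv
  rw [← Matrix.map_mul, Matrix.nonsing_inv_mul _ hP, Matrix.map_one _ (map_zero f) (map_one f)]

theorem isUnit_det_map {A B : Type*} [CommRing A] [CommRing B] (f : A →+* B) {P : M₂ A}
    (hP : IsUnit P.det) : IsUnit (P.map f).det := by
  have h : (P.map f).det = f P.det := by rw [RingHom.map_det]; rfl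
  rw [h]
  exact hP.map f

theorem Realizes.trace_det {A : Type} [CommRing A] [IsLocalRing A] {ρ : GaloisRepAdic A}
    {r s : Γℚ → M₂ A} (hr : Realizes ρ r) (hs : Realizes ρ s) (σ : Γℚ) :
    (r σ).trace = (s σ).trace ∧ (r σ).det = (s σ).det :=
  (charpoly_iff hr σ _ _).1 ((charpoly_iff hs σ _ _).2 ⟨rfl, rfl⟩)

theorem mem_of_point {T O : Type*} [CommRing T] [IsLocalRing T] [CommRing O] [IsLocalRing O]
    (φ : T →+* O) {x : T} (hx : φ x ∈ maximalIdeal O) : x ∈ maximalIdeal T := by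
  rw [mem_maximalIdeal] at hx ⊢
  exact fun hu => hx (hu.map φ)

section Main

variable {T : Type} [CommRing T] [IsLocalRing T] [IsAdicComplete (maximalIdeal T) T]
  {I : Type} {O : I → Type} [∀ i, CommRing (O i)] [∀ i, IsLocalRing (O i)]
  [∀ i, IsHausdorff (maximalIdeal (O i)) (O i)]
  (hfinO : ∀ i n, Finite (O i ⧸ maximalIdeal (O i) ^ n)) (φ : ∀ i, T →+* O i)
  (hφ : ∀ i, IsLocalHom (φ i)) (hinj : ∀ x : T, (∀ i, φ i x = 0) → x = 0)
  {ρT : GaloisRepAdic T} {R : Γℚ → M₂ T} (hR : Realizes ρT R) (hdet : ρT.DetIsCyclotomic p)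
  {ρ : ∀ i, GaloisRepAdic (O i)} (hRi : ∀ i, Realizes (ρ i) (fun σ => (R σ).map (φ i)))

include hRi in
theorem realizes_conj_point {P : M₂ T} (hP : IsUnit P.det) (i : I) :
    Realizes (ρ i) (fun σ => (P⁻¹ * R σ * P).map (φ i)) := by
  have h1 := (hRi i).conj (P.map (φ i)) (isUnit_det_map (φ i) hP)
  have h2 : (fun σ => (P.map (φ i))⁻¹ * (R σ).map (φ i) * P.map (φ i)) =
      fun σ => (P⁻¹ * R σ * P).map (φ i) := by
    funext σ
    rw [Matrix.map_mul, Matrix.map_mul, map_inv_of_isUnit (φ i) hP]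
  rwa [h2] at h1

include hfinO hφ hinj hR hdet hRi in
/-- **the adapted basis** -/
theorem exists_ordBasis (hp2 : p ≠ 2)
    (hloc : ∀ i, (ρ i).IsFlatAt p ∨ (ρ i).IsStrictOrdinaryAt p) (i₀ : I)
    (h₀ : (ρ i₀).IsStrictOrdinaryAt p) :
    ∃ P : M₂ T, IsUnit P.det ∧ OrdLoc p (fun σ => P⁻¹ * R σ * P) ∧
      ∀ i, (ρ i).IsStrictOrdinaryAt p →
        OrdMat p (padicPlace p) (fun σ => (P⁻¹ * R σ * P).map (φ i)) := by
  obtain ⟨h, hh, hhu⟩ := exists_inertia_det hp2 hR hdet
  have hhI : localGaloisToGlobal p h ∈ (padicPlace p).inertiaSubgroupIn ℚ :=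
    (localGaloisToGlobal_mem_inertia_iff p h).2 hh
  have htr : (R (localGaloisToGlobal p h)).trace - (1 + (R (localGaloisToGlobal p h)).det) ∈
      maximalIdeal T := by
    obtain ⟨s, hs, hso⟩ := ((isStrictOrdinaryAt_iff (ρ i₀) p).1 h₀).2 (padicPlace p)
      (padicPlace_liesOverPrime p)
    have h1 := Realizes.trace_det (hRi i₀) hs (localGaloisToGlobal p h)
    have h2 : (s (localGaloisToGlobal p h)).trace - (1 + (s (localGaloisToGlobal p h)).det) = 0 := by
      rw [Matrix.trace_fin_two, Matrix.det_fin_two, hso.ine _ hhI, hso.dec _ (loc_mem_dec h)]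
      ring
    rw [← h1.1, ← h1.2] at h2
    apply mem_of_point (φ i₀)
    have h3 : φ i₀ ((R (localGaloisToGlobal p h)).trace -
        (1 + (R (localGaloisToGlobal p h)).det)) = 0 := by
      rw [← h2, map_sub, map_add, map_one]
      congr 1
      · rw [Matrix.trace_fin_two, Matrix.trace_fin_two, map_add]; rfl
      · congr 1
        rw [RingHom.map_det]; rfl
    rw [h3]
    exact Ideal.zero_mem _
  obtain ⟨P, l₁, l₂, hP, hl₁, hl₂, hPd⟩ := exists_diag _ htr hhu
  have hR'h : P⁻¹ * R (localGaloisToGlobal p h) * P = Matrix.diagonal ![l₁, l₂] := by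
    rw [Matrix.mul_assoc, hPd, ← Matrix.mul_assoc, Matrix.nonsing_inv_mul _ hP, Matrix.one_mul]
  have hRi' := fun i => realizes_conj_point φ hRi hP i
  have hh10 : ∀ i, (P⁻¹ * R (localGaloisToGlobal p h) * P).map (φ i) 1 0 = 0 := fun i => by
    rw [hR'h, Matrix.map_apply]
    simp
  have hh00 : ∀ i, IsUnit ((P⁻¹ * R (localGaloisToGlobal p h) * P).map (φ i) 0 0 - 1) := by
    intro i
    rw [hR'h, Matrix.map_apply, Matrix.diagonal_apply_eq]
    change IsUnit (φ i l₁ - 1)
    rw [← map_one (φ i), ← map_sub]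
    apply IsUnit.map
    refine isUnit_of_sub_mem hhu ?_
    have : l₁ - 1 - ((R (localGaloisToGlobal p h)).det - 1) =
        l₁ - (R (localGaloisToGlobal p h)).det := by ring
    rw [this]
    exact hl₁
  have hstrict : ∀ i, (ρ i).IsStrictOrdinaryAt p →
      OrdMat p (padicPlace p) (fun σ => (P⁻¹ * R σ * P).map (φ i)) := by
    intro i hi
    obtain ⟨s, hs, hso⟩ := ((isStrictOrdinaryAt_iff (ρ i) p).1 hi).2 (padicPlace p)
      (padicPlace_liesOverPrime p)
    exact ordMat_transfer (hRi' i) hs hso hhI (hh10 i) (hh00 i)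
  have hW := hstrict i₀ h₀
  have hres10 : ∀ σ : GalLoc p, (P⁻¹ * R (localGaloisToGlobal p σ) * P) 1 0 ∈
      maximalIdeal T := by
    intro σ
    apply mem_of_point (φ i₀)
    have := hW.dec _ (loc_mem_dec σ)
    rw [Matrix.map_apply] at this
    rw [this]
    exact Ideal.zero_mem _
  have hres11 : ∀ σ ∈ inertiaLoc p, (P⁻¹ * R (localGaloisToGlobal p σ) * P) 1 1 - 1 ∈
      maximalIdeal T := by
    intro σ hσ
    apply mem_of_point (φ i₀)
    have := hW.ine _ ((localGaloisToGlobal_mem_inertia_iff p σ).2 hσ)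
    rw [Matrix.map_apply] at this
    rw [map_sub, this, map_one, sub_self]
    exact Ideal.zero_mem _
  have hord : ∀ i, OrdLoc p (fun σ => (P⁻¹ * R σ * P).map (φ i)) := by
    intro i
    rcases hloc i with hi | hi
    · haveI := hφ i
      obtain ⟨h1, h2⟩ := ord_of_flat (hRi' i) hp2
        (natCast_mem_of_local (φ i) (hφ i) hdet.1) hi (hfinO i) hh (hh10 i) (hh00 i)
        (fun σ _ => map_nonunit (φ i) _ (hres10 σ)) (fun σ hσ => by
          have h1 := map_nonunit (φ i) _ (hres11 σ hσ)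
          rw [map_sub, map_one] at h1
          exact h1)
      exact ⟨h1, h2⟩
    · exact OrdLoc.of_ordMat (hstrict i hi)
  refine ⟨P, hP, ⟨fun σ => hinj _ fun i => (hord i).dec σ, fun σ hσ => ?_⟩, hstrict⟩
  rw [← sub_eq_zero]
  refine hinj _ fun i => ?_
  rw [map_sub, map_one, sub_eq_zero]
  exact (hord i).ine σ hσ

end Main

end Fermat.Agent.PPart
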