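import Fermat.Agent.FFM.JZeroFlat
import Fermat.Agent.ESh.Final
import Fermat.Agent.Flat.Line
import Fermat.Agent.Flat.Local

/-!
# The kernel of reduction and the connected part
-/

set_option autoImplicit false
set_option linter.unusedSectionVars false
set_option linter.style.haveILetI false

open AlgebraicCurve Fermat.Agent.FF Fermat.Agent.RR Fermat.Agent.Red Fermat.Agent.FFM

namespace Fermat.Agent.PPart

section Order

variable {K : Type*} [Field K]

theorem zero_mem_nonunits' (A : ValuationSubring K) : (0 : K) ∈ A.nonunits := by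
  rw [ValuationSubring.mem_nonunits_iff, map_zero]
  exact zero_lt_one

/-- functions with congruent integral values -/
def congrRing (A : ValuationSubring K) (X : Type*) : Subring (X → K) where
  carrier := {φ | (∀ x, φ x ∈ A) ∧ ∀ x y, φ x - φ y ∈ A.nonunits}
  zero_mem' := ⟨fun _ => A.zero_mem, fun _ _ => by
    rw [Pi.zero_apply, Pi.zero_apply, sub_self]; exact zero_mem_nonunits' A⟩
  one_mem' := ⟨fun _ => A.one_mem, fun _ _ => by
    rw [Pi.one_apply, Pi.one_apply, sub_self]; exact zero_mem_nonunits' A⟩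
  add_mem' := by
    rintro φ ψ ⟨h1, h2⟩ ⟨h3, h4⟩
    refine ⟨fun x => add_mem (h1 x) (h3 x), fun x y => ?_⟩
    rw [Pi.add_apply, Pi.add_apply, add_sub_add_comm]
    exact nonunits_add (h2 x y) (h4 x y)
  neg_mem' := by
    rintro φ ⟨h1, h2⟩
    refine ⟨fun x => neg_mem (h1 x), fun x y => ?_⟩
    rw [Pi.neg_apply, Pi.neg_apply, neg_sub_neg]
    exact h2 y x
  mul_mem' := by
    rintro φ ψ ⟨h1, h2⟩ ⟨h3, h4⟩
    refine ⟨fun x => mul_mem (h1 x) (h3 x), fun x y => ?_⟩
    rw [Pi.mul_apply, Pi.mul_apply]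
    have h5 : φ x * ψ x - φ y * ψ y = (φ x - φ y) * ψ x + (ψ x - ψ y) * φ y := by ring
    rw [h5]
    exact nonunits_add (nonunits_mul (h2 x y) (h3 x)) (nonunits_mul (h4 x y) (h1 y))

variable {k : Type*} [Field k] [IsAlgClosed K] [IsAlgClosed k] [CharZero K]
  {A : ValuationSubring K} {π : A →+* k}
  {F Fk : Type*} [Field F] [Algebra K F] [Field Fk] [Algebra k Fk] [IsFnField K F]
  [IsFnField k Fk] {R : ConstRed A π F Fk}
  {Γ : Type*} [Group Γ] [MulSemiringAction Γ K]
  {S : Spec R} {ρ : Γ →* SemilinearAut K F} (G : Geo S ρ)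
  {M : Type*} [AddCommGroup M] [MulAction Γ M] {rep : M → Divisor K F} (hR : Rep ρ rep)
  (inf : Place K F) (hinf : ∀ g, ρ g • inf = inf)

/-- the functions of the order take congruent values at classes with the same reduction. -/
theorem theOrder_congr {φ : M → K} (h : φ ∈ theOrder G hR inf hinf) {m m' : M}
    (hm : redCl S rep m = redCl S rep m') : φ m - φ m' ∈ A.nonunits := by
  letI := fibAction (Γ := Γ) G hR (redCl S rep m')
  have h1 : fibOrder G hR inf hinf (redCl S rep m') ≤ congrRing A _ := by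
    refine genOrder_le (fun a ha => ⟨fun _ => ha.1, fun _ _ => ?_⟩) (fun Q => ⟨fun m => ?_,
      fun x y => ?_⟩)
    · simp only [sub_self]; exact zero_mem_nonunits' A
    · exact (dat G hR inf hinf _).co_mem G _ Q.2
    · exact nonunits_sub ((dat G hR inf hinf _).co_mem_nonunits G _ Q.2)
        ((dat G hR inf hinf _).co_mem_nonunits G _ Q.2)
  exact (h1 (h (redCl S rep m'))).2 ⟨m, hm⟩ ⟨m', rfl⟩

end Order

section Main

variable {K k : Type*} [Field K] [Field k] [IsAlgClosed K] [IsAlgClosed k] [CharZero K]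
  {A : ValuationSubring K} {π : A →+* k}
  {F Fk : Type*} [Field F] [Algebra K F] [Field Fk] [Algebra k Fk] [IsFnField K F]
  [IsFnField k Fk] {R : ConstRed A π F Fk}
  {G : Type*} [Group G] [MulSemiringAction G K] {Γ : Subgroup G}
  {S : Spec R} {ρ : G →* SemilinearAut K F}
  {Z : Type*} [CommRing Z] [IsDomain Z] [IsPrincipalIdealRing Z] [Algebra Z K]
  [Flat.Setup Z K G] {ℓ : ℕ} {σ : G} {τ : SemilinearAut k Fk} {c : Γ ≃ Γ}

/-- the order of `isFlat_main` -/
theorem exists_order_main (hG : Geo S (ρ.comp Γ.subtype))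
    (hbase : ∀ (g : G) (a : K), SemilinearAut.baseAut (ρ g) a = g • a)
    (inf : Place K F) (hinf : ∀ g : Γ, ρ g • inf = inf)
    (hσ : Compat S (ρ.comp Γ.subtype) (ρ σ) τ c) (hD : DescData Z Γ A ℓ σ)
    {M : Type*} [AddCommGroup M] [Fintype M] [DistribMulAction G M]
    (i : M →+ Pic0 K F) (hi : Function.Injective i) (hsmul : ∀ (g : G) m, i (g • m) = ρ g • i m)
    (hsep : SepFun G K M) :
    ∃ O : Subalgebra Z (M → K), Flat.IsOrder (DistribMulAction.toAddMonoidEnd G M) O ∧
      ∀ φ ∈ O, ∀ m m' : M, redCl S (fun m => repOf (i m)) m = redCl S (fun m => repOf (i m)) m' →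
        φ m - φ m' ∈ A.nonunits := by
  have hR : Rep (ρ.comp Γ.subtype) (fun m => repOf (i m)) :=
    rep_repOf (ρ.comp Γ.subtype) i hi (fun g m => hsmul g m)
  have hRG : Rep ρ (fun m => repOf (i m)) := rep_repOf ρ i hi hsmul
  have hH := funOrder_theOrder hG hR inf hinf
  refine ⟨descOrder Z (theOrder hG hR inf hinf) hH hD.le, isOrder_descOrder hD hH hsep ?_ ?_, ?_⟩
  · intro φ hφ
    have h1 := theOrder_stable hG hσ hR inf hinf (MulAction.toPerm σ : Equiv.Perm M)
      (fun m => hRG.smul σ m) hφ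
    have h2 : (fun m => SemilinearAut.baseAut (ρ σ) (φ ((MulAction.toPerm σ : Equiv.Perm M).symm m)))
        = fun m => σ • φ (σ⁻¹ • m) := by
      funext m
      rw [hbase]
      rfl
    rwa [h2] at h1
  · intro φ hφ
    exact add_mem_theOrder hG hR inf hinf hφ
  · intro φ hφ m m' hm
    exact theOrder_congr hG hR inf hinf hφ.1 hm

end Main

end Fermat.Agent.PPart

open ModularCurve Fermat.Agent.ESh

noncomputable section

namespace Fermat.Agent.PPart

local notation "Qb" => AlgebraicClosure ℚ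
local notation "GalQ" => (AlgebraicClosure ℚ ≃ₐ[ℚ] AlgebraicClosure ℚ)

section JZ

variable {N : ℕ} [NeZero N] {ℓ : ℕ} [hℓ : Fact ℓ.Prime] {A : ValuationSubring Qb}
  {k : Type*} [Field k] {π : A →+* k}
  {hA : A.LiesOverPrime ℓ} {hπ : ∀ a : A, π a = 0 ↔ ¬ IsUnit a}
  {hs : Function.Surjective π} {hN : ¬ ℓ ∣ N}

/-- a class reducing to zero is represented by a divisor with principal reduction. -/
theorem push_repOf_principal (S : Red.Spec (Red.redX N hA hπ hs hN)) {x : JZero N}
    (hx : (divSpecOf S).pic x = 0) :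
    LinEq (push S (repOf x)) 0 := by
  obtain ⟨D, hD, hDx⟩ := repOf_spec x
  rw [← hDx, DivSpec.pic_mk] at hx
  have h1 := pic0_isPrincipal_of_mk_eq_zero hx
  rw [DivSpec.coe_degZeroHom] at h1
  rw [← hD]
  unfold LinEq
  rw [sub_zero]
  exact h1

theorem linEq_repOf (S : Red.Spec (Red.redX N hA hπ hs hN)) {x : JZero N}
    (hx : (divSpecOf S).pic x = 0) :
    LinEq (push S (repOf x)) (push S (repOf (0 : JZero N))) :=
  (push_repOf_principal S hx).trans (push_repOf_principal S (map_zero _)).symm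

end JZ

set_option synthInstance.maxHeartbeats 200000 in
/-- the order of `isFlat_jZero`, and the Eichler–Shimura relation. -/
theorem exists_order_jZero {N : ℕ} [NeZero N] {ℓ : ℕ} [hℓ : Fact ℓ.Prime] (hN : ¬ ℓ ∣ N)
    {A : ValuationSubring Qb} (hA : A.LiesOverPrime ℓ)
    {M : Type*} [AddCommGroup M] [Finite M] [DistribMulAction GalQ M]
    (i : M →+ JZero N) (hi : Function.Injective i) (hsmul : ∀ (g : GalQ) m, i (g • m) = g • i m)
    {σ : GalQ} (hσ : A.IsFrobeniusAt σ ℓ) :
    ∃ O : Subalgebra (GaloisRep.ratLocalizedAt ℓ) (M → Qb),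
      Flat.IsOrder (DistribMulAction.toAddMonoidEnd GalQ M) O ∧
      ∀ m m' : M, i m' = σ • σ • i m - heckeOperatorBar N ⟨ℓ, hℓ.out⟩ (σ • i m) + ℓ • i m →
        ∀ φ ∈ O, φ m' - φ 0 ∈ A.nonunits := by
  haveI : Fintype M := Fintype.ofFinite M
  let π := IsLocalRing.residue A
  have hs : Function.Surjective π := IsLocalRing.residue_surjective
  have hπ : ∀ a : A, π a = 0 ↔ ¬ IsUnit a := fun a => by
    rw [IsLocalRing.residue_eq_zero_iff, IsLocalRing.mem_maximalIdeal]
    rfl
  haveI := Red.isAlgClosed_of_surjective hs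
  haveI := Red.charP_of_liesOverPrime hA hπ
  haveI := Red.isFnField_bar N
  haveI := Red.isFnField_fullC (k := IsLocalRing.ResidueField A) N ℓ hN
  obtain ⟨g, hg⟩ := exists_compat_frob hA hπ hs hN hσ
  obtain ⟨O, hO, hcong⟩ := exists_order_main (ρ := galX N) (geo_X hA hπ hs hN) (fun g a => rfl)
    (infPlace (qset_redX N hA hπ hs hN).order_x)
    (fun g => smul_inf_X hA hπ hs hN (g : GalQ)) hg (descData hA hσ) i hi hsmul
    (sepFun_of_smooth fun m => by
      obtain ⟨E, hE, h⟩ := smooth_jZero N (i m)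
      exact ⟨E, hE, fun σ hσ => hi (by rw [hsmul, h σ hσ])⟩)
  refine ⟨O, hO, fun m m' hmm φ hφ => hcong φ hφ m' 0 ?_⟩
  haveI : NeZero ℓ := ⟨hℓ.out.ne_zero⟩
  haveI : PerfectRing (IsLocalRing.ResidueField A) ℓ := PerfectField.toPerfectRing ℓ
  letI : Algebra Qb ℂ :=
    (IsAlgClosed.lift (R := ℚ) (S := AlgebraicClosure ℚ) (M := ℂ)).toRingHom.toAlgebra
  rw [redCl_eq_iff]
  have h1 := (divSpecOf (specX hA hπ hs hN)).pic_frobenius JZ.modularFieldInputsBar
    (FF.normInputs Qb) hπ hN σ hσ (i m)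
  have h2 : (divSpecOf (specX hA hπ hs hN)).pic (i m') = 0 := by
    rw [hmm]
    exact h1
  have h3 := linEq_repOf (specX hA hπ hs hN) h2
  rw [map_zero i]
  exact h3

section Local

open GaloisRep Fermat.Agent.CFT.Loc Fermat.Agent.Flat

variable {p : ℕ} [hp : Fact p.Prime]

theorem bcOrder_sub_lt {M : Type*} [AddCommGroup M] {O : Subalgebra (ratLocalizedAt p) (M → Qb)}
    {x y : M} (h : ∀ φ ∈ O, φ x - φ y ∈ (padicPlace p).nonunits) {f : M → PadicAlgCl p}
    (hf : f ∈ bcOrder (Wring p) (padicEmbedding p).toRingHom O) : ‖f x - f y‖ < 1 := by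
  refine bcOrder_induction (R' := Wring p) (padicEmbedding p).toRingHom
    (C := fun f => ‖f x - f y‖ < 1) ?_ ?_ ?_ ?_ hf
  · rw [Pi.zero_apply, Pi.zero_apply, sub_self, norm_zero]; exact one_pos
  · intro f g hf hg
    rw [Pi.add_apply, Pi.add_apply, add_sub_add_comm]
    exact norm_add_lt' hf hg
  · intro r f hf
    rw [Pi.smul_apply, Pi.smul_apply, ← smul_sub, Algebra.smul_def, norm_mul]
    exact mul_lt_one_of_nonneg_of_lt_one_right r.2.1 (norm_nonneg _) hf
  · intro φ hφ
    rw [← map_sub]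
    exact (mem_padicPlace_nonunits p).mp (h φ hφ)

/-- **The kernel of reduction and the connected part**: the elements
`s² m - T_p s m + p m` (`s` a Frobenius element at `p`) belong to the connected part of a
suitable order on a finite Galois submodule of `J₀(N)`. -/
theorem exists_locOrder_jZero {N : ℕ} [NeZero N] (hN : ¬ p ∣ N)
    {M : Type*} [AddCommGroup M] [Finite M] [DistribMulAction GalQ M]
    (i : M →+ JZero N) (hi : Function.Injective i) (hsmul : ∀ (g : GalQ) m, i (g • m) = g • i m)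
    {s : GalQ} (hs : (padicPlace p).IsFrobeniusAt s p) :
    ∃ (O : Subalgebra (Wring p) (M → PadicAlgCl p))
      (hO : IsOrder ((DistribMulAction.toAddMonoidEnd GalQ M).comp (inertiaToGlobal (p := p))) O),
      ∀ m m' : M, i m' = s • s • i m - heckeOperatorBar N ⟨p, hp.out⟩ (s • i m) + p • i m →
        m' ∈ connPart hO := by
  obtain ⟨O, hO, h⟩ := exists_order_jZero hN (padicPlace_liesOverPrime p) i hi hsmul hs
  refine ⟨bcOrder (Wring p) (padicEmbedding p).toRingHom O,
    hO.baseChange (padicEmbedding p).toRingHom (toWring p) (inertiaToGlobal (p := p))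
      ?_ ?_ (fun _ _ => rfl) (fun g r => r.2.2 g g.2), fun m m' hmm => ?_⟩
  · intro r
    change padicEmbedding p (algebraMap ℚ (AlgebraicClosure ℚ) (r : ℚ)) = _
    rw [AlgHom.commutes]
    rfl
  · intro g x
    exact padicEmbedding_localGaloisToGlobal p (g : GalLoc p) x
  · rw [mem_connPart]
    intro φ hφ
    have h1 := bcOrder_sub_lt (h m m' hmm) hφ.1
    rwa [hφ.2, sub_zero] at h1

end Local

end Fermat.Agent.PPart
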