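import Fermat.Agent.PPart.Quad
import Fermat.Agent.PPart.KernelRed
import Fermat.Agent.PPart.Block

/-!
# The Frobenius eigenvalue at `p` and the Hecke operator at `p`
-/

set_option autoImplicit false
set_option linter.unusedSectionVars false
set_option linter.style.haveILetI false

open Polynomial IsLocalRing GaloisRep Fermat.Agent.CFT.Loc Fermat.Agent.CFT Fermat.Agent.Flat
  Fermat.Agent.DefRing Fermat.Agent.TW Fermat.Agent.LL ModularCurve

namespace Fermat.Agent.PPart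

open Fermat.Agent.RepTwo

local notation "Γℚ" => (AlgebraicClosure ℚ ≃ₐ[ℚ] AlgebraicClosure ℚ)
local notation "M₂" => Matrix (Fin 2) (Fin 2)

variable {p : ℕ} [hp : Fact p.Prime]

/-- local Frobenius elements are global Frobenius elements -/
theorem isFrobeniusAt_loc {F : GalLoc p} (hF : ∀ x, resAct p F x = x ^ p) :
    (padicPlace p).IsFrobeniusAt (localGaloisToGlobal p F) p := by
  rw [Frob.isFrobeniusAt_iff]
  refine ⟨loc_mem_dec F, fun x hx => ?_⟩
  rw [mem_padicPlace_iff] at hx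
  rw [mem_padicPlace_nonunits, map_sub, map_pow, padicEmbedding_localGaloisToGlobal]
  have hx' : ‖padicEmbedding p x‖ ≤ 1 := hx
  have h1 := hF (red p (padicEmbedding p x) hx')
  rw [resAct_red, red, red, ← map_pow] at h1
  exact (red_eq_red_iff (l := p) (by rwa [norm_apply]) (by
    rw [norm_pow]; exact pow_le_one₀ (norm_nonneg _) hx')).1 h1

theorem kerStmt {N : ℕ} [NeZero N] (hN : ¬ p ∣ N) : KerStmt N p := by
  intro M _ _ _ i hi hsmul F hF
  exact exists_locOrder_jZero hN i hi hsmul (isFrobeniusAt_loc hF)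

/-- **the quadratic equation** -/
theorem crys_core {N : ℕ} [NeZero N] {S : Finset ℕ} (hp2 : p ≠ 2) (hpN : ¬ p ∣ N)
    (hpS : p ∉ (↑S : Set ℕ)) (hNS : ∀ q : ℕ, q.Prime → q ∣ N → q ∈ S)
    {R : Type} [CommRing R] [IsLocalRing R] [IsHausdorff (maximalIdeal R) R]
    (hfin : ∀ n, Finite (R ⧸ maximalIdeal R ^ n)) (hpR : (p : R) ∈ maximalIdeal R)
    (χ : CuspForm.heckeAlgebra N 2 (↑S : Set ℕ) →+* R) (ρ : GaloisRepAdic R)
    (hρ : ∀ (ℓ : ℕ) (hℓ : ℓ.Prime) (hℓN : ¬ ℓ ∣ N) (hℓS : ℓ ∉ (↑S : Set ℕ)), ℓ ≠ p →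
      ∀ A : ValuationSubring (AlgebraicClosure ℚ), A.LiesOverPrime ℓ →
      ∀ σ : AlgebraicClosure ℚ ≃ₐ[ℚ] AlgebraicClosure ℚ, A.IsFrobeniusAt σ ℓ →
        LinearMap.charpoly (ρ.ρ σ) =
          X ^ 2 - C (χ (CuspForm.heckeAlgebra.T hℓ hℓN hℓS)) * X + C ((ℓ : R)))
    (habs : ρ.residual.IsAbsolutelyIrreducible) {r : Γℚ → M₂ R} (hr : Realizes ρ r)
    (hord : OrdLoc p r) {F : GalLoc p} (hF : ∀ x, resAct p F x = x ^ p) :
    r (localGaloisToGlobal p F) 1 1 ^ 2 -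
      χ (CuspForm.heckeAlgebra.T hp.out hpN hpS) * r (localGaloisToGlobal p F) 1 1 + p = 0 := by
  refine IsHausdorff.haus (I := maximalIdeal R) inferInstance _ fun n => ?_
  rw [SModEq.zero, smul_eq_mul, Ideal.mul_top]
  haveI := hfin n
  exact quad_mem hp2 (kerStmt hpN) hNS hpN hpS hpR χ ρ hρ habs hr hord hF (maximalIdeal R ^ n)

end Fermat.Agent.PPart
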