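import Fermat.Agent.TW.Closure
import Mathlib.RingTheory.Henselian

/-!
# Diagonalisation at an element of inertia
-/

set_option autoImplicit false
set_option linter.unusedSectionVars false
set_option linter.style.haveILetI false

open IsLocalRing Polynomial

namespace Fermat.Agent.PPart

open Fermat.Agent.DefRing Fermat.Agent.TW

local notation "M₂" => Matrix (Fin 2) (Fin 2)

variable {A : Type} [CommRing A]

theorem isUnit_or_of_add {B : Type*} [CommRing B] [IsLocalRing B] {a b : B} (h : IsUnit (a + b)) :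
    IsUnit a ∨ IsUnit b := by
  by_contra hcon
  push Not at hcon
  exact IsLocalRing.nonunits_add hcon.1 hcon.2 h

theorem isUnit_of_sub_mem {B : Type*} [CommRing B] [IsLocalRing B] {a b : B} (h : IsUnit b)
    (h' : a - b ∈ maximalIdeal B) : IsUnit a := by
  by_contra hcon
  have h1 : a ∈ maximalIdeal B := hcon
  have h2 := Ideal.sub_mem _ h1 h'
  rw [sub_sub_cancel] at h2
  exact h2 h

/-- an invertible change of basis diagonalising a matrix with eigenvalues `det M`, `1` modulo the
maximal ideal. -/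
theorem exists_diag [IsLocalRing A] [IsAdicComplete (maximalIdeal A) A] (M : M₂ A)
    (h1 : M.trace - (1 + M.det) ∈ maximalIdeal A) (h2 : IsUnit (M.det - 1)) :
    ∃ (P : M₂ A) (l₁ l₂ : A), IsUnit P.det ∧ l₁ - M.det ∈ maximalIdeal A ∧
      l₂ - 1 ∈ maximalIdeal A ∧ M * P = P * Matrix.diagonal ![l₁, l₂] := by
  set t := M.trace with ht
  set d := M.det with hd
  let f : A[X] := X ^ 2 - C t * X + C d
  have hf : f.Monic := by
    have : f = X ^ 2 + (- C t * X + C d) := by simp only [f]; ring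
    rw [this]
    apply Polynomial.monic_X_pow_add
    compute_degree!
  have hev : ∀ x : A, f.eval x = x ^ 2 - t * x + d := fun x => by simp [f]
  have hder : f.derivative.eval d = 2 * d - t := by
    simp only [f, derivative_add, derivative_sub, derivative_X_pow, derivative_mul, derivative_C,
      derivative_X, eval_add, eval_sub, eval_mul, eval_C, eval_X, eval_pow]
    push_cast
    simp
  obtain ⟨l₁, hl₁, hl₁d⟩ := HenselianRing.is_henselian (I := maximalIdeal A) f hf d (by
      rw [hev]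
      have : d ^ 2 - t * d + d = -(t - (1 + d)) * d := by ring
      rw [this]
      exact Ideal.mul_mem_right _ _ (neg_mem h1)) (by
      rw [hder]
      apply IsUnit.map
      refine isUnit_of_sub_mem h2 ?_
      have : 2 * d - t - (d - 1) = -(t - (1 + d)) := by ring
      rw [this]
      exact neg_mem h1)
  have hl₁' : l₁ ^ 2 - t * l₁ + d = 0 := by rw [← hev]; exact hl₁
  set l₂ := t - l₁ with hl₂
  have hl₂m : l₂ - 1 ∈ maximalIdeal A := by
    have : l₂ - 1 = (t - (1 + d)) - (l₁ - d) := by rw [hl₂]; ring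
    rw [this]
    exact Ideal.sub_mem _ h1 hl₁d
  have hδ : IsUnit (l₁ - l₂) := by
    refine isUnit_of_sub_mem h2 ?_
    have : l₁ - l₂ - (d - 1) = (l₁ - d) - (l₂ - 1) := by ring
    rw [this]
    exact Ideal.sub_mem _ hl₁d hl₂m
  have htr : M 0 0 + M 1 1 = t := by rw [ht, Matrix.trace_fin_two]
  have hdet : M 0 0 * M 1 1 - M 0 1 * M 1 0 = d := by rw [hd, Matrix.det_fin_two]
  have hsum : (M 0 0 - l₂) + (M 1 1 - l₂) = l₁ - l₂ := by rw [hl₂]; linear_combination htr
  have hprod : (M 0 0 - l₂) * (M 1 1 - l₂) = M 0 1 * M 1 0 := by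
    rw [hl₂]; linear_combination hdet - (t - l₁) * htr + hl₁'
  rcases isUnit_or_of_add (hsum ▸ hδ) with hu | hu
  · refine ⟨!![M 0 0 - l₂, -M 0 1; M 1 0, M 0 0 - l₂], l₁, l₂, ?_, hl₁d, hl₂m, ?_⟩
    · rw [Matrix.det_fin_two_of]
      have : (M 0 0 - l₂) * (M 0 0 - l₂) - -M 0 1 * M 1 0 = (M 0 0 - l₂) * (l₁ - l₂) := by
        linear_combination (M 0 0 - l₂) * hsum - hprod
      rw [this]
      exact hu.mul hδ
    · ext i j
      fin_cases i <;> fin_cases j <;> simp [Matrix.mul_apply, Fin.sum_univ_two]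
      · linear_combination (M 0 0 - l₂) * hsum - hprod
      · ring
      · linear_combination M 1 0 * hsum
      · linear_combination hprod
  · refine ⟨!![M 0 1, M 1 1 - l₂; M 1 1 - l₂, -M 1 0], l₁, l₂, ?_, hl₁d, hl₂m, ?_⟩
    · rw [Matrix.det_fin_two_of]
      have : M 0 1 * -M 1 0 - (M 1 1 - l₂) * (M 1 1 - l₂) = -((M 1 1 - l₂) * (l₁ - l₂)) := by
        linear_combination -(M 1 1 - l₂) * hsum + hprod
      rw [this]
      exact (hu.mul hδ).neg
    · ext i j
      fin_cases i <;> fin_cases j <;> simp [Matrix.mul_apply, Fin.sum_univ_two]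
      · linear_combination M 0 1 * hsum
      · linear_combination hprod
      · linear_combination (M 1 1 - l₂) * hsum - hprod
      · ring

section Transfer

variable {r s h : M₂ A} {X : M₂ A}

/-- a base change between a triangular and a diagonal matrix with distinct eigenvalues is
triangular -/
theorem transfer_X {rh sh : M₂ A} (hX : sh * X = X * rh) (h10 : sh 1 0 = 0) (h11 : sh 1 1 = 1)
    (r10 : rh 1 0 = 0) (r00 : IsUnit (rh 0 0 - 1)) : X 1 0 = 0 := by
  have h1 := congrFun (congrFun hX 1) 0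
  rw [Matrix.mul_apply, Matrix.mul_apply, Fin.sum_univ_two, Fin.sum_univ_two, h10, h11, r10,
    zero_mul, zero_add, one_mul, mul_zero, add_zero] at h1
  have h2 : X 1 0 * (rh 0 0 - 1) = 0 := by rw [mul_sub, mul_one, ← h1, sub_self]
  exact (r00.mul_left_eq_zero).mp h2

theorem transfer_entries {r s : M₂ A} (hX : s * X = X * r) (hdet : IsUnit X.det) (h0 : X 1 0 = 0)
    (h10 : s 1 0 = 0) : r 1 0 = 0 ∧ r 1 1 = s 1 1 ∧ r 0 0 = s 0 0 := by
  rw [Matrix.det_fin_two, h0, mul_zero, sub_zero] at hdet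
  have h00 : IsUnit (X 0 0) := isUnit_of_mul_isUnit_left hdet
  have h11 : IsUnit (X 1 1) := isUnit_of_mul_isUnit_right hdet
  have e10 := congrFun (congrFun hX 1) 0
  have e11 := congrFun (congrFun hX 1) 1
  have e00 := congrFun (congrFun hX 0) 0
  rw [Matrix.mul_apply, Matrix.mul_apply, Fin.sum_univ_two, Fin.sum_univ_two] at e10 e11 e00
  rw [h10, h0, zero_mul, mul_zero, add_zero, zero_mul, zero_add] at e10
  have hr10 : r 1 0 = 0 := (h11.mul_right_eq_zero).mp e10.symm
  rw [h10, h0, zero_mul, zero_add, zero_mul, zero_add, mul_comm] at e11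
  rw [h0, hr10, mul_zero, mul_zero, add_zero, add_zero, mul_comm] at e00
  exact ⟨hr10, (h11.mul_left_cancel e11).symm, (h00.mul_left_cancel e00).symm⟩

end Transfer

variable [IsLocalRing A]

/-- the strict ordinary condition can be seen in any basis diagonalising a suitable element of
inertia. -/
theorem ordMat_transfer {ρ : GaloisRepAdic A} {r s : Γ → M₂ A} (hr : Realizes ρ r)
    (hs : Realizes ρ s) {p : ℕ} {P : ValuationSubring (AlgebraicClosure ℚ)} (hord : OrdMat p P s)
    {h : Γ} (hh : h ∈ P.inertiaSubgroupIn ℚ) (h10 : r h 1 0 = 0) (h00 : IsUnit (r h 0 0 - 1)) :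
    OrdMat p P r := by
  obtain ⟨X, hX, hX'⟩ := hs.exists_conj hr
  have hcomm : ∀ σ, s σ * X = X * r σ := fun σ => (hX' σ).symm
  have hhD : h ∈ P.decompositionSubgroup ℚ :=
    ((Fermat.Agent.Frob.mem_inertiaSubgroupIn_iff _ _).1 hh).1
  have hX0 := transfer_X (hcomm h) (hord.dec h hhD) (hord.ine h hh) h10 h00
  have key : ∀ σ ∈ P.decompositionSubgroup ℚ, r σ 1 0 = 0 ∧ r σ 1 1 = s σ 1 1 ∧
      r σ 0 0 = s σ 0 0 := fun σ hσ => transfer_entries (hcomm σ) hX hX0 (hord.dec σ hσ)
  refine ⟨fun σ hσ => (key σ hσ).1, fun σ hσ => ?_, fun σ hσ n a ha => ?_⟩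
  · have hσD : σ ∈ P.decompositionSubgroup ℚ :=
      ((Fermat.Agent.Frob.mem_inertiaSubgroupIn_iff _ _).1 hσ).1
    rw [(key σ hσD).2.1]
    exact hord.ine σ hσ
  · rw [(key σ hσ).2.1, (key σ hσ).2.2]
    exact hord.cyc σ hσ n a ha

end Fermat.Agent.PPart
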