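import Fermat.Agent.PPart.Peu
import Fermat.Agent.PPart.MatDiag
import Fermat.Agent.LL.FlatGlue

/-!
# Flat representations which are residually ordinary
-/

set_option autoImplicit false
set_option linter.unusedSectionVars false
set_option linter.style.haveILetI false

open IsLocalRing GaloisRep Fermat.Agent.CFT.Loc Fermat.Agent.CFT Fermat.Agent.Flat
  Fermat.Agent.DefRing Fermat.Agent.TW Fermat.Agent.LL

namespace Fermat.Agent.PPart

local notation "Γℚ" => (AlgebraicClosure ℚ ≃ₐ[ℚ] AlgebraicClosure ℚ)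
local notation "M₂" => Matrix (Fin 2) (Fin 2)

variable {p : ℕ} [hp : Fact p.Prime]

section ConnGroup

variable {M : Type*} [AddCommGroup M] {ρ : inertiaLoc p →* AddMonoid.End M}
  {O : Subalgebra (Wring p) (M → PadicAlgCl p)}

theorem connPart_stable (h : IsOrder ρ O) (σ : inertiaLoc p) {m : M} (hm : m ∈ connPart h) :
    ρ σ m ∈ connPart h := by
  have h1 := add_mem (sub_mem_connPart h σ m) hm
  rwa [sub_add_cancel] at h1

/-- maps to `p`-groups with trivial action vanish on the connected part -/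
theorem conn_zero' {M' A : Type*} [AddCommGroup M'] [AddCommGroup A] [Finite M'] (hp2 : p ≠ 2)
    (h : IsOrder ρ O) (i : M' →+ M) (hi : Function.Injective i)
    (ρ' : inertiaLoc p →* AddMonoid.End M') (hiρ : ∀ g m, i (ρ' g m) = ρ g (i m)) (s : M' →+ A)
    (hsρ : ∀ g m, s (ρ' g m) = s m) {n : ℕ} (hpA : ∀ a : A, p ^ n • a = 0)
    {m : M'} (hm : i m ∈ connPart h) : s m = 0 := by
  -- the connected part of `M'`
  let C : AddSubgroup M' := (connPart h).comap i
  obtain ⟨ρC, hρC⟩ := exists_restrict ρ' C.subtype Subtype.val_injective (fun g x => by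
    refine ⟨⟨ρ' g x, ?_⟩, rfl⟩
    change i (ρ' g x) ∈ connPart h
    rw [hiρ]
    exact connPart_stable h g x.2)
  let B : AddSubgroup A := C.map s
  -- the quotient `B / pB`
  let pB : AddSubgroup B := (nsmulAddMonoidHom (α := B) p).range
  let t : C →+ B ⧸ pB := (QuotientAddGroup.mk' pB).comp (s.addSubgroupMap C)
  have ht : Function.Surjective t :=
    (QuotientAddGroup.mk'_surjective pB).comp (s.addSubgroupMap_surjective C)
  have h0 : ∀ x : C, t x = 0 := by
    intro x
    refine conn_zero hp2 h (i.comp C.subtype) (hi.comp Subtype.val_injective) ρC (fun g m => ?_) t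
      ht (fun g m => ?_) (fun a => ?_) (m := x) x.2
    · change i (ρC g m : M') = ρ g (i m)
      have h1 : (ρC g m : M') = ρ' g m := hρC g m
      rw [h1, hiρ]
    · have h1 : (ρC g m : M') = ρ' g m := hρC g m
      change QuotientAddGroup.mk' pB (s.addSubgroupMap C (ρC g m)) =
        QuotientAddGroup.mk' pB (s.addSubgroupMap C m)
      congr 1
      apply Subtype.ext
      change s (ρC g m : M') = s m
      rw [h1, hsρ]
    · obtain ⟨b, rfl⟩ := QuotientAddGroup.mk'_surjective pB a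
      rw [← map_nsmul]
      exact (QuotientAddGroup.eq_zero_iff _).mpr ⟨b, rfl⟩
  have h1 : ∀ b : B, ∃ b' : B, b = p • b' := by
    intro b
    obtain ⟨x, hx⟩ := s.addSubgroupMap_surjective C b
    have h2 : (QuotientAddGroup.mk' pB) b = 0 := by rw [← hx]; exact h0 x
    obtain ⟨b', hb'⟩ := (QuotientAddGroup.eq_zero_iff _).mp h2
    exact ⟨b', hb'.symm⟩
  have h2 : ∀ k : ℕ, ∀ b : B, ∃ b' : B, b = p ^ k • b' := by
    intro k
    induction k with
    | zero => exact fun b => ⟨b, by rw [pow_zero, one_smul]⟩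
    | succ k ih =>
      intro b
      obtain ⟨b', rfl⟩ := ih b
      obtain ⟨b'', rfl⟩ := h1 b'
      exact ⟨b'', by rw [← mul_smul, ← pow_succ]⟩
  obtain ⟨b', hb'⟩ := h2 n ⟨s m, m, hm, rfl⟩
  have h3 := congrArg (fun b : B => (b : A)) hb'
  change s m = ((p ^ n • b' : B) : A) at h3
  rw [h3]
  push_cast
  exact hpA _

end ConnGroup

section Setup

theorem mulVec_zero' {B : Type*} [CommRing B] (m : M₂ B) (x : Fin 2 → B) :
    m.mulVec x 0 = m 0 0 * x 0 + m 0 1 * x 1 := by
  rw [Matrix.mulVec, dotProduct, Fin.sum_univ_two]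

theorem mulVec_one' {B : Type*} [CommRing B] (m : M₂ B) (x : Fin 2 → B) :
    m.mulVec x 1 = m 1 0 * x 0 + m 1 1 * x 1 := by
  rw [Matrix.mulVec, dotProduct, Fin.sum_univ_two]

variable {A : Type} [CommRing A] [IsLocalRing A] {ρ : GaloisRepAdic A} {r : Γℚ → M₂ A}
  (hr : Realizes ρ r)

/-- the action of the local inertia group on `(A / J)²` -/
noncomputable def locJ (hr : Realizes ρ r) (J : Ideal A) :
    inertiaLoc p →* AddMonoid.End (Fin 2 → A ⧸ J) :=
  (mv (mapRep (Ideal.Quotient.mk J) (repHom hr))).comp (inertiaToGlobal (p := p))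

theorem locJ_zero (J : Ideal A) (σ : inertiaLoc p) (x : Fin 2 → A ⧸ J) :
    locJ hr J σ x 0 = Ideal.Quotient.mk J (r (localGaloisToGlobal p σ) 0 0) * x 0 +
      Ideal.Quotient.mk J (r (localGaloisToGlobal p σ) 0 1) * x 1 := mulVec_zero' _ x

theorem locJ_one (J : Ideal A) (σ : inertiaLoc p) (x : Fin 2 → A ⧸ J) :
    locJ hr J σ x 1 = Ideal.Quotient.mk J (r (localGaloisToGlobal p σ) 1 0) * x 0 +
      Ideal.Quotient.mk J (r (localGaloisToGlobal p σ) 1 1) * x 1 := mulVec_one' _ x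

theorem exists_locOrder (hflat : ρ.IsFlatAt p) (J : Ideal A) [hJ : Finite (A ⧸ J)] :
    ∃ O : Subalgebra (Wring p) ((Fin 2 → A ⧸ J) → PadicAlgCl p),
      IsOrder (locJ (p := p) hr J) O :=
  (((isFlatAt_iff_mv hr p).mp hflat).2 J hJ).toLocal

/-- the embedding and roots of unity -/
theorem apply_root_of_local {σ : GalLoc p} {n a : ℕ}
    (h : ∀ ζ : PadicAlgCl p, ζ ^ p ^ n = 1 → σ ζ = ζ ^ a) (μ : AlgebraicClosure ℚ)
    (hμ : μ ^ p ^ n = 1) : localGaloisToGlobal p σ μ = μ ^ a := by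
  apply (padicEmbedding p).injective
  change padicEmbedding p (localGaloisToGlobal p σ μ) = padicEmbedding p (μ ^ a)
  rw [padicEmbedding_localGaloisToGlobal, map_pow]
  apply h
  rw [← map_pow, hμ, map_one]

include hr in
/-- **(P1)** `σ_p` acts trivially modulo `p` -/
theorem sub_one_mem_of_flat' (hflat : ρ.IsFlatAt p) (hdet : ρ.DetIsCyclotomic p)
    {π : PadicAlgCl p} (hπ : IsPi π) {σ₀ : GalLoc p} (hσ₀ : IsSigma π σ₀) (J : Ideal A)
    [hJ : Finite (A ⧸ J)] (hpJ : (p : A) ∈ J)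
    (h10 : ∀ σ ∈ inertiaLoc p, r (localGaloisToGlobal p σ) 1 0 ∈ J)
    (h11 : ∀ σ ∈ inertiaLoc p, r (localGaloisToGlobal p σ) 1 1 - 1 ∈ J) (i j : Fin 2) :
    (r (localGaloisToGlobal p σ₀) - 1) i j ∈ J := by
  obtain ⟨O, hO⟩ := exists_locOrder (p := p) hr hflat J
  let M' : AddSubgroup (Fin 2 → A ⧸ J) :=
    { carrier := {x | x 1 = 0}
      zero_mem' := rfl
      add_mem' := fun {x y} hx hy => by
        change x 1 + y 1 = 0
        rw [show x 1 = 0 from hx, show y 1 = 0 from hy, add_zero]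
      neg_mem' := fun {x} hx => by
        change -(x 1) = 0
        rw [show x 1 = 0 from hx, neg_zero] }
  have h10q : ∀ σ ∈ inertiaLoc p,
      Ideal.Quotient.mk J (r (localGaloisToGlobal p σ) 1 0) = 0 := fun σ hσ =>
    Ideal.Quotient.eq_zero_iff_mem.mpr (h10 σ hσ)
  have h11q : ∀ σ ∈ inertiaLoc p,
      Ideal.Quotient.mk J (r (localGaloisToGlobal p σ) 1 1) = 1 := fun σ hσ => by
    have := Ideal.Quotient.eq_zero_iff_mem.mpr (h11 σ hσ)
    rwa [map_sub, map_one, sub_eq_zero] at this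
  have hpq : ((p : ℕ) : A ⧸ J) = 0 := by
    rw [← map_natCast (Ideal.Quotient.mk J)]
    exact Ideal.Quotient.eq_zero_iff_mem.mpr hpJ
  have hpM : ∀ m : Fin 2 → A ⧸ J, p • m = 0 := by
    intro m
    funext k
    rw [Pi.smul_apply, nsmul_eq_mul, hpq, zero_mul]
    rfl
  have key := peu_trivial hO hpM hπ hσ₀ M' (fun σ a ha x hx => by
      have hx1 : x 1 = 0 := hx
      have h00 : Ideal.Quotient.mk J (r (localGaloisToGlobal p σ) 0 0) = (a : A ⧸ J) := by
        have h1 := hdet.2 1 (localGaloisToGlobal p σ) a (fun μ hμ => by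
          refine apply_root_of_local (n := 1) (fun ζ hζ => ha ζ ?_) μ hμ
          rwa [pow_one] at hζ)
        rw [realizes_det hr, Matrix.det_fin_two, pow_one] at h1
        have h2 := (Ideal.span_singleton_le_iff_mem (I := J)).mpr hpJ h1
        rw [← Ideal.Quotient.eq_zero_iff_mem, map_sub, map_sub, map_mul, map_mul, h10q _ σ.2,
          h11q _ σ.2, mul_one, mul_zero, sub_zero, map_natCast, sub_eq_zero] at h2
        exact h2
      funext k
      fin_cases k
      · change locJ hr J σ x 0 = (a • x) 0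
        rw [locJ_zero, hx1, mul_zero, add_zero, h00, Pi.smul_apply, nsmul_eq_mul]
      · change locJ hr J σ x 1 = (a • x) 1
        rw [locJ_one, hx1, mul_zero, add_zero, h10q _ σ.2, zero_mul, Pi.smul_apply, hx1,
          smul_zero]) (fun σ x => by
      change locJ hr J σ x 1 - x 1 = 0
      rw [locJ_one, h10q _ σ.2, h11q _ σ.2, zero_mul, zero_add, one_mul, sub_self])
  have h0 := key ![1, 0]
  have h1 := key ![0, 1]
  have h00 := congrFun h0 0
  have h01 := congrFun h0 1
  have h10' := congrFun h1 0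
  have h11' := congrFun h1 1
  rw [locJ_zero] at h00 h10'
  rw [locJ_one] at h01 h11'
  simp only [Matrix.cons_val_zero, Matrix.cons_val_one, mul_one, mul_zero, add_zero,
    zero_add] at h00 h01 h10' h11'
  fin_cases i <;> fin_cases j
  · change r (localGaloisToGlobal p σ₀) 0 0 - 1 ∈ J
    rw [← Ideal.Quotient.eq_zero_iff_mem, map_sub, map_one, h00, sub_self]
  · change r (localGaloisToGlobal p σ₀) 0 1 - 0 ∈ J
    rw [sub_zero, ← Ideal.Quotient.eq_zero_iff_mem, h10']
  · change r (localGaloisToGlobal p σ₀) 1 0 - 0 ∈ J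
    rw [sub_zero, ← Ideal.Quotient.eq_zero_iff_mem, h01]
  · change r (localGaloisToGlobal p σ₀) 1 1 - 1 ∈ J
    rw [← Ideal.Quotient.eq_zero_iff_mem, map_sub, map_one, h11', sub_self]

include hr in
theorem sub_one_mem_of_flat (hflat : ρ.IsFlatAt p) (hdet : ρ.DetIsCyclotomic p)
    (h10 : ∀ σ ∈ inertiaLoc p, r (localGaloisToGlobal p σ) 1 0 = 0)
    (h11 : ∀ σ ∈ inertiaLoc p, r (localGaloisToGlobal p σ) 1 1 = 1)
    {π : PadicAlgCl p} (hπ : IsPi π) {σ₀ : GalLoc p} (hσ₀ : IsSigma π σ₀) (J : Ideal A)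
    [hJ : Finite (A ⧸ J)] (hpJ : (p : A) ∈ J) (i j : Fin 2) :
    (r (localGaloisToGlobal p σ₀) - 1) i j ∈ J :=
  sub_one_mem_of_flat' hr hflat hdet hπ hσ₀ J hpJ
    (fun σ hσ => by rw [h10 σ hσ]; exact J.zero_mem)
    (fun σ hσ => by rw [h11 σ hσ, sub_self]; exact J.zero_mem) i j

end Setup

end Fermat.Agent.PPart
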