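import Fermat.Agent.PPart.FlatMat

/-!
# Flat representations which are residually ordinary are ordinary
-/

set_option autoImplicit false
set_option linter.unusedSectionVars false
set_option linter.style.haveILetI false

open IsLocalRing GaloisRep Fermat.Agent.CFT.Loc Fermat.Agent.CFT Fermat.Agent.Flat
  Fermat.Agent.DefRing Fermat.Agent.TW Fermat.Agent.LL

namespace Fermat.Agent.PPart

local notation "Γℚ" => (AlgebraicClosure ℚ ≃ₐ[ℚ] AlgebraicClosure ℚ)
local notation "M₂" => Matrix (Fin 2) (Fin 2)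

variable {p : ℕ} [hp : Fact p.Prime]

/-- socle elements -/
theorem exists_socle {A : Type*} [CommRing A] [IsLocalRing A] {J : Ideal A} {n : ℕ}
    (hn : maximalIdeal A ^ n ≤ J) {y : A} (hy : y ∉ J) :
    ∃ b : A, b * y ∉ J ∧ ∀ c ∈ maximalIdeal A, c * (b * y) ∈ J := by
  classical
  have hex : ∃ k : ℕ, ∀ b ∈ maximalIdeal A ^ k, b * y ∈ J :=
    ⟨n, fun b hb => Ideal.mul_mem_right _ _ (hn hb)⟩
  have hk := Nat.find_spec hex
  set k := Nat.find hex with hkdef
  have hk0 : k ≠ 0 := by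
    intro h0
    rw [h0] at hk
    apply hy
    have := hk 1 (by rw [pow_zero, Ideal.one_eq_top]; trivial)
    rwa [one_mul] at this
  have h1 := Nat.find_min hex (m := k - 1) (by omega)
  push Not at h1
  obtain ⟨b, hb, hby⟩ := h1
  refine ⟨b, hby, fun c hc => ?_⟩
  rw [← mul_assoc]
  apply hk
  have : k = (k - 1) + 1 := by omega
  rw [this, pow_succ']
  exact Ideal.mul_mem_mul hc hb

section

variable {A : Type} [CommRing A] [IsLocalRing A] {ρ : GaloisRepAdic A} {r : Γℚ → M₂ A}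
  (hr : Realizes ρ r)

include hr in
/-- the statement modulo an ideal -/
theorem row_of_flat_mod (hp2 : p ≠ 2) (hpA : (p : A) ∈ maximalIdeal A) (hflat : ρ.IsFlatAt p)
    {h : GalLoc p} (hh : h ∈ inertiaLoc p) (h10 : r (localGaloisToGlobal p h) 1 0 = 0)
    (h00 : IsUnit (r (localGaloisToGlobal p h) 0 0 - 1))
    (hres10 : ∀ σ ∈ inertiaLoc p, r (localGaloisToGlobal p σ) 1 0 ∈ maximalIdeal A)
    (hres11 : ∀ σ ∈ inertiaLoc p, r (localGaloisToGlobal p σ) 1 1 - 1 ∈ maximalIdeal A)
    (J : Ideal A) [hJ : Finite (A ⧸ J)] {σ : GalLoc p} (hσ : σ ∈ inertiaLoc p) :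
    r (localGaloisToGlobal p σ) 1 0 ∈ J ∧ r (localGaloisToGlobal p σ) 1 1 - 1 ∈ J := by
  obtain ⟨n, hn⟩ := exists_maximalIdeal_pow_le J
  obtain ⟨O, hO⟩ := exists_locOrder (p := p) hr hflat J
  haveI hfin : Finite (A ⧸ maximalIdeal A) := ((isFlatAt_iff_mv hr p).mp hflat).1
  let mk := Ideal.Quotient.mk J
  let C : Set (Fin 2 → A ⧸ J) := {x | ∀ b : A ⧸ J, b • x ∈ connPart hO}
  have hlin : ∀ (τ : inertiaLoc p) (b : A ⧸ J) (x : Fin 2 → A ⧸ J),
      locJ (p := p) hr J τ (b • x) = b • locJ (p := p) hr J τ x := by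
    intro τ b x
    funext k
    fin_cases k
    · change locJ hr J τ (b • x) 0 = b * locJ hr J τ x 0
      rw [locJ_zero, locJ_zero, Pi.smul_apply, Pi.smul_apply, smul_eq_mul, smul_eq_mul]
      ring
    · change locJ hr J τ (b • x) 1 = b * locJ hr J τ x 1
      rw [locJ_one, locJ_one, Pi.smul_apply, Pi.smul_apply, smul_eq_mul, smul_eq_mul]
      ring
  have hCsub : ∀ (τ : inertiaLoc p) x, locJ (p := p) hr J τ x - x ∈ C := by
    intro τ x b
    rw [smul_sub, ← hlin]
    exact sub_mem_connPart hO τ _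
  have hfst : ∀ a : A ⧸ J, (![a, 0] : Fin 2 → A ⧸ J) ∈ connPart hO := by
    intro a
    obtain ⟨u, hu⟩ := h00.map mk
    have h1 := sub_mem_connPart hO ⟨h, hh⟩ ![((u⁻¹ : (A ⧸ J)ˣ) : A ⧸ J) * a, 0]
    have h2 : locJ (p := p) hr J ⟨h, hh⟩ ![((u⁻¹ : (A ⧸ J)ˣ) : A ⧸ J) * a, 0] -
        ![((u⁻¹ : (A ⧸ J)ˣ) : A ⧸ J) * a, 0] = ![a, 0] := by
      funext k
      fin_cases k
      · change locJ hr J ⟨h, hh⟩ ![((u⁻¹ : (A ⧸ J)ˣ) : A ⧸ J) * a, 0] 0 -
          ((u⁻¹ : (A ⧸ J)ˣ) : A ⧸ J) * a = a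
        rw [locJ_zero]
        simp only [Matrix.cons_val_zero, Matrix.cons_val_one, mul_zero, add_zero]
        have h3 : Ideal.Quotient.mk J (r (localGaloisToGlobal p h) 0 0) = u + 1 := by
          rw [hu]; simp [mk]
        rw [h3]
        have h4 : ((u : A ⧸ J) + 1) * (((u⁻¹ : (A ⧸ J)ˣ) : A ⧸ J) * a) -
          ((u⁻¹ : (A ⧸ J)ˣ) : A ⧸ J) * a = ((u : A ⧸ J) * ((u⁻¹ : (A ⧸ J)ˣ) : A ⧸ J)) * a := by ring
        rw [h4, Units.mul_inv, one_mul]
      · change locJ hr J ⟨h, hh⟩ ![((u⁻¹ : (A ⧸ J)ˣ) : A ⧸ J) * a, 0] 1 - 0 = 0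
        rw [locJ_one]
        simp only [Matrix.cons_val_zero, Matrix.cons_val_one, mul_zero, add_zero]
        rw [h10, map_zero, zero_mul, sub_zero]
    rw [h2] at h1
    exact h1
  have key : ∀ z ∈ C, z 1 = 0 := by
    intro z hz
    by_contra hz1
    obtain ⟨y, hy⟩ := Ideal.Quotient.mk_surjective (z 1)
    have hyJ : y ∉ J := fun h0 => hz1 (by rw [← hy]; exact Ideal.Quotient.eq_zero_iff_mem.mpr h0)
    obtain ⟨b, hb, hbm⟩ := exists_socle hn hyJ
    -- the element `(0, s)`
    set s : A ⧸ J := mk (b * y) with hs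
    have hs0 : s ≠ 0 := fun h0 => hb (Ideal.Quotient.eq_zero_iff_mem.mp h0)
    have hmem : (![0, s] : Fin 2 → A ⧸ J) ∈ connPart hO := by
      have h1 := sub_mem (hz (mk b)) (hfst (mk b * z 0))
      have h2 : mk b • z - ![mk b * z 0, 0] = ![0, s] := by
        funext k
        fin_cases k
        · change mk b * z 0 - mk b * z 0 = 0
          rw [sub_self]
        · change mk b * z 1 - 0 = s
          rw [sub_zero, hs, map_mul, hy]
      rwa [h2] at h1
    -- multiplication by `s`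
    let f : A →ₗ[A] A ⧸ J := LinearMap.toSpanSingleton A (A ⧸ J) s
    have hf : ∀ a, f a = mk a * s := fun a => by
      rw [LinearMap.toSpanSingleton_apply, Algebra.smul_def]; rfl
    have hfker : maximalIdeal A ≤ LinearMap.ker f := by
      intro c hc
      rw [LinearMap.mem_ker, hf, hs, ← map_mul]
      exact Ideal.Quotient.eq_zero_iff_mem.mpr (hbm c hc)
    let g : (A ⧸ maximalIdeal A) →ₗ[A] A ⧸ J := Submodule.liftQ _ f hfker
    have hg : ∀ a : A, g (Ideal.Quotient.mk _ a) = mk a * s := fun a => hf a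
    have hginj : Function.Injective g := by
      rw [injective_iff_map_eq_zero]
      intro x hx
      obtain ⟨a, rfl⟩ := Ideal.Quotient.mk_surjective x
      rw [hg] at hx
      rw [Ideal.Quotient.eq_zero_iff_mem]
      by_contra hau
      have hu : IsUnit a := by
        by_contra h1
        exact hau h1
      exact hs0 (((hu.map mk).mul_right_eq_zero).mp hx)
    have hgm : ∀ (a : A) (x : A ⧸ maximalIdeal A), g (Ideal.Quotient.mk _ a * x) = mk a * g x := by
      intro a x
      obtain ⟨c, rfl⟩ := Ideal.Quotient.mk_surjective x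
      rw [← map_mul, hg, hg, map_mul, mul_assoc]
    let i : (Fin 2 → A ⧸ maximalIdeal A) →+ (Fin 2 → A ⧸ J) :=
      { toFun := fun x k => g (x k)
        map_zero' := by funext k; exact map_zero g
        map_add' := fun x y => by funext k; exact map_add g _ _ }
    have hi : Function.Injective i := by
      intro x y hxy
      funext k
      exact hginj (congrFun hxy k)
    have h3 := conn_zero' hp2 hO i hi (locJ (p := p) hr (maximalIdeal A)) (fun τ x => by
        funext k
        fin_cases k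
        · change g (locJ hr (maximalIdeal A) τ x 0) = locJ hr J τ (i x) 0
          rw [locJ_zero, locJ_zero, map_add, hgm, hgm]; rfl
        · change g (locJ hr (maximalIdeal A) τ x 1) = locJ hr J τ (i x) 1
          rw [locJ_one, locJ_one, map_add, hgm, hgm]; rfl)
      (Pi.evalAddMonoidHom (fun _ : Fin 2 => A ⧸ maximalIdeal A) 1) (fun τ x => by
        change locJ hr (maximalIdeal A) τ x 1 = x 1
        rw [locJ_one, Ideal.Quotient.eq_zero_iff_mem.mpr (hres10 _ τ.2), zero_mul, zero_add]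
        have h4 : Ideal.Quotient.mk (maximalIdeal A) (r (localGaloisToGlobal p τ) 1 1) = 1 := by
          rw [← sub_eq_zero, ← map_one (Ideal.Quotient.mk (maximalIdeal A)), ← map_sub]
          exact Ideal.Quotient.eq_zero_iff_mem.mpr (hres11 _ τ.2)
        rw [h4, one_mul]) (n := 1) (fun a => by
        rw [pow_one, nsmul_eq_mul, ← map_natCast (Ideal.Quotient.mk (maximalIdeal A)),
          Ideal.Quotient.eq_zero_iff_mem.mpr hpA, zero_mul]) (m := ![0, 1]) (by
        have h5 : i ![0, 1] = ![0, s] := by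
          funext k
          fin_cases k
          · change g 0 = 0
            exact map_zero g
          · change g 1 = s
            have h7 := hg 1
            have h8 : mk 1 = 1 := map_one mk
            rw [h8, one_mul] at h7
            exact h7
        rw [h5]
        exact hmem)
    have h6 : (1 : A ⧸ maximalIdeal A) = 0 := h3
    exact one_ne_zero h6
  have e0 := key _ (hCsub ⟨σ, hσ⟩ ![1, 0])
  have e1 := key _ (hCsub ⟨σ, hσ⟩ ![0, 1])
  rw [Pi.sub_apply, locJ_one] at e0 e1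
  simp only [Matrix.cons_val_zero, Matrix.cons_val_one, mul_one, mul_zero, add_zero,
    zero_add, sub_zero] at e0 e1
  refine ⟨Ideal.Quotient.eq_zero_iff_mem.mp e0, ?_⟩
  rw [← Ideal.Quotient.eq_zero_iff_mem, map_sub, map_one]
  exact e1

include hr in
/-- **(P4)** a flat representation which is residually ordinary is ordinary. -/
theorem ord_of_flat (hp2 : p ≠ 2) (hpA : (p : A) ∈ maximalIdeal A) (hflat : ρ.IsFlatAt p)
    [IsHausdorff (maximalIdeal A) A] (hfin : ∀ n, Finite (A ⧸ maximalIdeal A ^ n))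
    {h : GalLoc p} (hh : h ∈ inertiaLoc p) (h10 : r (localGaloisToGlobal p h) 1 0 = 0)
    (h00 : IsUnit (r (localGaloisToGlobal p h) 0 0 - 1))
    (hres10 : ∀ σ ∈ inertiaLoc p, r (localGaloisToGlobal p σ) 1 0 ∈ maximalIdeal A)
    (hres11 : ∀ σ ∈ inertiaLoc p, r (localGaloisToGlobal p σ) 1 1 - 1 ∈ maximalIdeal A) :
    (∀ σ : GalLoc p, r (localGaloisToGlobal p σ) 1 0 = 0) ∧
      ∀ σ ∈ inertiaLoc p, r (localGaloisToGlobal p σ) 1 1 = 1 := by
  have hz : ∀ x : A, (∀ n, x ∈ maximalIdeal A ^ n) → x = 0 := by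
    intro x hx
    refine IsHausdorff.haus (I := maximalIdeal A) inferInstance x fun n => ?_
    rw [SModEq.zero, smul_eq_mul, Ideal.mul_top]
    exact hx n
  have key : ∀ σ ∈ inertiaLoc p, r (localGaloisToGlobal p σ) 1 0 = 0 ∧
      r (localGaloisToGlobal p σ) 1 1 = 1 := by
    intro σ hσ
    have h1 := fun n => row_of_flat_mod hr hp2 hpA hflat hh h10 h00 hres10 hres11
      (maximalIdeal A ^ n) (hJ := hfin n) hσ
    exact ⟨hz _ fun n => (h1 n).1, sub_eq_zero.mp (hz _ fun n => (h1 n).2)⟩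
  refine ⟨fun τ => ?_, fun σ hσ => (key σ hσ).2⟩
  have hn : τ * h * τ⁻¹ ∈ inertiaLoc p := (normal_inertiaLoc (l := p)).conj_mem h hh τ
  have h1 : r (localGaloisToGlobal p τ) * r (localGaloisToGlobal p h) =
      r (localGaloisToGlobal p (τ * h * τ⁻¹)) * r (localGaloisToGlobal p τ) := by
    rw [← hr.map_mul, ← hr.map_mul, ← map_mul, ← map_mul, inv_mul_cancel_right]
  have h2 := congrFun (congrFun h1 1) 0
  rw [Matrix.mul_apply, Matrix.mul_apply, Fin.sum_univ_two, Fin.sum_univ_two, h10, mul_zero,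
    add_zero, (key _ hn).1, (key _ hn).2, zero_mul, zero_add, one_mul] at h2
  have h3 : r (localGaloisToGlobal p τ) 1 0 * (r (localGaloisToGlobal p h) 0 0 - 1) = 0 := by
    rw [mul_sub, h2, mul_one, sub_self]
  exact (h00.mul_left_eq_zero).mp h3

end

end Fermat.Agent.PPart
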