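import Fermat.Agent.PPart.Sigma
import Fermat.Agent.Flat.RedZ

/-!
# Flat modules are fixed by `σ_p`
-/

set_option autoImplicit false
set_option linter.unusedSectionVars false
set_option linter.style.haveILetI false

open GaloisRep Fermat.Agent.CFT.Loc Fermat.Agent.CFT Fermat.Agent.Flat

namespace Fermat.Agent.PPart

variable {p : ℕ} [hp : Fact p.Prime]

section

variable {M : Type*} [AddCommGroup M] {ρ : inertiaLoc p →* AddMonoid.End M}
  {O : Subalgebra (Wring p) (M → PadicAlgCl p)}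

theorem apply_inv_apply (ρ : inertiaLoc p →* AddMonoid.End M) (σ : inertiaLoc p) (m : M) :
    ρ σ⁻¹ (ρ σ m) = m := by
  have : (ρ σ⁻¹ * ρ σ) m = m := by
    rw [← map_mul, inv_mul_cancel, map_one]; rfl
  exact this

theorem exists_functional_aux {V : Type*} [AddCommGroup V] [Module (ZMod p) V] {d : V}
    (hd : d ≠ 0) : ∃ lam : V →+ ZMod p, lam d = 1 := by
  obtain ⟨lam, hlam⟩ : ∃ lam : V →ₗ[ZMod p] ZMod p, lam d ≠ 0 := by
    by_contra hcon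
    push Not at hcon
    exact hd ((Module.forall_dual_apply_eq_zero_iff (ZMod p) d).mp hcon)
  refine ⟨((lam d)⁻¹ • lam).toAddMonoidHom, ?_⟩
  change (lam d)⁻¹ • lam d = 1
  rw [smul_eq_mul, inv_mul_cancel₀ hlam]

theorem exists_functional {V : Type*} [AddCommGroup V] (hV : ∀ v : V, p • v = 0) {d : V}
    (hd : d ≠ 0) : ∃ lam : V →+ ZMod p, lam d = 1 := by
  letI : Module (ZMod p) V := AddCommGroup.zmodModule hV
  exact exists_functional_aux hd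

/-- the action on a module with an order is smooth -/
theorem exists_level [Finite M] (h : IsOrder ρ O) (π : PadicAlgCl p) :
    ∃ H ∈ (locLevels p).restrict (Gt π), ∀ σ ∈ H, ∀ m,
      ρ ⟨(σ : Gt π), (σ : Gt π).2.1⟩ m = m := by
  classical
  have hG : IsGal ((locLevels p).restrict (Gt π)) (PadicAlgCl p) := by
    rw [locLevels_eq]
    exact isGal_galLevels.restrict (Gt π)
  have h1 : ∀ z : M × M, ∃ φ ∈ O, φ z.1 = φ z.2 → z.1 = z.2 := by
    intro z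
    by_cases hz : z.1 = z.2
    · exact ⟨1, one_mem _, fun _ => hz⟩
    · by_contra hcon
      push Not at hcon
      exact hz (h.separates _ _ fun φ hφ => (hcon φ hφ).1)
  choose φ hφ hφz using h1
  refine ⟨⨅ z : (M × M) × M, MulAction.stabilizer (Gt π) (φ z.1 z.2),
    Levels.iInf_mem fun z => hG.smooth _, fun σ hσ m => ?_⟩
  rw [Subgroup.mem_iInf] at hσ
  apply hφz (ρ ⟨(σ : Gt π), (σ : Gt π).2.1⟩ m, m)
  change φ _ (ρ ⟨(σ : Gt π), (σ : Gt π).2.1⟩ m) = φ _ m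
  rw [h.equivariant' (hφ _)]
  exact hσ ((_, _), m)

/-- **Flat modules on which inertia acts through `(ω *; 0 1)` are fixed by `σ_p`.** -/
theorem peu_trivial [Finite M] (h : IsOrder ρ O) (hpM : ∀ m : M, p • m = 0)
    {π : PadicAlgCl p} (hπ : IsPi π) {σ₀ : GalLoc p} (hσ₀ : IsSigma π σ₀) (M' : AddSubgroup M)
    (hcyc : ∀ (σ : inertiaLoc p) (a : ℕ), (∀ ζ : PadicAlgCl p, ζ ^ p = 1 → (σ : GalLoc p) ζ = ζ ^ a) →
      ∀ x ∈ M', ρ σ x = a • x)
    (hquot : ∀ σ m, ρ σ m - m ∈ M') (m : M) : ρ ⟨σ₀, hσ₀.mem.1⟩ m = m := by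
  classical
  haveI : NeZero p := ⟨hp.out.ne_zero⟩
  obtain ⟨ζ, hζ⟩ := exists_primitive (p := p)
  by_contra hne
  -- linear functionals on `M'`
  set d : M' := ⟨ρ ⟨σ₀, hσ₀.mem.1⟩ m - m, hquot _ _⟩ with hd
  have hd0 : d ≠ 0 := fun h0 => hne (sub_eq_zero.mp (congrArg Subtype.val h0))
  obtain ⟨lam, hlam⟩ := exists_functional (p := p) (fun x : M' => Subtype.ext (hpM x)) hd0
  -- the action of inertia on `M'` is by scalars
  have hscal : ∀ σ : inertiaLoc p, ∃ a : ℕ, ∀ x ∈ M', ρ σ x = a • x := by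
    intro σ
    obtain ⟨a, _, ha⟩ := hζ.eq_pow_of_pow_eq_one (ξ := (σ : GalLoc p) ζ)
      (by rw [← map_pow, hζ.pow_eq_one, map_one])
    refine ⟨a, hcyc σ a fun ξ hξ => ?_⟩
    obtain ⟨b, _, rfl⟩ := hζ.eq_pow_of_pow_eq_one hξ
    rw [map_pow, ← ha, ← pow_mul, ← pow_mul, mul_comm]
  have htriv : ∀ σ (hσ : σ ∈ Gt π), ∀ x ∈ M', ρ ⟨σ, hσ.1⟩ x = x := by
    intro σ hσ x hx
    have h1 := hcyc ⟨σ, hσ.1⟩ 1 (fun ξ hξ => by
      rw [pow_one]; exact hπ.zeta_InL hξ σ hσ) x hx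
    rwa [one_smul] at h1
  -- the quotient
  let K : AddSubgroup M := (lam.ker).map M'.subtype
  have hK : ∀ x : M', (x : M) ∈ K ↔ lam x = 0 := by
    intro x
    constructor
    · rintro ⟨y, hy, hyx⟩
      have : y = x := Subtype.ext hyx
      rw [← this]; exact hy
    · intro hx
      exact ⟨x, hx, rfl⟩
  have hKst : ∀ (σ : inertiaLoc p) (x : M), x ∈ K → ρ σ x ∈ K := by
    rintro σ _ ⟨x, hx, rfl⟩
    obtain ⟨a, ha⟩ := hscal σ
    change ρ σ (x : M) ∈ K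
    rw [ha x x.2]
    exact K.nsmul_mem ⟨x, hx, rfl⟩ a
  let q : M →+ M ⧸ K := QuotientAddGroup.mk' K
  have hq : Function.Surjective q := QuotientAddGroup.mk'_surjective K
  let ρ'' : inertiaLoc p →* AddMonoid.End (M ⧸ K) :=
    { toFun := fun σ => QuotientAddGroup.map K K (ρ σ) (fun x hx => hKst σ x hx)
      map_one' := by
        apply AddMonoidHom.ext
        intro y
        obtain ⟨x, rfl⟩ := hq y
        change q (ρ 1 x) = q x
        rw [map_one]; rfl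
      map_mul' := fun σ τ => by
        apply AddMonoidHom.ext
        intro y
        obtain ⟨x, rfl⟩ := hq y
        change q (ρ (σ * τ) x) = q (ρ σ (ρ τ x))
        rw [map_mul]; rfl }
  have hρ'' : ∀ σ x, ρ'' σ (q x) = q (ρ σ x) := fun σ x => rfl
  have h2 := h.quot (ρ'' := ρ'') q hq (fun σ x => (hρ'' σ x).symm)
  -- the line
  obtain ⟨x₁, hx₁⟩ : ∃ x₁ : M', lam x₁ = 1 := ⟨d, hlam⟩
  have hxk : ∀ x : M', q (x : M) = (lam x).val • q (x₁ : M) := by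
    intro x
    rw [← map_nsmul, ← sub_eq_zero, ← map_sub]
    have h3 : (x : M) - (lam x).val • (x₁ : M) = ((x - (lam x).val • x₁ : M') : M) := by
      push_cast; rfl
    rw [h3]
    have h4 : ((x - (lam x).val • x₁ : M') : M) ∈ K := by
      rw [hK, map_sub, map_nsmul, hx₁, nsmul_eq_mul, mul_one, ZMod.natCast_zmod_val, sub_self]
    exact (QuotientAddGroup.eq_zero_iff _).mpr h4
  have hpq : p • q (x₁ : M) = 0 := by rw [← map_nsmul, hpM, map_zero]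
  let ι : ZMod p →+ M ⧸ K := ZMod.lift p ⟨(zmultiplesHom (M ⧸ K)) (q (x₁ : M)), by
    rw [zmultiplesHom_apply, natCast_zsmul]; exact hpq⟩
  have hιn : ∀ a : ℕ, ι (a : ZMod p) = a • q (x₁ : M) := by
    intro a
    have h3 : ((a : ℕ) : ZMod p) = ((a : ℤ) : ZMod p) := by push_cast; rfl
    rw [h3]
    change ZMod.lift p _ _ = _
    rw [ZMod.lift_coe]
    change (zmultiplesHom (M ⧸ K)) (q (x₁ : M)) (a : ℤ) = _
    rw [zmultiplesHom_apply, natCast_zsmul]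
  have hιv : ∀ a : ZMod p, ι a = a.val • q (x₁ : M) := by
    intro a
    have h3 := hιn a.val
    rwa [ZMod.natCast_zmod_val] at h3
  have hι : Function.Injective ι := by
    rw [injective_iff_map_eq_zero]
    intro a ha
    rw [hιv, ← map_nsmul] at ha
    have h4 : a.val • (x₁ : M) ∈ K := (QuotientAddGroup.eq_zero_iff _).mp ha
    have h5 : (a.val • (x₁ : M)) = ((a.val • x₁ : M') : M) := by push_cast; rfl
    rw [h5, hK, map_nsmul, hx₁, nsmul_eq_mul, mul_one, ZMod.natCast_zmod_val] at h4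
    exact h4
  obtain ⟨ρ', hρ'⟩ := exists_restrict ρ'' ι hι (fun σ a => by
    obtain ⟨b, hb⟩ := hscal σ
    refine ⟨b * a, ?_⟩
    rw [hιv, ← map_nsmul, hρ'']
    have h5 : (a.val • (x₁ : M)) = ((a.val • x₁ : M') : M) := by push_cast; rfl
    rw [h5, hb _ (Subtype.property _), ← h5, map_nsmul, map_nsmul, ← hιv, ← nsmul_eq_mul, map_nsmul])
  -- the homomorphism
  let g : GalLoc p → ZMod p := fun σ =>
    if hσ : σ ∈ Gt π then lam ⟨ρ ⟨σ, hσ.1⟩ m - m, hquot _ _⟩ else 0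
  have hgσ : ∀ σ (hσ : σ ∈ Gt π), g σ = lam ⟨ρ ⟨σ, hσ.1⟩ m - m, hquot _ _⟩ := fun σ hσ => dif_pos hσ
  have hg : HomGt π g := by
    intro σ hσ τ hτ
    rw [hgσ _ (mul_mem hσ hτ), hgσ σ hσ, hgσ τ hτ, ← map_add]
    congr 1
    apply Subtype.ext
    change ρ ⟨σ * τ, _⟩ m - m = (ρ ⟨σ, hσ.1⟩ m - m) + (ρ ⟨τ, hτ.1⟩ m - m)
    have h3 : ρ ⟨σ * τ, (mul_mem hσ hτ).1⟩ m = ρ ⟨σ, hσ.1⟩ (ρ ⟨τ, hτ.1⟩ m) := by
      have : (⟨σ * τ, (mul_mem hσ hτ).1⟩ : inertiaLoc p) = ⟨σ, hσ.1⟩ * ⟨τ, hτ.1⟩ := rfl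
      rw [this, map_mul]; rfl
    have h4 := htriv σ hσ _ (hquot ⟨τ, hτ.1⟩ m)
    rw [map_sub] at h4
    rw [h3]
    have h5 : ρ ⟨σ, hσ.1⟩ (ρ ⟨τ, hτ.1⟩ m) = ρ ⟨σ, hσ.1⟩ m + (ρ ⟨τ, hτ.1⟩ m - m) := by
      rw [← h4]; abel
    rw [h5]; abel
  have hlc : ((locLevels p).restrict (Gt π)).LC (fun σ : Gt π => g (σ : GalLoc p)) := by
    obtain ⟨H, hH, hH'⟩ := exists_level h π
    refine ⟨H, hH, fun σ s hs => ?_⟩
    change g ((σ : GalLoc p) * (s : GalLoc p)) = _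
    rw [hg _ σ.2 _ s.2]
    have h3 : g (s : GalLoc p) = 0 := by
      rw [hgσ _ s.2]
      have h4 : (⟨ρ ⟨(s : GalLoc p), s.2.1⟩ m - m, hquot _ _⟩ : M') = 0 :=
        Subtype.ext (by
          change ρ ⟨(s : GalLoc p), s.2.1⟩ m - m = 0
          rw [sub_eq_zero]
          exact hH' s hs m)
      rw [h4, map_zero]
    rw [h3, add_zero]
  obtain ⟨y, hy0, hy⟩ := exists_raw hπ hζ hlc hg
  obtain ⟨k, hk⟩ := raw_norm hπ hζ.pow_eq_one hy0 hy
  have hdvd := peuRam hπ hζ h2 ι hι ρ' hρ' (n := q m) (g := g) (fun σ hσ => by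
    rw [hρ'', hιv, hgσ σ hσ, ← hxk, ← map_add]
    congr 1
    change _ = m + (ρ ⟨σ, hσ.1⟩ m - m)
    abel) hg hy0 hy hk
  obtain ⟨n, rfl⟩ := hdvd
  -- a unit root
  have hπn : π ^ n ≠ 0 := zpow_ne_zero _ hπ.ne_zero
  have h1 : ‖y‖ = ‖π‖ ^ n := by
    rw [mul_comm, zpow_mul, zpow_natCast] at hk
    exact (pow_left_inj₀ (norm_nonneg _) (zpow_nonneg hπ.norm_pos.le _) hp.out.ne_zero).mp hk
  have hu1 : ‖y / π ^ n‖ = 1 := by
    rw [norm_div, norm_zpow, h1]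
    exact div_self (zpow_ne_zero _ hπ.norm_pos.ne')
  have hact : ∀ σ ∈ Gt π, σ (y / π ^ n) = ζ ^ (g σ).val * (y / π ^ n) := by
    intro σ hσ
    rw [map_div₀, map_zpow₀, hσ.2, hy σ hσ, mul_div_assoc]
  have h3 := hσ₀.fix (y / π ^ n) hu1 (fun σ hσ => by
    rw [map_pow, hact σ hσ, mul_pow, ← pow_mul, mul_comm (g σ).val p, pow_mul, hζ.pow_eq_one,
      one_pow, one_mul])
  rw [hact σ₀ hσ₀.mem] at h3
  have h4 : ζ ^ (g σ₀).val = 1 := by
    have h5 : y / π ^ n ≠ 0 := div_ne_zero hy0 hπn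
    have h6 : ζ ^ (g σ₀).val * (y / π ^ n) = 1 * (y / π ^ n) := by rw [h3, one_mul]
    exact mul_right_cancel₀ h5 h6
  have h5 : g σ₀ = 0 := by
    have h6 := hζ.dvd_of_pow_eq_one _ h4
    have h7 := Nat.eq_zero_of_dvd_of_lt h6 (ZMod.val_lt _)
    exact (ZMod.val_eq_zero _).mp h7
  rw [hgσ σ₀ hσ₀.mem] at h5
  exact one_ne_zero (hlam.symm.trans h5)

end

end Fermat.Agent.PPart
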