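import Fermat.Agent.PPart.StarH
import Fermat.Agent.PPart.OrdLoc
import Fermat.Agent.S32Lib.Main

/-!
# The quadratic equation of the Frobenius eigenvalue at `p`
-/

set_option autoImplicit false
set_option linter.unusedSectionVars false
set_option linter.style.haveILetI false

open Polynomial IsLocalRing GaloisRep Fermat.Agent.CFT.Loc Fermat.Agent.CFT Fermat.Agent.Flat
  Fermat.Agent.DefRing Fermat.Agent.TW Fermat.Agent.LL ModularCurve

namespace Fermat.Agent.PPart

open Fermat.Agent.RepTwo Fermat.Agent.S32Lib Fermat.Agent.QComp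

local notation "Γℚ" => (AlgebraicClosure ℚ ≃ₐ[ℚ] AlgebraicClosure ℚ)
local notation "M₂" => Matrix (Fin 2) (Fin 2)

variable {p : ℕ} [hp : Fact p.Prime]

section PiOrder

variable {M : Type*} [AddCommGroup M] {ρ : inertiaLoc p →* AddMonoid.End M}
  {O : Subalgebra (Wring p) (M → PadicAlgCl p)}

theorem mem_connPart_iff' {h : IsOrder ρ O} {m : M} :
    m ∈ connPart h ↔ ∀ φ ∈ O, ‖φ m - φ 0‖ < 1 := by
  rw [mem_connPart]
  constructor
  · intro hm φ hφ
    have h1 : IsJ O (fun m => φ m - φ 0) := h.sub_const_isJ hφ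
    exact hm (fun m => φ m - φ 0) h1
  · intro hm φ hφ
    have := hm φ hφ.1
    rwa [hφ.2, sub_zero] at this

/-- orders on powers, with the connected part -/
theorem exists_piOrder (h : IsOrder ρ O) (n : ℕ) :
    ∃ (O' : Subalgebra (Wring p) ((Fin n → M) → PadicAlgCl p))
      (h' : IsOrder (piRep (Fin n) ρ) O'),
      ∀ f : Fin n → M, (∀ i, f i ∈ connPart h) → f ∈ connPart h' := by
  induction n with
  | zero =>
    obtain ⟨O', hO'⟩ := isFlat_of_subsingleton (R := Wring p) (Ω := PadicAlgCl p)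
      (ρ := piRep (Fin 0) ρ)
    refine ⟨O', hO', fun f _ => ?_⟩
    rw [Subsingleton.elim f 0]
    exact zero_mem _
  | succ n ih =>
    obtain ⟨O', hO', hc⟩ := ih
    let p₁ : (Fin (n + 1) → M) →+ M := Pi.evalAddMonoidHom (fun _ : Fin (n + 1) => M) 0
    let p₂ : (Fin (n + 1) → M) →+ (Fin n → M) :=
      { toFun := fun f i => f i.succ, map_zero' := rfl, map_add' := fun _ _ => rfl }
    have hpair : IsOrder (piRep (Fin (n + 1)) ρ) (pairOrder O O' p₁ p₂) :=
      h.pair hO' p₁ p₂ (fun _ _ => rfl) (fun _ _ => rfl) (by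
        intro f g h0 h1
        funext i
        refine Fin.cases h0 (fun j => congrFun h1 j) i)
    refine ⟨_, hpair, fun f hf => ?_⟩
    rw [mem_connPart_iff']
    have h1 : p₁ f ∈ connPart h := hf 0
    have h2 : p₂ f ∈ connPart hO' := hc _ fun i => hf i.succ
    rw [mem_connPart_iff'] at h1 h2
    intro φ hφ
    refine pairOrder_induction (C := fun φ => ‖φ f - φ 0‖ < 1) ?_ ?_ ?_ hφ
    · change ‖(0 : PadicAlgCl p) - 0‖ < 1
      rw [sub_zero, norm_zero]
      exact one_pos
    · intro φ ψ hφ hψ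
      have : (φ + ψ) f - (φ + ψ) 0 = (φ f - φ 0) + (ψ f - ψ 0) := by
        rw [Pi.add_apply, Pi.add_apply]; ring
      change ‖(φ + ψ) f - (φ + ψ) 0‖ < 1
      rw [this]
      exact norm_add_lt' hφ hψ
    · intro a ha b hb
      have h3 : a (p₁ f) * b (p₂ f) - a (p₁ 0) * b (p₂ 0) =
          (a (p₁ f) - a 0) * b (p₂ f) + a 0 * (b (p₂ f) - b 0) := by
        rw [map_zero, map_zero]; ring
      change ‖a (p₁ f) * b (p₂ f) - a (p₁ 0) * b (p₂ 0)‖ < 1
      rw [h3]
      refine norm_add_lt' ?_ ?_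
      · rw [norm_mul]
        exact mul_lt_one_of_nonneg_of_lt_one_left (norm_nonneg _) (h1 a ha)
          (hO'.norm_le_one hb _)
      · rw [norm_mul]
        exact mul_lt_one_of_nonneg_of_lt_one_right (h.norm_le_one ha _) (norm_nonneg _) (h2 b hb)

end PiOrder

/-- **(5a)** the operator `F² - T_p F + p` maps into the connected part. -/
def KerStmt (N : ℕ) [NeZero N] (p : ℕ) [Fact p.Prime] : Prop :=
  ∀ (M : Type) [AddCommGroup M] [Finite M] [DistribMulAction GQ M] (i : M →+ JZero N),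
    Function.Injective i → (∀ (g : GQ) m, i (g • m) = g • i m) →
    ∀ F : GalLoc p, (∀ x, resAct p F x = x ^ p) →
    ∃ (O : Subalgebra (Wring p) (M → PadicAlgCl p))
      (h : IsOrder ((DistribMulAction.toAddMonoidEnd GQ M).comp (inertiaToGlobal (p := p))) O),
      ∀ m m' : M, i m' = localGaloisToGlobal p F • localGaloisToGlobal p F • i m -
        heckeOperatorBar N ⟨p, Fact.out⟩ (localGaloisToGlobal p F • i m) + p • i m →
        m' ∈ connPart h

/-- the element `F² - X_p F + p` -/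
noncomputable def quadElt {N : ℕ} {S : Set ℕ} (ℓ : GoodPrime N S) (s : GQ) : GH N S :=
  FreeAbelianGroup.of (s * s, 1) - FreeAbelianGroup.of (s, MvPolynomial.X ℓ) +
    (ℓ : ℕ) • FreeAbelianGroup.of (1, 1)

theorem actE_quadElt {N : ℕ} [NeZero N] {S : Set ℕ} {n : ℕ} (E : ESModule N p S n)
    (ℓ : GoodPrime N S) (s : GQ) (w : E.V) : actE E (quadElt ℓ s) w =
      E.act s (E.act s w) - (MvPolynomial.X ℓ : HeckePoly N S) • E.act s w + (ℓ : ℕ) • w := by
  unfold quadElt
  rw [map_add, map_sub, map_nsmul, actE_of, actE_of, actE_of, map_one, map_one, mul_one, mul_one,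
    map_mul]
  simp only [LinearMap.add_apply, LinearMap.sub_apply, LinearMap.smul_apply, Module.End.mul_apply,
    Module.algebraMap_end_apply, Module.End.one_apply, map_smul]

theorem repr_one {T : Type} [CommRing T] [IsLocalRing T] {ρ : GaloisRepAdic T} {r : Γℚ → M₂ T}
    {b : Module.Basis (Fin 2) T ρ.V} (hb : ∀ σ, LinearMap.toMatrix b b (ρ.ρ σ) = r σ) (σ : Γℚ)
    (v : ρ.V) : b.repr (ρ.ρ σ v) 1 = r σ 1 0 * b.repr v 0 + r σ 1 1 * b.repr v 1 := by
  have h3 := LinearMap.toMatrix_mulVec_repr b b (ρ.ρ σ) v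
  rw [← h3, hb, mulVec_one']

/-- **the quadratic equation modulo `I`** -/
theorem quad_mem {N : ℕ} [NeZero N] (hp2 : p ≠ 2) (hker : KerStmt N p) {S : Finset ℕ}
    (hNS : ∀ q : ℕ, q.Prime → q ∣ N → q ∈ S) (hpN : ¬ p ∣ N) (hpS : p ∉ (↑S : Set ℕ))
    {T : Type} [CommRing T] [IsLocalRing T] (hpT : (p : T) ∈ maximalIdeal T)
    (π : CuspForm.heckeAlgebra N 2 (↑S : Set ℕ) →+* T) (ρ : GaloisRepAdic T)
    (hρ : ∀ (ℓ : ℕ) (hℓ : ℓ.Prime) (hℓN : ¬ ℓ ∣ N) (hℓS : ℓ ∉ (↑S : Set ℕ)), ℓ ≠ p →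
      ∀ A : ValuationSubring (AlgebraicClosure ℚ), A.LiesOverPrime ℓ →
      ∀ σ : AlgebraicClosure ℚ ≃ₐ[ℚ] AlgebraicClosure ℚ, A.IsFrobeniusAt σ ℓ →
        LinearMap.charpoly (ρ.ρ σ) =
          X ^ 2 - C (π (CuspForm.heckeAlgebra.T hℓ hℓN hℓS)) * X + C ((ℓ : T)))
    (habs : ρ.residual.IsAbsolutelyIrreducible) {r : Γℚ → M₂ T} (hr : Realizes ρ r)
    (hord : OrdLoc p r) {F : GalLoc p} (hF : ∀ x, resAct p F x = x ^ p) (I : Ideal T)
    [hI : Finite (T ⧸ I)] :
    r (localGaloisToGlobal p F) 1 1 ^ 2 -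
      π (CuspForm.heckeAlgebra.T hp.out hpN hpS) * r (localGaloisToGlobal p F) 1 1 + p ∈ I := by
  classical
  obtain ⟨j, hj⟩ := S32Lib.exists_pow_le I
  obtain ⟨L2, hL2f, hL2⟩ := ρ.isAdicContinuous j
  have hG := jZeroGeom N p
  obtain ⟨c, hE⟩ := (hG.isES (↑S : Set ℕ)).exists_realized
  obtain ⟨E, ⟨hR⟩⟩ := hE j
  haveI : Finite (pTor (JZero N) (p ^ (j + c))) := hG.finite _
  haveI : Finite E.V := Finite.of_injective
    (fun v => (⟨hR.j v, (hR.mem_range _).mpr ⟨v, rfl⟩⟩ : pTor (JZero N) (p ^ (j + c))))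
    (fun v w h => hR.inj (congrArg Subtype.val h))
  letI : DistribMulAction GQ E.V :=
    { smul := fun g v => E.act g v
      one_smul := fun v => by
        change E.act 1 v = v
        rw [map_one]; rfl
      mul_smul := fun g h v => by
        change E.act (g * h) v = E.act g (E.act h v)
        rw [map_mul]; rfl
      smul_zero := fun g => map_zero (E.act g)
      smul_add := fun g v w => map_add (E.act g) v w }
  let ℓp : GoodPrime N (↑S : Set ℕ) := ⟨p, hp.out, hpN, hpS⟩
  set s := localGaloisToGlobal p F with hs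
  obtain ⟨O, hO, hconn⟩ := hker E.V hR.j hR.inj (fun g m => hR.act g m) F hF
  have hy : ∀ w : E.V, actE E (quadElt ℓp s) w ∈ connPart hO := by
    intro w
    apply hconn w
    rw [actE_quadElt, map_add, map_sub, map_nsmul, hR.act, hR.act, hR.smul, hR.act]
    rw [HeckeOps.ev_X]
    rfl
  obtain ⟨q, ⟨e⟩⟩ := Finite.exists_equiv_fin E.V
  obtain ⟨O', hO', hconn'⟩ := exists_piOrder hO q
  let φ : GH N (↑S : Set ℕ) →+ (Fin q → E.V) :=
    { toFun := fun x i => actE E x (e.symm i)
      map_zero' := by funext i; rw [map_zero]; rfl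
      map_add' := fun x y => by funext i; rw [map_add]; rfl }
  have hφ : ∀ x i, φ x i = actE E x (e.symm i) := fun x i => rfl
  have hφ0 : ∀ x, φ x = 0 → actE E x = 0 := by
    intro x hx
    apply LinearMap.ext
    intro w
    have h1 := congrFun hx (e w)
    rw [hφ, e.symm_apply_apply] at h1
    exact h1
  obtain ⟨b, hb⟩ := id hr
  let ev : GH N (↑S : Set ℕ) →+ T ⧸ I :=
    { toFun := fun x => Ideal.Quotient.mk I (b.repr (actT π ρ x (b 1)) 1)
      map_zero' := by
        rw [map_zero, LinearMap.zero_apply, map_zero]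
        simp
      map_add' := fun x y => by
        rw [map_add, LinearMap.add_apply, map_add, Finsupp.add_apply, map_add] }
  have hevdef : ∀ x, ev x = Ideal.Quotient.mk I (b.repr (actT π ρ x (b 1)) 1) := fun x => rfl
  have hcoord : ∀ w ∈ I • (⊤ : Submodule T ρ.V), b.repr w 1 ∈ I := by
    intro w hw
    refine Submodule.smul_induction_on hw (fun a ha v _ => ?_) fun x y hx hy => ?_
    · rw [map_smul, Finsupp.smul_apply, smul_eq_mul]
      exact Ideal.mul_mem_right _ _ ha
    · rw [map_add, Finsupp.add_apply]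
      exact Ideal.add_mem _ hx hy
  have hev0 : ∀ x, φ x = 0 → ev x = 0 := by
    intro x hx
    rw [hevdef, Ideal.Quotient.eq_zero_iff_mem]
    apply hcoord
    exact killH hp.out hNS π ρ hρ habs I (hj (Ideal.pow_mem_pow hpT j)) E L2 hL2f
      (fun σ hσ v => Submodule.smul_mono_left hj (hL2 σ hσ v)) (hφ0 x hx) _
  have hsurj : Function.Surjective φ.rangeRestrict := φ.rangeRestrict_surjective
  have hle : φ.rangeRestrict.ker ≤ ev.ker := by
    intro x hx
    rw [AddMonoidHom.mem_ker] at hx ⊢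
    exact hev0 x (congrArg Subtype.val hx)
  let ψ : φ.range →+ T ⧸ I := φ.rangeRestrict.liftOfSurjective hsurj ⟨ev, hle⟩
  have hψ : ∀ x, ψ (φ.rangeRestrict x) = ev x := fun x =>
    AddMonoidHom.liftOfRightInverse_comp_apply _ _ _ _ _
  let α : inertiaLoc p →* AddMonoid.End (Fin q → E.V) := piRep (Fin q)
    ((DistribMulAction.toAddMonoidEnd GQ E.V).comp (inertiaToGlobal (p := p)))
  have hα : ∀ (τ : inertiaLoc p) (x : GH N (↑S : Set ℕ)),
      α τ (φ x) = φ (FreeAbelianGroup.of (localGaloisToGlobal p τ, 1) * x) := by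
    intro τ x
    funext i
    rw [hφ, map_mul, actE_of, map_one, mul_one]
    rfl
  obtain ⟨ρ', hρ'⟩ := exists_restrict α φ.range.subtype Subtype.val_injective (fun τ x => by
    obtain ⟨x, rfl⟩ := hsurj x
    exact ⟨φ.rangeRestrict _, hα τ x⟩)
  have hρ'' : ∀ (τ : inertiaLoc p) (x : GH N (↑S : Set ℕ)), ρ' τ (φ.rangeRestrict x) =
      φ.rangeRestrict (FreeAbelianGroup.of (localGaloisToGlobal p τ, 1) * x) := by
    intro τ x
    apply Subtype.ext
    exact (hρ' τ (φ.rangeRestrict x)).trans (hα τ x)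
  have hfin : Finite φ.range := inferInstance
  have hpow : ∀ a : T ⧸ I, p ^ j • a = 0 := by
    intro a
    rw [nsmul_eq_mul]
    have h1 : ((p ^ j : ℕ) : T ⧸ I) = 0 := by
      rw [← map_natCast (Ideal.Quotient.mk I), Ideal.Quotient.eq_zero_iff_mem]
      push_cast
      exact hj (Ideal.pow_mem_pow hpT j)
    rw [h1, zero_mul]
  have key := conn_zero' hp2 hO' φ.range.subtype Subtype.val_injective ρ' hρ' ψ
    (fun τ x => by
      obtain ⟨x, rfl⟩ := hsurj x
      have e1 : actT π ρ (FreeAbelianGroup.of (localGaloisToGlobal p τ, 1)) =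
          ρ.ρ (localGaloisToGlobal p τ) := by
        rw [actT_of, map_one, map_one, map_one, mul_one]
      rw [hρ'', hψ, hψ, hevdef, hevdef, map_mul (actT π ρ), e1,
        Module.End.mul_apply, repr_one hb, hord.dec, hord.ine _ τ.2, zero_mul, zero_add, one_mul])
    hpow (m := φ.rangeRestrict (quadElt ℓp s)) (hconn' _ fun i => hy _)
  rw [hψ, hevdef, Ideal.Quotient.eq_zero_iff_mem] at key
  have h1 : b.repr (b 1) 1 = 1 := by rw [b.repr_self, Finsupp.single_eq_same]
  have h2 : b.repr (actT π ρ (quadElt ℓp s) (b 1)) 1 = r s 1 1 ^ 2 -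
      π (CuspForm.heckeAlgebra.T hp.out hpN hpS) * r s 1 1 + p := by
    have e1 : ∀ g : GQ, actT π ρ (FreeAbelianGroup.of (g, 1)) = ρ.ρ g := fun g => by
      rw [actT_of, map_one, map_one, map_one, mul_one]
    have e2 : actT π ρ (FreeAbelianGroup.of (s, MvPolynomial.X ℓp)) =
        ρ.ρ s * algebraMap T (Module.End T ρ.V) (π (CuspForm.heckeAlgebra.T hp.out hpN hpS)) := by
      rw [actT_of, evalHecke_X]
    have e3 : actT π ρ (quadElt ℓp s) (b 1) = ρ.ρ (s * s) (b 1) -
        π (CuspForm.heckeAlgebra.T hp.out hpN hpS) • ρ.ρ s (b 1) + p • b 1 := by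
      unfold quadElt
      rw [map_add (actT π ρ), map_sub (actT π ρ), map_nsmul (actT π ρ), e1, e1, e2,
        map_one ρ.ρ, LinearMap.add_apply, LinearMap.sub_apply, Module.End.mul_apply,
        Module.algebraMap_end_apply, map_smul, LinearMap.smul_apply, Module.End.one_apply]
    rw [e3, map_add, map_sub, map_smul, map_nsmul, Finsupp.add_apply, Finsupp.sub_apply,
      Finsupp.smul_apply, Finsupp.smul_apply, repr_one hb, repr_one hb, h1, smul_eq_mul]
    have h3 : r (s * s) 1 0 = 0 := by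
      rw [hs, ← map_mul]
      exact hord.dec _
    have h4 : r (s * s) 1 1 = r s 1 1 * r s 1 1 := by
      rw [hs, ← map_mul]
      exact hord.mul hr.map_mul F F
    rw [h3, h4, hord.dec F]
    simp
    ring
  rwa [h2] at key

end Fermat.Agent.PPart
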