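import Fermat.Agent.Flat.StepB
import Fermat.Agent.Flat.KumLead

/-!
# The element `σ_p` of inertia

An element of the inertia group at `p` which fixes all `p`-th roots of units of
`L = ℚ_p^nr(π)`, but moves `p^(1/p)`.
-/

set_option autoImplicit false
set_option linter.unusedSectionVars false
set_option linter.style.haveILetI false

open GaloisRep Fermat.Agent.CFT.Loc Fermat.Agent.CFT Fermat.Agent.Flat

namespace Fermat.Agent.PPart

variable {p : ℕ} [hp : Fact p.Prime]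

/-- the element `σ_p` -/
structure IsSigma (π : PadicAlgCl p) (σ : GalLoc p) : Prop where
  mem : σ ∈ Gt π
  fix : ∀ y : PadicAlgCl p, ‖y‖ = 1 → InL π (y ^ p) → σ y = y
  move : ∀ z : PadicAlgCl p, z ^ p = (p : PadicAlgCl p) → σ z ≠ z

theorem isClosed_apply (x : PadicAlgCl p) (P : PadicAlgCl p → Prop) :
    IsClosed {σ : GalLoc p | P (σ x)} := by
  rw [← isOpen_compl_iff, isOpen_iff_mem_nhds]
  intro τ hτ
  have h1 := (stabilizer_isOpen_of_isIntegral (K := ℚ_[p]) x).leftCoset τ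
  refine Filter.mem_of_superset (h1.mem_nhds ⟨1, one_mem _, mul_one τ⟩) ?_
  rintro _ ⟨σ, hσ, rfl⟩
  have h2 : σ x = x := hσ
  show ¬ P ((τ * σ) x)
  rw [AlgEquiv.mul_apply, h2]
  exact hτ

theorem isClosed_Gt (π : PadicAlgCl p) : IsClosed {σ : GalLoc p | σ ∈ Gt π} := by
  have h : {σ : GalLoc p | σ ∈ Gt π} =
      (⋂ x : {x : PadicAlgCl p // ‖x‖ ≤ 1}, {σ : GalLoc p | ‖σ (x : PadicAlgCl p) - x‖ < 1}) ∩
        {σ : GalLoc p | σ π = π} := by
    ext σ
    simp only [Set.mem_ofPred_eq, Set.mem_inter_iff, Set.mem_iInter, mem_Gt, mem_inertiaLoc,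
      Subtype.forall]
  rw [h]
  exact (isClosed_iInter fun x : {x : PadicAlgCl p // ‖x‖ ≤ 1} =>
    isClosed_apply (x : PadicAlgCl p) (fun y => ‖y - (x : PadicAlgCl p)‖ < 1)).inter
    (isClosed_apply π (fun y => y = π))

/-- the finite version -/
theorem exists_finite {π : PadicAlgCl p} (hπ : IsPi π) {z₀ : PadicAlgCl p}
    (hz₀ : z₀ ^ p = (p : PadicAlgCl p)) (s : Finset (PadicAlgCl p))
    (hs : ∀ y ∈ s, ‖y‖ = 1 ∧ InL π (y ^ p)) :
    ∃ σ ∈ Gt π, (∀ y ∈ s, σ y = y) ∧ σ z₀ ≠ z₀ := by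
  classical
  by_contra hcon
  push Not at hcon
  haveI : NeZero p := ⟨hp.out.ne_zero⟩
  obtain ⟨ζ, hζ⟩ := exists_primitive (p := p)
  have hp0 : (p : PadicAlgCl p) ≠ 0 := by exact_mod_cast hp.out.ne_zero
  have hz0 : z₀ ≠ 0 := by
    rintro rfl
    rw [zero_pow hp.out.ne_zero] at hz₀
    exact hp0 hz₀.symm
  have hy0 : ∀ y ∈ s, y ≠ 0 := fun y hy => by
    have := (hs y hy).1
    rintro rfl
    rw [norm_zero] at this
    exact zero_ne_one this
  have hζG : ∀ σ : Gt π, σ • ζ = ζ := fun σ => hπ.zeta_InL hζ.pow_eq_one (σ : GalLoc p) σ.2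
  have hfy : ∀ y ∈ s, ∀ σ : Gt π, σ • y ^ p = y ^ p := fun y hy σ => (hs y hy).2 σ σ.2
  have hfz : ∀ σ : Gt π, σ • z₀ ^ p = z₀ ^ p := fun σ => by
    rw [hz₀]
    exact map_natCast (σ : GalLoc p) p
  -- the linear algebra
  let κ : Option s → Gt π → ZMod p := fun i σ => match i with
    | none => kummer p ζ z₀ σ
    | some y => kummer p ζ (y : PadicAlgCl p) σ
  have hκmul : ∀ i σ τ, κ i (σ * τ) = κ i σ + κ i τ := by
    rintro (_ | y) σ τ
    · exact kummer_map_mul hζ hz0 (hζG σ) (hfz σ) (hfz τ)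
    · exact kummer_map_mul hζ (hy0 y y.2) (hζG σ) (hfy y y.2 σ) (hfy y y.2 τ)
  let F : Additive (Gt π) →+ (Option s → ZMod p) :=
    { toFun := fun σ i => κ i σ.toMul
      map_zero' := by
        funext i
        have h1 := hκmul i 1 1
        rw [mul_one] at h1
        exact left_eq_add.mp h1
      map_add' := fun σ τ => by
        funext i
        exact hκmul i _ _ }
  let E : Submodule (ZMod p) (Option s → ZMod p) := AddSubgroup.toZModSubmodule p F.range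
  have hE : ∀ σ : Gt π, (fun i => κ i σ) ∈ E := fun σ => by
    show _ ∈ F.range
    exact ⟨Additive.ofMul σ, rfl⟩
  let L : s → (E →ₗ[ZMod p] ZMod p) := fun y => (LinearMap.proj (some y)).comp E.subtype
  let K : E →ₗ[ZMod p] ZMod p := (LinearMap.proj none).comp E.subtype
  have hLK : ⨅ y, LinearMap.ker (L y) ≤ LinearMap.ker K := by
    rintro ⟨v, hv⟩ hvL
    obtain ⟨σ, hσ⟩ : v ∈ F.range := hv
    rw [Submodule.mem_iInf] at hvL
    rw [LinearMap.mem_ker]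
    have h1 : ∀ y : s, kummer p ζ (y : PadicAlgCl p) (σ.toMul : Gt π) = 0 := fun y => by
      have h2 := hvL y
      rw [LinearMap.mem_ker] at h2
      have h3 : v (some y) = 0 := h2
      rw [← hσ] at h3
      exact h3
    have h2 : ((σ.toMul : Gt π) : GalLoc p) z₀ = z₀ := by
      refine hcon _ (σ.toMul : Gt π).2 fun y hy => ?_
      exact (kummer_eq_zero_iff hζ (hy0 y hy) (hfy y hy _)).1 (h1 ⟨y, hy⟩)
    show v none = 0
    rw [← hσ]
    exact kummer_of_fixed hζ hz0 h2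
  obtain ⟨c, hc⟩ := (Submodule.mem_span_range_iff_exists_fun (ZMod p)).1
    (mem_span_of_iInf_ker_le_ker hLK)
  have hκ : ∀ σ : Gt π, kummer p ζ z₀ σ = ∑ y, c y * kummer p ζ (y : PadicAlgCl p) σ := by
    intro σ
    have h1 := LinearMap.congr_fun hc ⟨_, hE σ⟩
    rw [LinearMap.sum_apply] at h1
    exact h1.symm
  -- the product
  set Q₁ : PadicAlgCl p := ∏ y : s, (y : PadicAlgCl p) ^ (c y).val with hQ
  have hQ0 : Q₁ ≠ 0 := Finset.prod_ne_zero_iff.mpr fun y _ => pow_ne_zero _ (hy0 y y.2)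
  have hprod : ∀ (t : Finset s) (σ : Gt π),
      σ • (∏ y ∈ t, (y : PadicAlgCl p) ^ (c y).val) ^ p = (∏ y ∈ t, (y : PadicAlgCl p) ^ (c y).val) ^ p
      ∧ kummer p ζ (∏ y ∈ t, (y : PadicAlgCl p) ^ (c y).val) σ =
        ∑ y ∈ t, c y * kummer p ζ (y : PadicAlgCl p) σ := by
    intro t σ
    induction t using Finset.induction_on with
    | empty =>
      refine ⟨by simp, ?_⟩
      rw [Finset.prod_empty, Finset.sum_empty]
      exact kummer_of_fixed hζ one_ne_zero (smul_one σ)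
    | insert y t hy ih =>
      have h3 : σ • ((y : PadicAlgCl p) ^ (c y).val) ^ p = ((y : PadicAlgCl p) ^ (c y).val) ^ p := by
        rw [← pow_mul, mul_comm, pow_mul, smul_pow', hfy y y.2]
      have h4 : (∏ y ∈ t, (y : PadicAlgCl p) ^ (c y).val) ≠ 0 :=
        Finset.prod_ne_zero_iff.mpr fun y _ => pow_ne_zero _ (hy0 y y.2)
      rw [Finset.prod_insert hy, Finset.sum_insert hy]
      refine ⟨by rw [mul_pow, smul_mul', h3, ih.1], ?_⟩
      rw [kummer_mul hζ (pow_ne_zero _ (hy0 y y.2)) h4 h3 ih.1, ih.2,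
        kummer_pow hζ (hy0 y y.2) (hfy y y.2 σ), ZMod.natCast_zmod_val]
  have hw : InL π (z₀ / Q₁) := by
    intro σ hσ
    have h5 := hprod Finset.univ ⟨σ, hσ⟩
    have h6 : (⟨σ, hσ⟩ : Gt π) • (Q₁⁻¹) ^ p = (Q₁⁻¹) ^ p := by
      rw [inv_pow, smul_inv'', h5.1]
    have h7 : kummer p ζ (z₀ * Q₁⁻¹) (⟨σ, hσ⟩ : Gt π) = 0 := by
      rw [kummer_mul hζ hz0 (inv_ne_zero hQ0) (hfz _) h6, kummer_inv hζ hQ0 h5.1, hκ, h5.2,
        add_neg_cancel]
    have h8 := (kummer_eq_zero_iff hζ (mul_ne_zero hz0 (inv_ne_zero hQ0))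
      (by rw [mul_pow, smul_mul', hfz, h6])).1 h7
    rw [div_eq_mul_inv]
    exact h8
  obtain ⟨m, hm⟩ := hπ.norm_of_InL (div_ne_zero hz0 hQ0) hw
  have hQn : ‖Q₁‖ = 1 := by
    rw [hQ, norm_prod]
    exact Finset.prod_eq_one fun y _ => by rw [norm_pow, (hs y y.2).1, one_pow]
  rw [norm_div, hQn, div_one] at hm
  have h9 : ‖z₀‖ ^ p = ‖π‖ ^ (p ^ 2 - 1) := by
    rw [← norm_pow, ← norm_pow, hz₀, hπ.pow_eq]
  rw [hm, ← zpow_natCast, ← zpow_natCast, ← zpow_mul] at h9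
  have h10 := zpow_right_injective₀ hπ.norm_pos hπ.norm_lt_one.ne h9
  have h11 : ((p ^ 2 - 1 : ℕ) : ℤ) = (p : ℤ) ^ 2 - 1 := by
    have : 1 ≤ p ^ 2 := Nat.one_le_pow _ _ hp.out.pos
    push_cast [Nat.cast_sub this]
    ring
  rw [h11] at h10
  have h12 : (p : ℤ) ∣ 1 := ⟨p - m, by linear_combination h10⟩
  have h13 := Int.le_of_dvd one_pos h12
  have := hp.out.two_le
  omega

/-- **existence of `σ_p`** -/
theorem exists_isSigma {π : PadicAlgCl p} (hπ : IsPi π) : ∃ σ : GalLoc p, IsSigma π σ := by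
  classical
  obtain ⟨z₀, hz₀⟩ := IsAlgClosed.exists_pow_nat_eq (p : PadicAlgCl p) hp.out.pos
  let C : Finset {y : PadicAlgCl p // ‖y‖ = 1 ∧ InL π (y ^ p)} → Set (GalLoc p) := fun s =>
    {σ | σ ∈ Gt π} ∩ (⋂ y ∈ s, {σ | σ (y : PadicAlgCl p) = y}) ∩ {σ | σ z₀ ≠ z₀}
  have hclosed : ∀ s, IsClosed (C s) := fun s =>
    ((isClosed_Gt π).inter (isClosed_biInter
      fun (y : {y : PadicAlgCl p // ‖y‖ = 1 ∧ InL π (y ^ p)}) _ =>
      isClosed_apply (y : PadicAlgCl p) (fun x => x = (y : PadicAlgCl p)))).inter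
      (isClosed_apply z₀ (fun x => x ≠ z₀))
  have hne : (⋂ s, C s).Nonempty := by
    refine IsCompact.nonempty_iInter_of_directed_nonempty_isCompact_isClosed C ?_ ?_ ?_ hclosed
    · intro s t
      refine ⟨s ∪ t, ?_, ?_⟩
      · rintro σ ⟨⟨h1, h2⟩, h3⟩
        refine ⟨⟨h1, ?_⟩, h3⟩
        rw [Set.mem_iInter₂] at h2 ⊢
        exact fun y hy => h2 y (Finset.mem_union_left _ hy)
      · rintro σ ⟨⟨h1, h2⟩, h3⟩
        refine ⟨⟨h1, ?_⟩, h3⟩
        rw [Set.mem_iInter₂] at h2 ⊢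
        exact fun y hy => h2 y (Finset.mem_union_right _ hy)
    · intro s
      obtain ⟨σ, hσ, h1, h2⟩ := exists_finite hπ hz₀ (s.image Subtype.val) (fun y hy => by
        obtain ⟨⟨z, hz⟩, -, rfl⟩ := Finset.mem_image.mp hy
        exact hz)
      refine ⟨σ, ⟨hσ, ?_⟩, h2⟩
      rw [Set.mem_iInter₂]
      exact fun y hy => h1 y (Finset.mem_image_of_mem _ hy)
    · exact fun s => (hclosed s).isCompact
  obtain ⟨σ, hσ⟩ := hne
  rw [Set.mem_iInter] at hσ
  have hGt := (hσ ∅).1.1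
  refine ⟨σ, hGt, fun y hy hyL => ?_, fun z hz hσz => (hσ ∅).2 ?_⟩
  · have h1 := (hσ {⟨y, hy, hyL⟩}).1.2
    rw [Set.mem_iInter₂] at h1
    exact h1 ⟨y, hy, hyL⟩ (Finset.mem_singleton_self _)
  · haveI : NeZero p := ⟨hp.out.ne_zero⟩
    have hp0 : (p : PadicAlgCl p) ≠ 0 := by exact_mod_cast hp.out.ne_zero
    have hz0 : z ≠ 0 := by
      rintro rfl
      rw [zero_pow hp.out.ne_zero] at hz
      exact hp0 hz.symm
    have h1 : (z₀ / z) ^ p = 1 := by rw [div_pow, hz₀, hz, div_self hp0]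
    have h2 := hπ.zeta_InL h1 σ hGt
    rw [map_div₀, hσz] at h2
    have h3 := congrArg (· * z) h2
    simpa [hz0] using h3

end Fermat.Agent.PPart
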