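import Fermat.Agent.S32Lib.Kill

/-!
# Annihilators in the Galois group ring with Hecke coefficients

This is the argument of `S32Lib/Star` and `S32Lib/Kill` for the group ring with coefficients in the
polynomial ring of Hecke operators (the Hecke operator at `p` is allowed).
-/

set_option autoImplicit false
set_option linter.unusedSectionVars false
set_option linter.style.haveILetI false

open Polynomial

noncomputable section

namespace Fermat.Agent.PPart

open Fermat.Agent.RepTwo Fermat.Agent.S32Lib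

/-- the monoid homomorphism attached to commuting homomorphisms -/
def pairHom {G H R : Type*} [Monoid G] [Monoid H] [Monoid R] (f : G →* R) (ψ : H →* R)
    (hc : ∀ g a, f g * ψ a = ψ a * f g) : G × H →* R where
  toFun x := f x.1 * ψ x.2
  map_one' := by rw [Prod.fst_one, Prod.snd_one, map_one, map_one, one_mul]
  map_mul' x y := by
    rw [Prod.fst_mul, Prod.snd_mul, map_mul, map_mul, mul_assoc, mul_assoc, ← mul_assoc (f y.1),
      hc y.1 x.2, mul_assoc]

/-- formal combinations of pairs (Galois element, Hecke polynomial) -/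
abbrev GH (N : ℕ) (S : Set ℕ) : Type := FreeAbelianGroup (GQ × HeckePoly N S)

/-- action of `GH` -/
def actH {G H R : Type*} [Monoid G] [Monoid H] [Ring R] (f : G →* R) (ψ : H →* R)
    (hc : ∀ g a, f g * ψ a = ψ a * f g) : FreeAbelianGroup (G × H) →+* R :=
  FreeAbelianGroup.liftMonoid (pairHom f ψ hc)

theorem actH_of {G H R : Type*} [Monoid G] [Monoid H] [Ring R] (f : G →* R) (ψ : H →* R)
    (hc : ∀ g a, f g * ψ a = ψ a * f g) (x : G × H) :
    actH f ψ hc (FreeAbelianGroup.of x) = f x.1 * ψ x.2 := by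
  unfold actH
  exact FreeAbelianGroup.lift_apply_of _ _

section Star

variable {N p : ℕ} [NeZero N] {S : Set ℕ} {n : ℕ} (E : ESModule N p S n)

/-- the action on an Eichler–Shimura module -/
def actE : GH N S →+* Module.End (HeckePoly N S) E.V :=
  actH E.act (algebraMap (HeckePoly N S) (Module.End (HeckePoly N S) E.V)).toMonoidHom
    (fun g a => (Algebra.commutes a (E.act g)).symm)

theorem actE_of (g : GQ) (a : HeckePoly N S) :
    actE E (FreeAbelianGroup.of (g, a)) = E.act g * algebraMap (HeckePoly N S) _ a :=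
  actH_of _ _ _ _

variable {m : ℕ} (hm : ∀ x : E.V, (p ^ m : ℕ) • x = 0) (c : GQ → ℕ) (r : GQ → HeckePoly N S)
  (hc : ∀ g h, c (g * h) ≡ c g * c h [MOD p ^ m]) (hc1 : c 1 ≡ 1 [MOD p ^ m])
  (hr : ∀ g, E.act g * E.act g - algebraMap (HeckePoly N S) _ (r g) * E.act g
      + algebraMap (HeckePoly N S) _ ((c g : ℕ) : HeckePoly N S) = 0)

/-- the star operation -/
def starH : GH N S →+ Module.End (HeckePoly N S) E.V :=
  FreeAbelianGroup.lift fun x => c x.1 • (E.act x.1⁻¹ * algebraMap (HeckePoly N S) _ x.2)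

theorem starH_of (g : GQ) (a : HeckePoly N S) : starH E c (FreeAbelianGroup.of (g, a)) =
    c g • (E.act g⁻¹ * algebraMap (HeckePoly N S) _ a) :=
  FreeAbelianGroup.lift_apply_of _ _

/-- the Hecke trace -/
def tauH : GH N S →+ HeckePoly N S := FreeAbelianGroup.lift fun x => r x.1 * x.2

theorem tauH_of (g : GQ) (a : HeckePoly N S) : tauH r (FreeAbelianGroup.of (g, a)) = r g * a :=
  FreeAbelianGroup.lift_apply_of _ _

include hr in
theorem actE_add_starH (x : GH N S) :
    actE E x + starH E c x = algebraMap (HeckePoly N S) _ (tauH r x) := by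
  have h1 : (actE E).toAddMonoidHom + starH E c =
      ((algebraMap (HeckePoly N S) (Module.End (HeckePoly N S) E.V)).toAddMonoidHom).comp
        (tauH r) := by
    apply FreeAbelianGroup.lift_ext
    rintro ⟨g, a⟩
    change actE E (FreeAbelianGroup.of (g, a)) + starH E c (FreeAbelianGroup.of (g, a)) =
      algebraMap _ _ (tauH r (FreeAbelianGroup.of (g, a)))
    rw [actE_of, starH_of, tauH_of, map_mul, ← act_add_star E c r hr, add_mul, smul_mul_assoc]
  exact DFunLike.congr_fun h1 x

include hm hc in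
theorem starH_mul_of (x : GH N S) (h : GQ) :
    starH E c (x * FreeAbelianGroup.of (h, 1)) = (c h • E.act h⁻¹) * starH E c x := by
  have h1 : (starH E c).comp (AddMonoidHom.mulRight (FreeAbelianGroup.of (h, 1))) =
      (AddMonoidHom.mulLeft (c h • E.act h⁻¹)).comp (starH E c) := by
    apply FreeAbelianGroup.lift_ext
    rintro ⟨g, a⟩
    change starH E c (FreeAbelianGroup.of (g, a) * FreeAbelianGroup.of (h, 1)) =
      (c h • E.act h⁻¹) * starH E c (FreeAbelianGroup.of (g, a))
    rw [FreeAbelianGroup.of_mul_of, Prod.mk_mul_mk, mul_one, starH_of, starH_of,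
      smul_congr E hm (hc g h), mul_inv_rev, map_mul, smul_mul_smul_comm, mul_comm (c g),
      mul_assoc]
  exact DFunLike.congr_fun h1 x

variable {x : GH N S} (hx : actE E x = 0)

include hm hc hr hx in
theorem starH_eq_tauH : starH E c x = algebraMap (HeckePoly N S) _ (tauH r x) := by
  rw [← actE_add_starH E c r hr, hx, zero_add]

include hm hc hr hx in
theorem centralH (h : GQ) :
    (c h • E.act h⁻¹) * algebraMap (HeckePoly N S) _ (tauH r x) =
      algebraMap (HeckePoly N S) _ (tauH r (x * FreeAbelianGroup.of (h, 1))) := by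
  have h1 : actE E (x * FreeAbelianGroup.of (h, 1)) = 0 := by rw [map_mul, hx, zero_mul]
  rw [← starH_eq_tauH E hm c r hc hr h1, starH_mul_of E hm c hc,
    starH_eq_tauH E hm c r hc hr hx]

include hm hc hc1 hr hx in
theorem tauH_mul_comm (g k : GQ) :
    algebraMap (HeckePoly N S) (Module.End (HeckePoly N S) E.V) (tauH r x) *
      (E.act g * E.act k - E.act k * E.act g) = 0 := by
  set s := algebraMap (HeckePoly N S) (Module.End (HeckePoly N S) E.V) (tauH r x) with hs
  have hsc : ∀ f : Module.End (HeckePoly N S) E.V, s * f = f * s := fun f =>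
    Algebra.commutes (tauH r x) f
  have h1 := centralH E hm c r hc hr hx g⁻¹
  rw [inv_inv] at h1
  have h2 : (c g⁻¹ • E.act g) * s * E.act k = E.act k * ((c g⁻¹ • E.act g) * s) := by
    rw [h1]
    exact Algebra.commutes _ _
  have h3 := congrArg (c g • ·) h2
  beta_reduce at h3
  have h4 : c g * c g⁻¹ ≡ 1 [MOD p ^ m] := by
    refine (hc g g⁻¹).symm.trans ?_
    rw [mul_inv_cancel]
    exact hc1
  have h5 : ∀ f : Module.End (HeckePoly N S) E.V, c g • c g⁻¹ • f = f := by
    intro f
    rw [smul_smul, smul_congr E hm h4, one_smul]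
  rw [smul_mul_assoc, smul_mul_assoc, mul_smul_comm, h5, h5] at h3
  rw [mul_sub, sub_eq_zero, ← mul_assoc, hsc (E.act g), h3, ← mul_assoc, hsc, mul_assoc]

include hm hc hc1 hr hx in
/-- the key annihilation -/
theorem tauH_mul_sub_smul (g h k : GQ) (v : E.V) :
    (tauH r x * (r (g * h * k) - r (h * g * k))) • v = 0 := by
  set s := algebraMap (HeckePoly N S) (Module.End (HeckePoly N S) E.V) (tauH r x) with hs
  have hsc : ∀ f : Module.End (HeckePoly N S) E.V, s * f = f * s := fun f =>
    Algebra.commutes (tauH r x) f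
  have h1 := tauH_mul_comm E hm c r hc hc1 hr hx
  have e1 : s * (E.act (g * h * k) - E.act (h * g * k)) = 0 := by
    rw [map_mul, map_mul, map_mul, map_mul, ← sub_mul, ← mul_assoc, h1, zero_mul]
  have hcc : c (g * h * k) ≡ c (h * g * k) [MOD p ^ m] := by
    refine (hc _ _).trans (Nat.ModEq.trans ?_ (hc _ _).symm)
    refine Nat.ModEq.mul_right _ ?_
    refine (hc _ _).trans (Nat.ModEq.trans ?_ (hc _ _).symm)
    rw [mul_comm]
  have e2 : s * (c (g * h * k) • E.act (g * h * k)⁻¹ - c (h * g * k) • E.act (h * g * k)⁻¹) =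
      0 := by
    rw [smul_congr E hm hcc, ← smul_sub, mul_smul_comm]
    have e4 : s * (E.act (g * h * k)⁻¹ - E.act (h * g * k)⁻¹) = E.act k⁻¹ *
        (s * (E.act h⁻¹ * E.act g⁻¹ - E.act g⁻¹ * E.act h⁻¹)) := by
      rw [mul_inv_rev, mul_inv_rev, mul_inv_rev, mul_inv_rev, map_mul, map_mul, map_mul, map_mul,
        ← mul_sub, ← mul_assoc, hsc (E.act k⁻¹), mul_assoc]
    rw [e4, h1, mul_zero, smul_zero]
  have e3 : s * (algebraMap (HeckePoly N S) _ (r (g * h * k)) -
      algebraMap (HeckePoly N S) _ (r (h * g * k))) = 0 := by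
    rw [← act_add_star E c r hr, ← act_add_star E c r hr, add_sub_add_comm, mul_add, e1, e2,
      add_zero]
  have e4 := LinearMap.congr_fun e3 v
  rw [hs, ← map_sub, ← map_mul] at e4
  exact e4

end Star

/-- approximation by Frobenius elements, the Hecke operator at `p` being allowed -/
theorem exists_isApprox' {N p : ℕ} [NeZero N] (hFD : FrobeniusDensity) {S : Finset ℕ}
    (hNS : ∀ q : ℕ, q.Prime → q ∣ N → q ∈ S)
    (L : IntermediateField ℚ (AlgebraicClosure ℚ)) [FiniteDimensional ℚ L] (g : GQ) :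
    ∃ r c ℓ A F k, IsApprox N p (↑S : Set ℕ) L g r c ℓ A F k := by
  obtain ⟨ℓ, hℓ, hB, A, hA, F, hF, k, hk⟩ := hFD L g ((insert p S).sup id)
  have hℓS' : ℓ ∉ insert p S := fun h => by
    have := Finset.le_sup (f := id) h
    exact absurd hB (not_lt.mpr this)
  rw [Finset.mem_insert, not_or] at hℓS'
  have hℓN : ¬ ℓ ∣ N := fun h => hℓS'.2 (hNS ℓ hℓ h)
  exact ⟨_, _, ⟨ℓ, hℓ, hℓN, hℓS'.2⟩, A, F, k,
    { ne := hℓS'.1
      lies := hA
      frob := hF
      eqOn := hk
      hr := rfl
      hc := rfl }⟩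

/-- the action on the representation -/
def actT {N : ℕ} [NeZero N] {S : Set ℕ} {T : Type} [CommRing T] [IsLocalRing T]
    (π : CuspForm.heckeAlgebra N 2 S →+* T) (ρ : GaloisRepAdic T) : GH N S →+* Module.End T ρ.V :=
  actH ρ.ρ (((algebraMap T (Module.End T ρ.V)).comp
      (π.comp (evalHecke N S : HeckePoly N S →+* CuspForm.heckeAlgebra N 2 S))) :
        HeckePoly N S →* Module.End T ρ.V)
    (fun g a => (Algebra.commutes (π (evalHecke N S a)) (ρ.ρ g)).symm)

theorem actT_of {N : ℕ} [NeZero N] {S : Set ℕ} {T : Type} [CommRing T] [IsLocalRing T]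
    (π : CuspForm.heckeAlgebra N 2 S →+* T) (ρ : GaloisRepAdic T) (g : GQ) (a : HeckePoly N S) :
    actT π ρ (FreeAbelianGroup.of (g, a)) =
      ρ.ρ g * algebraMap T (Module.End T ρ.V) (π (evalHecke N S a)) :=
  actH_of _ _ _ _

/-- **annihilators of an Eichler–Shimura module kill the Galois representation modulo `I`.** -/
theorem killH {p : ℕ} {N : ℕ} [NeZero N] {S : Finset ℕ}
    {T : Type} [CommRing T] [IsLocalRing T] (hp : p.Prime)
    (hNS : ∀ q : ℕ, q.Prime → q ∣ N → q ∈ S)
    (π : CuspForm.heckeAlgebra N 2 (↑S : Set ℕ) →+* T) (ρ : GaloisRepAdic T)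
    (hρ : ∀ (ℓ : ℕ) (hℓ : ℓ.Prime) (hℓN : ¬ ℓ ∣ N) (hℓS : ℓ ∉ (↑S : Set ℕ)), ℓ ≠ p →
      ∀ A : ValuationSubring (AlgebraicClosure ℚ), A.LiesOverPrime ℓ →
      ∀ σ : AlgebraicClosure ℚ ≃ₐ[ℚ] AlgebraicClosure ℚ, A.IsFrobeniusAt σ ℓ →
        LinearMap.charpoly (ρ.ρ σ) =
          X ^ 2 - C (π (CuspForm.heckeAlgebra.T hℓ hℓN hℓS)) * X + C ((ℓ : T)))
    (habs : ρ.residual.IsAbsolutelyIrreducible) (I : Ideal T)
    {n : ℕ} (hpn : (p : T) ^ n ∈ I) (E : ESModule N p (↑S : Set ℕ) n)
    (L2 : IntermediateField ℚ (AlgebraicClosure ℚ)) (hL2f : FiniteDimensional ℚ L2)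
    (hL2 : ∀ σ : GQ, (∀ x ∈ L2, σ x = x) → ∀ v : ρ.V, ρ.ρ σ v - v ∈ I • (⊤ : Submodule T ρ.V))
    {x : GH N (↑S : Set ℕ)} (hx : actE E x = 0) (v : ρ.V) :
    actT π ρ x v ∈ I • (⊤ : Submodule T ρ.V) := by
  classical
  obtain ⟨m, hm⟩ := E.torsion
  obtain ⟨L1, hL1f, hL1⟩ := E.finiteLevel
  -- a primitive root of unity
  have : NeZero ((p ^ m : ℕ) : AlgebraicClosure ℚ) :=
    ⟨by exact_mod_cast pow_ne_zero m hp.ne_zero⟩
  obtain ⟨ζ, hζ⟩ := HasEnoughRootsOfUnity.exists_primitiveRoot (AlgebraicClosure ℚ) (p ^ m)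
  have hζint : IsIntegral ℚ ζ := Algebra.IsIntegral.isIntegral ζ
  have : FiniteDimensional ℚ (IntermediateField.adjoin ℚ {ζ}) :=
    IntermediateField.adjoin.finiteDimensional hζint
  have : FiniteDimensional ℚ ↥(L1 ⊔ L2) := IntermediateField.finiteDimensional_sup L1 L2
  set L : IntermediateField ℚ (AlgebraicClosure ℚ) :=
    (L1 ⊔ L2) ⊔ IntermediateField.adjoin ℚ {ζ} with hLdef
  have : FiniteDimensional ℚ L := IntermediateField.finiteDimensional_sup _ _
  have hζL : ζ ∈ L := by
    have : ζ ∈ IntermediateField.adjoin ℚ {ζ} := IntermediateField.mem_adjoin_simple_self ℚ ζ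
    exact (le_sup_right : IntermediateField.adjoin ℚ {ζ} ≤ L) this
  have hLE : ∀ σ : GQ, (∀ x ∈ L, σ x = x) → E.act σ = 1 := fun σ hσ =>
    hL1 σ fun x hx => hσ x ((le_sup_left.trans le_sup_left : L1 ≤ L) hx)
  have hLρ : ∀ σ : GQ, (∀ x ∈ L, σ x = x) → ∀ v : ρ.V,
      ρ.ρ σ v - v ∈ I • (⊤ : Submodule T ρ.V) := fun σ hσ =>
    hL2 σ fun x hx => hσ x ((le_sup_right.trans le_sup_left : L2 ≤ L) hx)
  choose r c ℓ B F k H using fun g : GQ =>
    exists_isApprox' (p := p) frobeniusDensity hNS L g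
  have hroot : ∀ g : GQ, g ζ = ζ ^ c g := fun g => (H g).apply_root hp hζL hζ.pow_eq_one
  have hc : ∀ g h : GQ, c (g * h) ≡ c g * c h [MOD p ^ m] := by
    intro g h
    apply modEq_of_apply_root (pow_ne_zero m hp.ne_zero) hζ
    rw [← hroot, AlgEquiv.mul_apply, hroot h, map_pow, hroot g, ← pow_mul]
  have hc1 : c 1 ≡ 1 [MOD p ^ m] := by
    apply modEq_of_apply_root (pow_ne_zero m hp.ne_zero) hζ
    rw [← hroot, pow_one]
    rfl
  have hr : ∀ g, E.act g * E.act g - algebraMap (HeckePoly N (↑S : Set ℕ)) _ (r g) * E.act g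
      + algebraMap (HeckePoly N (↑S : Set ℕ)) _ ((c g : ℕ) : HeckePoly N (↑S : Set ℕ)) = 0 :=
    fun g => E.quadratic hLE (H g)
  have htr : ∀ y : GH N (↑S : Set ℕ),
      LinearMap.trace T ρ.V (actT π ρ y) - π (evalHecke N _ (tauH r y)) ∈ I := by
    intro y
    induction y using FreeAbelianGroup.induction_on with
    | zero => rw [map_zero, map_zero, map_zero, map_zero, map_zero, sub_zero]; exact zero_mem I
    | of g =>
      obtain ⟨g, a⟩ := g
      have h1 := trace_sub_mem ρ π hρ I hLρ (H g)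
      have h2 : LinearMap.trace T ρ.V (actT π ρ (FreeAbelianGroup.of (g, a))) =
          π (evalHecke N (↑S : Set ℕ) a) * ρ.trace g := by
        rw [actT_of, Algebra.algebraMap_eq_smul_one, mul_smul_comm, mul_one, map_smul, smul_eq_mul]
        rfl
      rw [h2, tauH_of, map_mul, map_mul, mul_comm (π (evalHecke N (↑S : Set ℕ) (r g))), ← mul_sub]
      exact Ideal.mul_mem_left _ _ h1
    | neg g hg =>
      rw [map_neg, map_neg, map_neg, map_neg, map_neg, ← neg_sub', neg_mem_iff]
      exact hg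
    | add a b ha hb =>
      rw [map_add, map_add, map_add, map_add, map_add, add_sub_add_comm]
      exact add_mem ha hb
  obtain ⟨g, h, k', hghk⟩ := exists_trace_sub_notMem ρ habs
  have hunit : IsUnit (ρ.trace (g * h * k') - ρ.trace (h * g * k')) := by
    by_contra hcon
    exact hghk ((IsLocalRing.mem_maximalIdeal _).mpr hcon)
  -- traces of annihilators are in `I`
  have key : ∀ y : GH N (↑S : Set ℕ), actE E y = 0 →
      LinearMap.trace T ρ.V (actT π ρ y) ∈ I := by
    intro y hy
    obtain ⟨u, hu⟩ := E.faithful _ (tauH_mul_sub_smul E hm c r hc hc1 hr hy g h k')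
    have h1 : π (evalHecke N _ (tauH r y)) *
        (π (evalHecke N _ (r (g * h * k'))) - π (evalHecke N _ (r (h * g * k')))) ∈ I := by
      rw [← map_sub, ← map_sub, ← map_mul, ← map_mul, hu, map_nsmul, nsmul_eq_mul]
      apply Ideal.mul_mem_right
      push_cast
      exact hpn
    have h2 := htr y
    have h3 := trace_sub_mem ρ π hρ I hLρ (H (g * h * k'))
    have h4 := trace_sub_mem ρ π hρ I hLρ (H (h * g * k'))
    have h5 : LinearMap.trace T ρ.V (actT π ρ y) *
        (ρ.trace (g * h * k') - ρ.trace (h * g * k')) ∈ I := by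
      have h6 : LinearMap.trace T ρ.V (actT π ρ y) *
          (ρ.trace (g * h * k') - ρ.trace (h * g * k')) =
          (LinearMap.trace T ρ.V (actT π ρ y) - π (evalHecke N _ (tauH r y))) *
            (ρ.trace (g * h * k') - ρ.trace (h * g * k')) +
          π (evalHecke N _ (tauH r y)) * (ρ.trace (g * h * k') -
            π (evalHecke N _ (r (g * h * k')))) -
          π (evalHecke N _ (tauH r y)) * (ρ.trace (h * g * k') -
            π (evalHecke N _ (r (h * g * k')))) +
          π (evalHecke N _ (tauH r y)) *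
            (π (evalHecke N _ (r (g * h * k'))) - π (evalHecke N _ (r (h * g * k')))) := by
        ring
      rw [h6]
      exact add_mem (sub_mem (add_mem (Ideal.mul_mem_right _ _ h2) (Ideal.mul_mem_left _ _ h3))
        (Ideal.mul_mem_left _ _ h4)) h1
    exact (Ideal.mul_unit_mem_iff_mem I hunit).mp h5
  apply mem_smul_of_trace_mul_mem
  intro f
  have hf : f ∈ Submodule.span T (Set.range ρ.ρ) := by
    rw [span_range_eq_top_of_absIrr ρ habs]; exact Submodule.mem_top
  induction hf using Submodule.span_induction with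
  | mem y hy =>
    obtain ⟨σ, rfl⟩ := hy
    have h1 : ρ.ρ σ = actT π ρ (FreeAbelianGroup.of (σ, 1)) := by
      rw [actT_of, map_one, map_one, map_one, mul_one]
    rw [h1, ← map_mul]
    apply key
    rw [map_mul, hx, mul_zero]
  | zero => rw [zero_mul, map_zero]; exact zero_mem _
  | add a b _ _ ha hb => rw [add_mul, map_add]; exact add_mem ha hb
  | smul a y _ hy => rw [smul_mul_assoc, map_smul]; exact Ideal.mul_mem_left _ _ hy

end Fermat.Agent.PPart
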