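import Fermat.Agent.S32Lib.Kill
import Fermat.Agent.TwoAdic.KillRho

/-!
# Transfer between Eichler–Shimura modules and Galois representations, at all levels

Versions of the transfer lemmas of `S32Lib.Kill` and `TwoAdic.KillRho` in which the residue
characteristic `p` need not be in the set `S` of excluded primes.
-/

set_option autoImplicit false
set_option linter.unusedSectionVars false
set_option linter.style.haveILetI false

open Polynomial

noncomputable section

namespace Fermat.Agent.PPart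

open IsLocalRing Fermat.Agent.RepTwo Fermat.Agent.QComp Fermat.Agent.S32Lib
  Fermat.Agent.TwoAdic.Kill

section Approx

variable {N p : ℕ} [NeZero N]

/-- the approximation lemma, without the assumption `p ∈ S` -/
theorem exists_isApprox_pp {S : Finset ℕ}
    (hNS : ∀ q : ℕ, q.Prime → q ∣ N → q ∈ S)
    (L : IntermediateField ℚ (AlgebraicClosure ℚ)) [FiniteDimensional ℚ L] (g : GQ) :
    ∃ r c ℓ A F k, IsApprox N p (↑S : Set ℕ) L g r c ℓ A F k := by
  obtain ⟨ℓ, hℓ, hB, A, hA, F, hF, k, hk⟩ := frobeniusDensity L g (max (S.sup id) p)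
  have hℓS : ℓ ∉ S := fun h => by
    have := Finset.le_sup (f := id) h
    exact absurd (lt_of_le_of_lt (le_max_left _ _) hB) (not_lt.mpr this)
  have hℓN : ¬ ℓ ∣ N := fun h => hℓS (hNS ℓ hℓ h)
  exact ⟨_, _, ⟨ℓ, hℓ, hℓN, hℓS⟩, A, F, k,
    { ne := fun h => by
        change ℓ = p at h
        have := lt_of_le_of_lt (le_max_right (S.sup id) p) hB
        omega
      lies := hA
      frob := hF
      eqOn := hk
      hr := rfl
      hc := rfl }⟩

/-- existence of the quadratic relation -/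
theorem exists_quad_pp {S : Finset ℕ} (hp : p.Prime)
    (hNS : ∀ q : ℕ, q.Prime → q ∣ N → q ∈ S) {n : ℕ} (Λ : Level N p (↑S : Set ℕ) n) (g : GQ) :
    ∃ r c, Λ.Quad g r c := by
  have := Λ.fin
  obtain ⟨r, c, ℓ, A, F, k, H⟩ := exists_isApprox_pp (p := p) hNS Λ.L g
  exact ⟨r, c, Λ.quad_of_isApprox hp le_rfl H⟩

/-- traces and determinants are determined modulo `p ^ n` by the quadratic relations on an
Eichler–Shimura module, without the assumption `p ∈ S` -/
theorem trace_det_sub_mem_pp {S : Finset ℕ}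
    {T : Type} [CommRing T] [IsLocalRing T]
    (hp : p.Prime) (hpT : (p : T) ∈ IsLocalRing.maximalIdeal T)
    (hNS : ∀ q : ℕ, q.Prime → q ∣ N → q ∈ S)
    (π : CuspForm.heckeAlgebra N 2 (↑S : Set ℕ) →+* T) (ρ : GaloisRepAdic T)
    (hρ : ∀ (ℓ : ℕ) (hℓ : ℓ.Prime) (hℓN : ¬ ℓ ∣ N) (hℓS : ℓ ∉ (↑S : Set ℕ)), ℓ ≠ p →
      ∀ A : ValuationSubring (AlgebraicClosure ℚ), A.LiesOverPrime ℓ →
      ∀ σ : AlgebraicClosure ℚ ≃ₐ[ℚ] AlgebraicClosure ℚ, A.IsFrobeniusAt σ ℓ →
        LinearMap.charpoly (ρ.ρ σ) =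
          X ^ 2 - C (π (CuspForm.heckeAlgebra.T hℓ hℓN hℓS)) * X + C ((ℓ : T)))
    {n : ℕ} (Λ : Level N p (↑S : Set ℕ) n) {g : GQ} {r : HeckePoly N (↑S : Set ℕ)} {c : ℕ}
    (hq : Λ.Quad g r c) :
    ρ.trace g - π (evalHecke N _ r) ∈ IsLocalRing.maximalIdeal T ^ n ∧
      LinearMap.det (ρ.ρ g) - (c : T) ∈ IsLocalRing.maximalIdeal T ^ n := by
  obtain ⟨L2, hL2f, hL2⟩ := ρ.isAdicContinuous n
  have := Λ.fin
  have : FiniteDimensional ℚ ↥(Λ.L ⊔ L2) := IntermediateField.finiteDimensional_sup Λ.L L2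
  have hLρ : ∀ σ : GQ, (∀ x ∈ Λ.L ⊔ L2, σ x = x) → ∀ v : ρ.V,
      ρ.ρ σ v - v ∈ (IsLocalRing.maximalIdeal T ^ n) • (⊤ : Submodule T ρ.V) := fun σ hσ =>
    hL2 σ fun x hx => hσ x ((le_sup_right : L2 ≤ Λ.L ⊔ L2) hx)
  obtain ⟨r', c', ℓ, B, F, k, H⟩ := exists_isApprox_pp (p := p) hNS (Λ.L ⊔ L2) g
  have hq' := Λ.quad_of_isApprox hp le_sup_left H
  obtain ⟨⟨u, hu⟩, hc⟩ := Λ.congr hp rfl rfl hq hq'
  have hpn : ((p ^ n : ℕ) : T) ∈ IsLocalRing.maximalIdeal T ^ n := by
    push_cast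
    exact Ideal.pow_mem_pow hpT n
  constructor
  · have e1 := trace_sub_mem ρ π hρ _ hLρ H
    have e3 : π (evalHecke N _ r) - π (evalHecke N _ r') ∈ IsLocalRing.maximalIdeal T ^ n := by
      rw [← map_sub, hu, map_nsmul, nsmul_eq_mul]
      exact Ideal.mul_mem_right _ _ hpn
    have e4 : ρ.trace g - π (evalHecke N _ r) =
        (ρ.trace g - π (evalHecke N _ r')) - (π (evalHecke N _ r) - π (evalHecke N _ r')) := by
      ring
    rw [e4]
    exact Ideal.sub_mem _ e1 e3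
  · have e1 := det_sub_mem ρ π hρ _ hLρ H
    have e3 : (c : T) - (c' : T) ∈ IsLocalRing.maximalIdeal T ^ n := by
      have hdvd : ((p ^ n : ℕ) : ℤ) ∣ (c : ℤ) - (c' : ℤ) := by
        have h1 : ((p ^ Λ.m : ℕ) : ℤ) ∣ (c' : ℤ) - (c : ℤ) := (Nat.modEq_iff_dvd).mp hc
        have h2 : ((p ^ n : ℕ) : ℤ) ∣ ((p ^ Λ.m : ℕ) : ℤ) := by
          exact_mod_cast pow_dvd_pow p Λ.le
        have h3 := h2.trans h1
        rwa [← dvd_neg, neg_sub] at h3
      obtain ⟨d, hd⟩ := hdvd
      have h4 : (c : T) - (c' : T) = ((p ^ n : ℕ) : T) * (d : T) := by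
        have := congrArg (Int.cast : ℤ → T) hd
        push_cast at this ⊢
        exact this
      rw [h4]
      exact Ideal.mul_mem_right _ _ hpn
    have e4 : LinearMap.det (ρ.ρ g) - (c : T) =
        (LinearMap.det (ρ.ρ g) - (c' : T)) - ((c : T) - (c' : T)) := by ring
    rw [e4]
    exact Ideal.sub_mem _ e1 e3

end Approx

section Res

/-- **transfer modulo the maximal ideal.** If the Hecke polynomials killing an Eichler–Shimura
module are exactly those which are in the kernel of the residual character, then the group ring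
elements killing the module are exactly those which are zero residually. -/
theorem res_kill {p N : ℕ} [NeZero N] {S : Finset ℕ}
    {R : Type} [CommRing R] [IsLocalRing R] [Finite (ResidueField R)] (hp : p.Prime)
    (hNS : ∀ q : ℕ, q.Prime → q ∣ N → q ∈ S)
    (χ : CuspForm.heckeAlgebra N 2 (↑S : Set ℕ) →+* R) (ρ : GaloisRepAdic R)
    (hρ : ∀ (ℓ : ℕ) (hℓ : ℓ.Prime) (hℓN : ¬ ℓ ∣ N) (hℓS : ℓ ∉ (↑S : Set ℕ)), ℓ ≠ p →
      ∀ A : ValuationSubring (AlgebraicClosure ℚ), A.LiesOverPrime ℓ →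
      ∀ σ : AlgebraicClosure ℚ ≃ₐ[ℚ] AlgebraicClosure ℚ, A.IsFrobeniusAt σ ℓ →
        LinearMap.charpoly (ρ.ρ σ) =
          X ^ 2 - C (χ (CuspForm.heckeAlgebra.T hℓ hℓN hℓS)) * X + C ((ℓ : R)))
    (habs : ρ.residual.IsAbsolutelyIrreducible)
    (E : ESModule N p (↑S : Set ℕ) 0)
    (hE : ∀ t : HeckePoly N (↑S : Set ℕ), (∀ v : E.V, t • v = 0) ↔
      residue R (χ (evalHecke N (↑S : Set ℕ) t)) = 0) {x : GR} :
    actR E.act x = 0 ↔ ∀ v : ρ.V, actR ρ.ρ x v ∈ maximalIdeal R • (⊤ : Submodule R ρ.V) := by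
  classical
  set I := maximalIdeal R with hI
  set π := χ with hπ
  have hres : ∀ t : R, residue R t = 0 ↔ t ∈ I := fun t => residue_eq_zero_iff t
  obtain ⟨m, hm⟩ := E.torsion
  obtain ⟨L1, hL1f, hL1⟩ := E.finiteLevel
  obtain ⟨L2, hL2f, hL2⟩ := ρ.isAdicContinuous 1
  -- a primitive root of unity
  have : NeZero ((p ^ m : ℕ) : AlgebraicClosure ℚ) :=
    ⟨by exact_mod_cast pow_ne_zero m hp.ne_zero⟩
  obtain ⟨ζ, hζ⟩ := HasEnoughRootsOfUnity.exists_primitiveRoot (AlgebraicClosure ℚ) (p ^ m)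
  have hζint : IsIntegral ℚ ζ := Algebra.IsIntegral.isIntegral ζ
  have : FiniteDimensional ℚ (IntermediateField.adjoin ℚ {ζ}) :=
    IntermediateField.adjoin.finiteDimensional hζint
  have : FiniteDimensional ℚ ↥(L1 ⊔ L2) := IntermediateField.finiteDimensional_sup L1 L2
  set L : IntermediateField ℚ (AlgebraicClosure ℚ) :=
    (L1 ⊔ L2) ⊔ IntermediateField.adjoin ℚ {ζ} with hLdef
  have : FiniteDimensional ℚ L := IntermediateField.finiteDimensional_sup _ _
  have hζL : ζ ∈ L := by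
    have : ζ ∈ IntermediateField.adjoin ℚ {ζ} := IntermediateField.mem_adjoin_simple_self ℚ ζ
    exact (le_sup_right : IntermediateField.adjoin ℚ {ζ} ≤ L) this
  have hLE : ∀ σ : GQ, (∀ x ∈ L, σ x = x) → E.act σ = 1 := fun σ hσ =>
    hL1 σ fun x hx => hσ x ((le_sup_left.trans le_sup_left : L1 ≤ L) hx)
  have hLρ : ∀ σ : GQ, (∀ x ∈ L, σ x = x) → ∀ v : ρ.V,
      ρ.ρ σ v - v ∈ I • (⊤ : Submodule R ρ.V) := fun σ hσ => by
    have h := hL2 σ fun x hx => hσ x ((le_sup_right.trans le_sup_left : L2 ≤ L) hx)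
    rw [pow_one] at h
    exact h
  choose r c ℓ B F k H using fun g : GQ =>
    exists_isApprox_pp (p := p) (S := S) hNS L g
  have hroot : ∀ g : GQ, g ζ = ζ ^ c g := fun g => (H g).apply_root hp hζL hζ.pow_eq_one
  have hc : ∀ g h : GQ, c (g * h) ≡ c g * c h [MOD p ^ m] := by
    intro g h
    apply modEq_of_apply_root (pow_ne_zero m hp.ne_zero) hζ
    rw [← hroot, AlgEquiv.mul_apply, hroot h, map_pow, hroot g, ← pow_mul]
  have hc1 : c 1 ≡ 1 [MOD p ^ m] := by
    apply modEq_of_apply_root (pow_ne_zero m hp.ne_zero) hζ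
    rw [← hroot, pow_one]
    rfl
  have hr : ∀ g, E.act g * E.act g - algebraMap (HeckePoly N (↑S : Set ℕ)) _ (r g) * E.act g
      + algebraMap (HeckePoly N (↑S : Set ℕ)) _ ((c g : ℕ) : HeckePoly N (↑S : Set ℕ)) = 0 :=
    fun g => E.quadratic hLE (H g)
  have htr : ∀ y : GR, LinearMap.trace R ρ.V (actR ρ.ρ y) - π (evalHecke N _ (tau r y)) ∈ I := by
    intro y
    induction y using FreeAbelianGroup.induction_on with
    | zero => rw [map_zero, map_zero, map_zero, map_zero, map_zero, sub_zero]; exact zero_mem I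
    | of g =>
      rw [actR_of, tau_of]
      exact trace_sub_mem ρ π hρ I hLρ (H g)
    | neg g hg =>
      rw [map_neg, map_neg, map_neg, map_neg, map_neg, ← neg_sub', neg_mem_iff]
      exact hg
    | add a b ha hb =>
      rw [map_add, map_add, map_add, map_add, map_add, add_sub_add_comm]
      exact add_mem ha hb
  obtain ⟨g, h, k', hghk⟩ := exists_trace_sub_notMem ρ habs
  have hunit : IsUnit (ρ.trace (g * h * k') - ρ.trace (h * g * k')) := by
    by_contra hcon
    exact hghk ((IsLocalRing.mem_maximalIdeal _).mpr hcon)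
  constructor
  · intro hx v
    -- traces of annihilators are in `I`
    have key : ∀ y : GR, actR E.act y = 0 → LinearMap.trace R ρ.V (actR ρ.ρ y) ∈ I := by
      intro y hy
      have h0 := (hE _).mp (tau_mul_sub_smul E hm c r hc hc1 hr hy g h k')
      have h1 : π (evalHecke N _ (tau r y)) *
          (π (evalHecke N _ (r (g * h * k'))) - π (evalHecke N _ (r (h * g * k')))) ∈ I := by
        rw [← map_sub, ← map_sub, ← map_mul, ← map_mul]
        exact (hres _).mp h0
      have h2 := htr y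
      have h3 := trace_sub_mem ρ π hρ I hLρ (H (g * h * k'))
      have h4 := trace_sub_mem ρ π hρ I hLρ (H (h * g * k'))
      have h5 : LinearMap.trace R ρ.V (actR ρ.ρ y) *
          (ρ.trace (g * h * k') - ρ.trace (h * g * k')) ∈ I := by
        have h6 : LinearMap.trace R ρ.V (actR ρ.ρ y) *
            (ρ.trace (g * h * k') - ρ.trace (h * g * k')) =
            (LinearMap.trace R ρ.V (actR ρ.ρ y) - π (evalHecke N _ (tau r y))) *
              (ρ.trace (g * h * k') - ρ.trace (h * g * k')) +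
            π (evalHecke N _ (tau r y)) * (ρ.trace (g * h * k') -
              π (evalHecke N _ (r (g * h * k')))) -
            π (evalHecke N _ (tau r y)) * (ρ.trace (h * g * k') -
              π (evalHecke N _ (r (h * g * k')))) +
            π (evalHecke N _ (tau r y)) *
              (π (evalHecke N _ (r (g * h * k'))) - π (evalHecke N _ (r (h * g * k')))) := by
          ring
        rw [h6]
        exact add_mem (sub_mem (add_mem (Ideal.mul_mem_right _ _ h2) (Ideal.mul_mem_left _ _ h3))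
          (Ideal.mul_mem_left _ _ h4)) h1
      exact (Ideal.mul_unit_mem_iff_mem I hunit).mp h5
    apply mem_smul_of_trace_mul_mem
    intro f
    have hf : f ∈ Submodule.span R (Set.range ρ.ρ) := by
      rw [span_range_eq_top_of_absIrr ρ habs]; exact Submodule.mem_top
    induction hf using Submodule.span_induction with
    | mem y hy =>
      obtain ⟨σ, rfl⟩ := hy
      rw [← actR_of ρ.ρ σ, ← map_mul]
      apply key
      rw [map_mul, hx, mul_zero]
    | zero => rw [zero_mul, map_zero]; exact zero_mem _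
    | add a b _ _ ha hb => rw [add_mul, map_add]; exact add_mem ha hb
    | smul a y _ hy => rw [smul_mul_assoc, map_smul]; exact Ideal.mul_mem_left _ _ hy
  · intro hx
    -- residually trivial elements have trivial Hecke trace
    have hker : ∀ y : GR, (∀ v : ρ.V, actR ρ.ρ y v ∈ I • (⊤ : Submodule R ρ.V)) →
        algebraMap (HeckePoly N (↑S : Set ℕ)) (Module.End (HeckePoly N (↑S : Set ℕ)) E.V)
          (tau r y) = 0 := by
      intro y hy
      have h1 : LinearMap.trace R ρ.V (actR ρ.ρ y) ∈ I := trace_mem_of_mem_smul I _ hy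
      have h2 : π (evalHecke N _ (tau r y)) ∈ I := by
        have := sub_mem h1 (htr y)
        rwa [sub_sub_cancel] at this
      have h3 := (hE (tau r y)).mpr ((hres _).mpr h2)
      exact LinearMap.ext fun v => h3 v
    have hmulr : ∀ (y : GR) (z : GR), (∀ v : ρ.V, actR ρ.ρ y v ∈ I • (⊤ : Submodule R ρ.V)) →
        (∀ v : ρ.V, actR ρ.ρ (y * z) v ∈ I • (⊤ : Submodule R ρ.V)) := by
      intro y z hy v
      rw [map_mul, Module.End.mul_apply]
      exact hy _
    have hmull : ∀ (y : GR) (z : GR), (∀ v : ρ.V, actR ρ.ρ y v ∈ I • (⊤ : Submodule R ρ.V)) →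
        (∀ v : ρ.V, actR ρ.ρ (z * y) v ∈ I • (⊤ : Submodule R ρ.V)) := by
      intro y z hy v
      rw [map_mul, Module.End.mul_apply]
      refine Submodule.smul_induction_on (hy v) (fun a ha w _ => ?_) fun a b ha hb => ?_
      · rw [map_smul]
        exact Submodule.smul_mem_smul ha Submodule.mem_top
      · rw [map_add]
        exact Submodule.add_mem _ ha hb
    have hstar : ∀ y : GR, (∀ v : ρ.V, actR ρ.ρ y v ∈ I • (⊤ : Submodule R ρ.V)) →
        star E c y = - actR E.act y := by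
      intro y hy
      have h1 := actR_add_star E c r hr y
      rw [hker y hy] at h1
      exact eq_neg_of_add_eq_zero_right h1
    -- moving group elements across
    have hmove : ∀ y : GR, (∀ v : ρ.V, actR ρ.ρ y v ∈ I • (⊤ : Submodule R ρ.V)) → ∀ w : GQ,
        actR E.act y * E.act w = (c w • E.act w⁻¹) * actR E.act y := by
      intro y hy w
      have h1 := star_mul_of E hm c hc y w
      rw [hstar _ (hmulr y _ hy), hstar _ hy, mul_neg, neg_inj, map_mul, actR_of] at h1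
      exact h1
    -- invertibility of the cyclotomic values
    have hcinv : ∀ (w : GQ) (f : Module.End (HeckePoly N (↑S : Set ℕ)) E.V),
        c w⁻¹ • c w • f = f := by
      intro w f
      have h4 : c w⁻¹ * c w ≡ 1 [MOD p ^ m] := by
        refine (hc w⁻¹ w).symm.trans ?_
        rw [inv_mul_cancel]
        exact hc1
      rw [smul_smul, smul_congr E hm h4, one_smul]
    have hcomm : ∀ y : GR, (∀ v : ρ.V, actR ρ.ρ y v ∈ I • (⊤ : Submodule R ρ.V)) →
        ∀ a b : GQ, (E.act a * E.act b - E.act b * E.act a) * actR E.act y = 0 := by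
      intro y hy a b
      -- `X * (b⁻¹ a⁻¹)` in two ways
      have h1 := hmove y hy (a⁻¹ * b⁻¹)
      have h2 : actR E.act y * E.act (a⁻¹ * b⁻¹) =
          (c a⁻¹ • E.act a) * ((c b⁻¹ • E.act b) * actR E.act y) := by
        have e1 := hmove y hy a⁻¹
        have e2 := hmove y hy b⁻¹
        rw [inv_inv] at e1 e2
        rw [map_mul, ← mul_assoc, e1, mul_assoc, e2]
      rw [h2, mul_inv_rev, inv_inv, inv_inv, smul_congr E hm (hc _ _), map_mul] at h1
      have h3 : (c a⁻¹ * c b⁻¹) • ((E.act a * E.act b - E.act b * E.act a) * actR E.act y) = 0 := by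
        rw [smul_mul_assoc (c a⁻¹ * c b⁻¹)] at h1
        rw [sub_mul, smul_sub, sub_eq_zero, ← h1, smul_mul_assoc (c a⁻¹), smul_mul_assoc (c b⁻¹),
          mul_smul_comm, smul_smul, mul_assoc (E.act a)]
      have h4 := congrArg (fun z => c a • c b • z) h3
      beta_reduce at h4
      rw [smul_zero, smul_zero, mul_smul, smul_comm (c b) (c a⁻¹)] at h4
      have h5 := hcinv a⁻¹ (c b • c b⁻¹ • ((E.act a * E.act b - E.act b * E.act a) * actR E.act y))
      have h6 := hcinv b⁻¹ ((E.act a * E.act b - E.act b * E.act a) * actR E.act y)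
      rw [inv_inv] at h5 h6
      rw [h5, h6] at h4
      exact h4
    set X := actR E.act x with hX
    have e1 : (E.act (g * h * k') - E.act (h * g * k')) * X = 0 := by
      have h1 := hcomm (FreeAbelianGroup.of k' * x) (hmull x _ hx) g h
      rw [map_mul, actR_of, ← mul_assoc, sub_mul] at h1
      rw [map_mul, map_mul, map_mul, map_mul]
      exact h1
    have hcc : c (g * h * k') ≡ c (h * g * k') [MOD p ^ m] := by
      refine (hc _ _).trans (Nat.ModEq.trans ?_ (hc _ _).symm)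
      refine Nat.ModEq.mul_right _ ?_
      refine (hc _ _).trans (Nat.ModEq.trans ?_ (hc _ _).symm)
      rw [mul_comm]
    have e2 : (c (g * h * k') • E.act (g * h * k')⁻¹ - c (h * g * k') • E.act (h * g * k')⁻¹) * X =
        0 := by
      have h1 := hcomm x hx h⁻¹ g⁻¹
      rw [smul_congr E hm hcc, ← smul_sub, smul_mul_assoc]
      have h2 : (E.act (g * h * k')⁻¹ - E.act (h * g * k')⁻¹) * X = E.act k'⁻¹ *
          ((E.act h⁻¹ * E.act g⁻¹ - E.act g⁻¹ * E.act h⁻¹) * X) := by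
        rw [mul_inv_rev, mul_inv_rev, mul_inv_rev, mul_inv_rev, map_mul, map_mul, map_mul, map_mul,
          ← mul_sub, mul_assoc]
      rw [h2, h1, mul_zero, smul_zero]
    have e3 : (algebraMap (HeckePoly N (↑S : Set ℕ)) (Module.End (HeckePoly N (↑S : Set ℕ)) E.V)
        (r (g * h * k') - r (h * g * k'))) * X = 0 := by
      rw [map_sub, ← act_add_star E c r hr, ← act_add_star E c r hr, add_sub_add_comm, add_mul,
        e1, e2, add_zero]
    -- the coefficient acts invertibly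
    set δ := r (g * h * k') - r (h * g * k') with hδ
    have hδ0 : residue R (π (evalHecke N _ δ)) ≠ 0 := by
      intro h0
      have h1 := (hres _).mp h0
      rw [hδ, map_sub, map_sub] at h1
      have h3 := trace_sub_mem ρ π hρ I hLρ (H (g * h * k'))
      have h4 := trace_sub_mem ρ π hρ I hLρ (H (h * g * k'))
      apply hghk
      have h5 : ρ.trace (g * h * k') - ρ.trace (h * g * k') =
          (ρ.trace (g * h * k') - π (evalHecke N _ (r (g * h * k')))) -
          (ρ.trace (h * g * k') - π (evalHecke N _ (r (h * g * k')))) +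
          (π (evalHecke N _ (r (g * h * k'))) - π (evalHecke N _ (r (h * g * k')))) := by ring
      rw [h5]
      exact add_mem (sub_mem h3 h4) h1
    have : Fintype (ResidueField R) := Fintype.ofFinite _
    have hcard := Fintype.one_lt_card (α := ResidueField R)
    obtain ⟨q, hq⟩ : ∃ q, Fintype.card (ResidueField R) - 1 = q + 1 :=
      ⟨Fintype.card (ResidueField R) - 2, by omega⟩
    have hpow := FiniteField.pow_card_sub_one_eq_one _ hδ0
    have hact1 : ∀ v : E.V, (δ ^ (q + 1) - 1) • v = 0 := by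
      rw [hE, map_sub, map_sub, map_sub, map_one, map_one, map_one, map_pow, map_pow, map_pow,
        ← hq, hpow, sub_self]
    have hfin : X = algebraMap (HeckePoly N (↑S : Set ℕ))
        (Module.End (HeckePoly N (↑S : Set ℕ)) E.V) (δ ^ (q + 1)) * X := by
      apply LinearMap.ext
      intro v
      have h1 := hact1 (X v)
      rw [sub_smul, one_smul, sub_eq_zero] at h1
      rw [Module.End.mul_apply, Module.algebraMap_end_apply, h1]
    rw [hfin, pow_succ, map_mul, mul_assoc, e3, mul_zero]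

end Res

section Adic

variable {p N : ℕ} [NeZero N] {S : Finset ℕ} {R : Type} [CommRing R] [IsDomain R] [IsLocalRing R]

/-- `∑ tᵢ σᵢ` kills the `eₙ`-part of Eichler–Shimura modules of every precision -/
def KillsE (e : ℕ → HeckePoly N (↑S : Set ℕ)) {ι : Type} [Fintype ι]
    (t : ι → HeckePoly N (↑S : Set ℕ)) (σ : ι → GQ)
    (Λ : ∀ n, Level N p (↑S : Set ℕ) n) : Prop :=
  ∀ n, ∀ v : (Λ n).E.V, ∑ i, t i • (Λ n).E.act (σ i) (e n • v) = 0

theorem BB_eq_zero_pp [IsHausdorff (maximalIdeal R) R] (hp : p.Prime)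
    (hNS : ∀ q : ℕ, q.Prime → q ∣ N → q ∈ S)
    (hpR : (p : R) ∈ maximalIdeal R) (χ : CuspForm.heckeAlgebra N 2 (↑S : Set ℕ) →+* R)
    (ρ : GaloisRepAdic R)
    (hρ : ∀ (ℓ : ℕ) (hℓ : ℓ.Prime) (hℓN : ¬ ℓ ∣ N) (hℓS : ℓ ∉ (↑S : Set ℕ)), ℓ ≠ p →
      ∀ A : ValuationSubring (AlgebraicClosure ℚ), A.LiesOverPrime ℓ →
      ∀ σ : AlgebraicClosure ℚ ≃ₐ[ℚ] AlgebraicClosure ℚ, A.IsFrobeniusAt σ ℓ →
        LinearMap.charpoly (ρ.ρ σ) =
          X ^ 2 - C (χ (CuspForm.heckeAlgebra.T hℓ hℓN hℓS)) * X + C ((ℓ : R)))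
    {e : ℕ → HeckePoly N (↑S : Set ℕ)} (he : ∀ n, IsUnit (χ (evalHecke N (↑S : Set ℕ) (e n))))
    {Λ : ∀ n, Level N p (↑S : Set ℕ) n} {ι : Type} [Fintype ι]
    {t : ι → HeckePoly N (↑S : Set ℕ)} {σ : ι → GQ} (hkill : KillsE e t σ Λ) :
    BB (∑ i, χ (evalHecke N (↑S : Set ℕ) (t i)) • ρ.ρ (σ i))
      (∑ i, χ (evalHecke N (↑S : Set ℕ) (t i)) • ρ.ρ (σ i)) = 0 := by
  set ev := evalHecke N (↑S : Set ℕ) with hev
  have expand : BB (∑ i, χ (ev (t i)) • ρ.ρ (σ i)) (∑ i, χ (ev (t i)) • ρ.ρ (σ i)) =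
      (∑ i, χ (ev (t i)) * ρ.trace (σ i)) * (∑ i, χ (ev (t i)) * ρ.trace (σ i)) -
        ∑ i, ∑ j, χ (ev (t i)) * χ (ev (t j)) * ρ.trace (σ i * σ j) := by
    rw [BB]
    congr 1
    · simp only [map_sum, map_smul, smul_eq_mul]
      rfl
    · rw [Finset.sum_mul_sum, map_sum]
      refine Finset.sum_congr rfl fun i _ => ?_
      rw [map_sum]
      refine Finset.sum_congr rfl fun j _ => ?_
      rw [smul_mul_smul_comm, map_smul, smul_eq_mul, ← map_mul ρ.ρ]
      rfl
  have key : ∀ n, ((∑ i, χ (ev (t i)) * ρ.trace (σ i)) * (∑ i, χ (ev (t i)) * ρ.trace (σ i)) -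
        ∑ i, ∑ j, χ (ev (t i)) * χ (ev (t j)) * ρ.trace (σ i * σ j)) ∈
        maximalIdeal R ^ n := by
    intro n
    choose r c hrc using fun i => exists_quad_pp hp hNS (Λ n) (σ i)
    choose r' c' hrc' using fun i j => exists_quad_pp hp hNS (Λ n) (σ i * σ j)
    set B : HeckePoly N (↑S : Set ℕ) :=
      (∑ i, t i * r i) * (∑ i, t i * r i) - ∑ i, ∑ j, t i * t j * r' i j with hB
    have h1 : ∀ v : (Λ n).E.V, (B * e n) • v = 0 := by
      intro v
      rw [mul_smul]
      exact norm_smul_eq_zero hp (Λ n) hrc hrc' (hkill n v)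
    obtain ⟨u, hu⟩ := (Λ n).E.faithful _ h1
    have hpn : ((p ^ n : ℕ) : R) ∈ maximalIdeal R ^ n := by
      push_cast
      exact Ideal.pow_mem_pow hpR n
    have e1 : χ (ev (B * e n)) ∈ maximalIdeal R ^ n := by
      rw [hev, hu, map_nsmul, nsmul_eq_mul]
      exact Ideal.mul_mem_right _ _ hpn
    rw [map_mul, map_mul] at e1
    have e1' : χ (ev B) ∈ maximalIdeal R ^ n :=
      (Ideal.mul_unit_mem_iff_mem _ (he n)).mp e1
    have htr : ∀ i, ρ.trace (σ i) - χ (ev (r i)) ∈ maximalIdeal R ^ n := fun i =>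
      (trace_det_sub_mem_pp hp hpR hNS χ ρ hρ (Λ n) (hrc i)).1
    have htr' : ∀ i j, ρ.trace (σ i * σ j) - χ (ev (r' i j)) ∈ maximalIdeal R ^ n := fun i j =>
      (trace_det_sub_mem_pp hp hpR hNS χ ρ hρ (Λ n) (hrc' i j)).1
    have e2 : ((∑ i, χ (ev (t i)) * ρ.trace (σ i)) * (∑ i, χ (ev (t i)) * ρ.trace (σ i)) -
        ∑ i, ∑ j, χ (ev (t i)) * χ (ev (t j)) * ρ.trace (σ i * σ j)) - χ (ev B) ∈
        maximalIdeal R ^ n := by
      rw [← Ideal.Quotient.mk_eq_mk_iff_sub_mem]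
      have q1 : ∀ i, Ideal.Quotient.mk (maximalIdeal R ^ n) (ρ.trace (σ i)) =
          Ideal.Quotient.mk (maximalIdeal R ^ n) (χ (ev (r i))) := fun i =>
        Ideal.Quotient.mk_eq_mk_iff_sub_mem _ _ |>.mpr (htr i)
      have q2 : ∀ i j, Ideal.Quotient.mk (maximalIdeal R ^ n) (ρ.trace (σ i * σ j)) =
          Ideal.Quotient.mk (maximalIdeal R ^ n) (χ (ev (r' i j))) := fun i j =>
        Ideal.Quotient.mk_eq_mk_iff_sub_mem _ _ |>.mpr (htr' i j)
      simp only [hB, map_sub, map_mul, map_sum, q1, q2]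
    exact (Submodule.sub_mem_iff_left _ e1').mp e2
  rw [expand]
  apply IsHausdorff.haus (I := maximalIdeal R) inferInstance
  intro n
  rw [SModEq.zero, smul_eq_mul, Ideal.mul_top]
  exact key n

theorem KillsE.mul {e : ℕ → HeckePoly N (↑S : Set ℕ)} {Λ : ∀ n, Level N p (↑S : Set ℕ) n}
    {ι : Type} [Fintype ι] {t : ι → HeckePoly N (↑S : Set ℕ)} {σ : ι → GQ}
    (h : KillsE e t σ Λ) (g g' : GQ) : KillsE e t (fun i => g * σ i * g') Λ := by
  intro n v
  have h1 := h n ((Λ n).E.act g' v)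
  have h2 := congrArg ((Λ n).E.act g) h1
  rw [map_sum, map_zero] at h2
  rw [← h2]
  refine Finset.sum_congr rfl fun i _ => ?_
  have e1 : (Λ n).E.act g' (e n • v) = e n • (Λ n).E.act g' v := map_smul _ _ _
  rw [map_mul, map_mul, Module.End.mul_apply, Module.End.mul_apply, e1,
    map_smul ((Λ n).E.act g) (t i)]

theorem KillsE.add {e : ℕ → HeckePoly N (↑S : Set ℕ)} {Λ : ∀ n, Level N p (↑S : Set ℕ) n}
    {ι ι' : Type} [Fintype ι] [Fintype ι'] {t : ι → HeckePoly N (↑S : Set ℕ)} {σ : ι → GQ}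
    {t' : ι' → HeckePoly N (↑S : Set ℕ)} {σ' : ι' → GQ}
    (h : KillsE e t σ Λ) (h' : KillsE e t' σ' Λ) :
    KillsE e (Sum.elim t t') (Sum.elim σ σ') Λ := by
  intro n v
  rw [Fintype.sum_sum_type]
  simp only [Sum.elim_inl, Sum.elim_inr]
  rw [h n v, h' n v, add_zero]

/-- **transfer of relations to the adic representation**, with projectors depending on the
precision -/
theorem rho_eq_zero_pp [IsHausdorff (maximalIdeal R) R] [CharZero R] (hp : p.Prime)
    (hNS : ∀ q : ℕ, q.Prime → q ∣ N → q ∈ S)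
    (hpR : (p : R) ∈ maximalIdeal R) (χ : CuspForm.heckeAlgebra N 2 (↑S : Set ℕ) →+* R)
    (ρ : GaloisRepAdic R)
    (hρ : ∀ (ℓ : ℕ) (hℓ : ℓ.Prime) (hℓN : ¬ ℓ ∣ N) (hℓS : ℓ ∉ (↑S : Set ℕ)), ℓ ≠ p →
      ∀ A : ValuationSubring (AlgebraicClosure ℚ), A.LiesOverPrime ℓ →
      ∀ σ : AlgebraicClosure ℚ ≃ₐ[ℚ] AlgebraicClosure ℚ, A.IsFrobeniusAt σ ℓ →
        LinearMap.charpoly (ρ.ρ σ) =
          X ^ 2 - C (χ (CuspForm.heckeAlgebra.T hℓ hℓN hℓS)) * X + C ((ℓ : R)))
    (habs : ρ.residual.IsAbsolutelyIrreducible)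
    {e : ℕ → HeckePoly N (↑S : Set ℕ)} (he : ∀ n, IsUnit (χ (evalHecke N (↑S : Set ℕ) (e n))))
    {Λ : ∀ n, Level N p (↑S : Set ℕ) n} {ι : Type} [Fintype ι]
    {t : ι → HeckePoly N (↑S : Set ℕ)} {σ : ι → GQ} (hkill : KillsE e t σ Λ) :
    ∑ i, χ (evalHecke N (↑S : Set ℕ) (t i)) • ρ.ρ (σ i) = 0 := by
  set a := ∑ i, χ (evalHecke N (↑S : Set ℕ) (t i)) • ρ.ρ (σ i) with ha
  have hmul : ∀ g g' : GQ, ∑ i, χ (evalHecke N (↑S : Set ℕ) (t i)) • ρ.ρ (g * σ i * g') =
      ρ.ρ g * a * ρ.ρ g' := by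
    intro g g'
    rw [ha, Finset.mul_sum, Finset.sum_mul]
    refine Finset.sum_congr rfl fun i _ => ?_
    rw [map_mul, map_mul, mul_smul_comm, smul_mul_assoc]
  have key : ∀ g g' h h' : GQ, BB (ρ.ρ g * a * ρ.ρ g') (ρ.ρ h * a * ρ.ρ h') = 0 := by
    intro g g' h h'
    have k1 := BB_eq_zero_pp hp hNS hpR χ ρ hρ he (hkill.mul g g')
    have k2 := BB_eq_zero_pp hp hNS hpR χ ρ hρ he (hkill.mul h h')
    have k3 := BB_eq_zero_pp hp hNS hpR χ ρ hρ he ((hkill.mul g g').add (hkill.mul h h'))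
    rw [Fintype.sum_sum_type] at k3
    simp only [Sum.elim_inl, Sum.elim_inr] at k3
    rw [hmul] at k1 k2
    rw [hmul, hmul, BB_add, BB_add', BB_add', k1, k2, BB_comm (ρ.ρ h * a * ρ.ρ h')] at k3
    have h2 : (2 : R) * BB (ρ.ρ g * a * ρ.ρ g') (ρ.ρ h * a * ρ.ρ h') = 0 := by
      linear_combination k3
    exact (mul_eq_zero.mp h2).resolve_left two_ne_zero
  refine eq_zero_of_BB ρ.finrank_eq a (Set.range ρ.ρ) (span_range_eq_top_of_absIrr ρ habs) ?_
  rintro _ ⟨g, rfl⟩ _ ⟨g', rfl⟩ _ ⟨h, rfl⟩ _ ⟨h', rfl⟩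
  exact key g g' h h'

end Adic

end Fermat.Agent.PPart
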